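/-
GATE-E (S59) / E8 TOP, abstract half (helper20): **the descent to a minimal level on the divisor
lattice**, Mathlib only.

`R M`  = "`ρ̄` is (residually) modular of level `M`",  `U q` = "`ρ̄` is unramified at `q`".

* `exists_min_away` : from
    `hSQ`  : `q ∥ L'`, `q ≠ p`, `R (L' q) → R L'`            (level lowering at `q²`: node SQ),
    `hLLQ` : `M` squarefree, `q ∣ M`, `q ≠ p`, `U q`, `R M → R (M / q)`   (Ribet, node LLQ = S38-shape),
  and `R M₀` with `p² ∤ M₀`, `q³ ∤ M₀` (`q ≠ p`):  a SQUAREFREE `M ∣ M₀` with `R M` which is minimal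
  away from `p` (no prime `q ≠ p` of `M` has `U q`).
* `exists_min_not_dvd` : with moreover `hLLP : M squarefree → p ∣ M → R M → R (M / p)` (node LLP,
  S39/S40-shape): the same with `p ∤ M`.
-/
import Mathlib

set_option autoImplicit false

namespace Fermat.Agent.GE8.Top.DescentAbs

/-- a natural number none of whose prime squares divides it is squarefree (`p` singled out). -/
theorem squarefree_of_forall {p M : ℕ} (hp2 : ¬ p ^ 2 ∣ M)
    (h : ∀ q : ℕ, q.Prime → q ≠ p → ¬ q ^ 2 ∣ M) : Squarefree M := by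
  rw [Nat.squarefree_iff_prime_squarefree]
  intro x hx hxx
  rw [← pow_two] at hxx
  by_cases hxp : x = p
  · exact hp2 (hxp ▸ hxx)
  · exact h x hx hxp hxx

/-- **descent away from `p`.** -/
theorem exists_min_away {p : ℕ} (R U : ℕ → Prop)
    (hSQ : ∀ L' q : ℕ, L' ≠ 0 → q.Prime → q ≠ p → q ∣ L' → ¬ q ^ 2 ∣ L' → R (L' * q) → R L')
    (hLLQ : ∀ M q : ℕ, Squarefree M → q.Prime → q ≠ p → q ∣ M → U q → R M → R (M / q)) :
    ∀ M₀ : ℕ, M₀ ≠ 0 → ¬ p ^ 2 ∣ M₀ → (∀ q : ℕ, q.Prime → q ≠ p → ¬ q ^ 3 ∣ M₀) → R M₀ →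
      ∃ M : ℕ, M ∣ M₀ ∧ Squarefree M ∧ R M ∧ ∀ q : ℕ, q.Prime → q ≠ p → q ∣ M → ¬ U q := by
  intro M₀
  induction M₀ using Nat.strong_induction_on with
  | _ M₀ ih =>
    intro hM₀ hp2 hcube hR
    by_cases hA : ∃ q : ℕ, q.Prime ∧ q ≠ p ∧ q ^ 2 ∣ M₀
    · -- a square factor `q²`, `q ≠ p`: node SQ
      obtain ⟨q, hq, hqp, hq2⟩ := hA
      have hqM : q ∣ M₀ := (dvd_pow_self q two_ne_zero).trans hq2
      obtain ⟨L', hL'⟩ := hqM
      -- `M₀ = q * L'`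
      have hL'0 : L' ≠ 0 := by
        rintro rfl
        exact hM₀ (by rw [hL', mul_zero])
      have hqL' : q ∣ L' := by
        rw [hL', pow_two] at hq2
        exact Nat.dvd_of_mul_dvd_mul_left hq.pos hq2
      have hq2L' : ¬ q ^ 2 ∣ L' := by
        intro h
        apply hcube q hq hqp
        rw [hL', pow_succ' q 2]
        exact Nat.mul_dvd_mul_left q h
      have hL'M : L' ∣ M₀ := ⟨q, by rw [hL', mul_comm]⟩
      have hlt : L' < M₀ := by
        rw [hL']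
        have h2 := hq.two_le
        have hpos : 0 < L' := Nat.pos_of_ne_zero hL'0
        nlinarith
      have hRL' : R L' := hSQ L' q hL'0 hq hqp hqL' hq2L' (by rw [mul_comm, ← hL']; exact hR)
      obtain ⟨M, hMd, hMsq, hRM, hmin⟩ := ih L' hlt hL'0 (fun h => hp2 (h.trans hL'M))
        (fun r hr hrp h => hcube r hr hrp (h.trans hL'M)) hRL'
      exact ⟨M, hMd.trans hL'M, hMsq, hRM, hmin⟩
    · -- `M₀` is squarefree
      have hsq : Squarefree M₀ := squarefree_of_forall hp2 (fun q hq hqp h => hA ⟨q, hq, hqp, h⟩)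
      by_cases hB : ∃ q : ℕ, q.Prime ∧ q ≠ p ∧ q ∣ M₀ ∧ U q
      · -- an unramified prime `q ≠ p` of the level: node LLQ
        obtain ⟨q, hq, hqp, hqM, hU⟩ := hB
        have hRq : R (M₀ / q) := hLLQ M₀ q hsq hq hqp hqM hU hR
        have hdM : M₀ / q ∣ M₀ := Nat.div_dvd_of_dvd hqM
        have hd0 : M₀ / q ≠ 0 := by
          intro h0
          rcases (Nat.div_eq_zero_iff).mp h0 with h | h
          · exact hq.ne_zero h
          · exact absurd (Nat.le_of_dvd (Nat.pos_of_ne_zero hM₀) hqM) (not_le.mpr h)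
        have hlt : M₀ / q < M₀ := Nat.div_lt_self (Nat.pos_of_ne_zero hM₀) hq.one_lt
        obtain ⟨M, hMd, hMsq, hRM, hmin⟩ := ih (M₀ / q) hlt hd0 (fun h => hp2 (h.trans hdM))
          (fun r hr hrp h => hcube r hr hrp (h.trans hdM)) hRq
        exact ⟨M, hMd.trans hdM, hMsq, hRM, hmin⟩
      · -- minimal
        exact ⟨M₀, dvd_rfl, hsq, hR, fun q hq hqp hqM hU => hB ⟨q, hq, hqp, hqM, hU⟩⟩

/-- **the step at `p`**: a squarefree level which is minimal away from `p` can be made prime to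
`p` (node LLP). -/
theorem exists_not_dvd_of_min {p : ℕ} (hp : p.Prime) (R U : ℕ → Prop)
    (hLLP : ∀ M : ℕ, Squarefree M → p ∣ M → R M → R (M / p))
    {M : ℕ} (hsq : Squarefree M) (hR : R M)
    (hmin : ∀ q : ℕ, q.Prime → q ≠ p → q ∣ M → ¬ U q) :
    ∃ M' : ℕ, M' ∣ M ∧ Squarefree M' ∧ ¬ p ∣ M' ∧ R M' ∧
      ∀ q : ℕ, q.Prime → q ≠ p → q ∣ M' → ¬ U q := by
  by_cases hpM : p ∣ M
  · have hd : M / p ∣ M := Nat.div_dvd_of_dvd hpM
    refine ⟨M / p, hd, hsq.squarefree_of_dvd hd, ?_, hLLP M hsq hpM hR,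
      fun q hq hqp hqM => hmin q hq hqp (hqM.trans hd)⟩
    intro hpd
    obtain ⟨k, hk⟩ := hpM
    have hkk : M / p = k := by rw [hk]; exact Nat.mul_div_cancel_left k hp.pos
    rw [hkk] at hpd
    obtain ⟨j, hj⟩ := hpd
    have : p * p ∣ M := ⟨j, by rw [hk, hj, mul_assoc]⟩
    exact hp.one_lt.ne' (Nat.isUnit_iff.mp (hsq p this))
  · exact ⟨M, dvd_rfl, hsq, hpM, hR, hmin⟩

/-- **descent to a minimal level prime to `p`.** -/
theorem exists_min_not_dvd {p : ℕ} (hp : p.Prime) (R U : ℕ → Prop)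
    (hSQ : ∀ L' q : ℕ, L' ≠ 0 → q.Prime → q ≠ p → q ∣ L' → ¬ q ^ 2 ∣ L' → R (L' * q) → R L')
    (hLLQ : ∀ M q : ℕ, Squarefree M → q.Prime → q ≠ p → q ∣ M → U q → R M → R (M / q))
    (hLLP : ∀ M : ℕ, Squarefree M → p ∣ M → R M → R (M / p))
    (M₀ : ℕ) (hM₀ : M₀ ≠ 0) (hp2 : ¬ p ^ 2 ∣ M₀)
    (hcube : ∀ q : ℕ, q.Prime → q ≠ p → ¬ q ^ 3 ∣ M₀) (hR : R M₀) :
    ∃ M : ℕ, M ∣ M₀ ∧ Squarefree M ∧ ¬ p ∣ M ∧ R M ∧
      ∀ q : ℕ, q.Prime → q ≠ p → q ∣ M → ¬ U q := by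
  obtain ⟨M, hMd, hMsq, hRM, hmin⟩ := exists_min_away R U hSQ hLLQ M₀ hM₀ hp2 hcube hR
  obtain ⟨M', hM'd, hM'sq, hpM', hRM', hmin'⟩ :=
    exists_not_dvd_of_min hp R U hLLP hMsq hRM hmin
  exact ⟨M', hM'd.trans hMd, hM'sq, hpM', hRM', hmin'⟩

end Fermat.Agent.GE8.Top.DescentAbs
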