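/-
GATE-E (S59) / E8 TOP, abstract half, SIDE-CONDITION form (helper20): **the descent to a minimal
level when node SQ is only available with the frame side conditions**
`(q = 2 → 3 ∣ L')`, `(q = 3 → 2 ∣ L')` (= `GE8/SQ/AuxPlug.SQSideStmt` = `GE8/SQ/AuxSS.SQStmtSS`).
Mathlib + `GE8/Top/DescentAbs` only.

`R M`  = "`ρ̄` is (residually) modular of level `M`",  `U q` = "`ρ̄` is unramified at `q`".

* `exists_sqfree_side`  : squares away from `p` are removed by SQ-with-side-conditions as soon as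
                          `(4 ∣ M₀ → 3 ∣ M₀)` and `(9 ∣ M₀ → 2 ∣ M₀)`;
* `exists_min_of_squarefree` : the LLQ half of `DescentAbs.exists_min_away` alone;
* `exists_min_away_side` : the full descent away from `p`: if necessary the auxiliary factor `3`
                          (resp. `2`) is put into the level first (`hmono`) and taken out again at
                          the end (it is unramified: `hUlev`; then LLQ).  When the auxiliary factor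
                          is `p` itself (`p = 3`, `4 ∣ M₀`, `3 ∤ M₀`) it may stay: `M ∣ M₀ * p`.
* `exists_min_not_dvd_side` : with node LLP: `p ∤ M`, hence `M ∣ M₀`.
-/
import Mathlib
import Fermat.Agent.GE8.Top.DescentAbs

set_option autoImplicit false

namespace Fermat.Agent.GE8.Top.DescentSide

open Fermat.Agent.GE8.Top.DescentAbs

/-- `rad (L' q) = rad L'` for `q ∣ L'`: a prime dividing `L' * q` divides `L'`. -/
theorem prime_dvd_of_dvd_mul_of_dvd {L' q r : ℕ} (hr : r.Prime) (hq : q.Prime) (hqL' : q ∣ L')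
    (h : r ∣ L' * q) : r ∣ L' := by
  rcases (Nat.Prime.dvd_mul hr).mp h with h1 | h1
  · exact h1
  · rw [(Nat.prime_dvd_prime_iff_eq hr hq).mp h1]
    exact hqL'

/-- **squares away from `p` are removed by SQ with side conditions.** -/
theorem exists_sqfree_side {p : ℕ} (R : ℕ → Prop)
    (hSQ : ∀ L' q : ℕ, L' ≠ 0 → q.Prime → q ≠ p → q ∣ L' → ¬ q ^ 2 ∣ L' →
      (q = 2 → 3 ∣ L') → (q = 3 → 2 ∣ L') → R (L' * q) → R L')
    (M₀ : ℕ) (hM₀ : M₀ ≠ 0) (hp2 : ¬ p ^ 2 ∣ M₀)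
    (hcube : ∀ q : ℕ, q.Prime → q ≠ p → ¬ q ^ 3 ∣ M₀) (hR : R M₀)
    (h43 : 4 ∣ M₀ → 3 ∣ M₀) (h92 : 9 ∣ M₀ → 2 ∣ M₀) :
    ∃ M : ℕ, M ∣ M₀ ∧ Squarefree M ∧ R M := by
  obtain ⟨M, hMd, hMsq, ⟨hRM, -, -⟩, -⟩ :=
    exists_min_away (p := p) (fun M => R M ∧ (4 ∣ M → 3 ∣ M) ∧ (9 ∣ M → 2 ∣ M))
      (fun _ => False)
      (fun L' q hL' hq hqp hqL' hq2 h => by
        obtain ⟨hRq, h43q, h92q⟩ := h
        have h2side : q = 2 → 3 ∣ L' := by
          intro hq2'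
          subst hq2'
          have h4 : 4 ∣ L' * 2 := by
            obtain ⟨k, hk⟩ := hqL'
            exact ⟨k, by rw [hk]; ring⟩
          exact prime_dvd_of_dvd_mul_of_dvd Nat.prime_three hq hqL' (h43q h4)
        have h3side : q = 3 → 2 ∣ L' := by
          intro hq3
          subst hq3
          have h9 : 9 ∣ L' * 3 := by
            obtain ⟨k, hk⟩ := hqL'
            exact ⟨k, by rw [hk]; ring⟩
          exact prime_dvd_of_dvd_mul_of_dvd Nat.prime_two hq hqL' (h92q h9)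
        refine ⟨hSQ L' q hL' hq hqp hqL' hq2 h2side h3side hRq, fun h4 => ?_, fun h9 => ?_⟩
        · exact prime_dvd_of_dvd_mul_of_dvd Nat.prime_three hq hqL'
            (h43q (h4.trans (Dvd.intro _ rfl)))
        · exact prime_dvd_of_dvd_mul_of_dvd Nat.prime_two hq hqL'
            (h92q (h9.trans (Dvd.intro _ rfl))))
      (fun M q _ _ _ _ hU _ => hU.elim)
      M₀ hM₀ hp2 hcube ⟨hR, h43, h92⟩
  exact ⟨M, hMd, hMsq, hRM⟩

/-- **the LLQ half of the descent**: a squarefree level is lowered to one which is minimal away from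
`p`. -/
theorem exists_min_of_squarefree {p : ℕ} (R U : ℕ → Prop)
    (hLLQ : ∀ M q : ℕ, Squarefree M → q.Prime → q ≠ p → q ∣ M → U q → R M → R (M / q)) :
    ∀ M₁ : ℕ, Squarefree M₁ → R M₁ →
      ∃ M : ℕ, M ∣ M₁ ∧ Squarefree M ∧ R M ∧ ∀ q : ℕ, q.Prime → q ≠ p → q ∣ M → ¬ U q := by
  intro M₁
  induction M₁ using Nat.strong_induction_on with
  | _ M₁ ih =>
    intro hsq hR
    have hM₁ : M₁ ≠ 0 := hsq.ne_zero
    by_cases hB : ∃ q : ℕ, q.Prime ∧ q ≠ p ∧ q ∣ M₁ ∧ U q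
    · obtain ⟨q, hq, hqp, hqM, hU⟩ := hB
      have hRq : R (M₁ / q) := hLLQ M₁ q hsq hq hqp hqM hU hR
      have hdM : M₁ / q ∣ M₁ := Nat.div_dvd_of_dvd hqM
      have hlt : M₁ / q < M₁ := Nat.div_lt_self (Nat.pos_of_ne_zero hM₁) hq.one_lt
      obtain ⟨M, hMd, hMsq, hRM, hmin⟩ := ih (M₁ / q) hlt (hsq.squarefree_of_dvd hdM) hRq
      exact ⟨M, hMd.trans hdM, hMsq, hRM, hmin⟩
    · exact ⟨M₁, dvd_rfl, hsq, hR, fun q hq hqp hqM hU => hB ⟨q, hq, hqp, hqM, hU⟩⟩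

/-- the level `M₀ * a` for a prime `a ∤ M₀`: the hypotheses of the descent are inherited. -/
theorem not_sq_dvd_mul_prime {M₀ a q : ℕ} (ha : a.Prime) (haM : ¬ a ∣ M₀) (hq : q.Prime)
    (k : ℕ) (hk : 2 ≤ k) (h : ¬ q ^ k ∣ M₀) : ¬ q ^ k ∣ M₀ * a := by
  intro hd
  by_cases hqa : q = a
  · subst hqa
    apply haM
    have h2 : q ^ 2 ∣ M₀ * q := (pow_dvd_pow q hk).trans hd
    rw [pow_two] at h2
    exact Nat.dvd_of_mul_dvd_mul_right hq.pos h2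
  · have hcop : Nat.Coprime (q ^ k) a := Nat.Coprime.pow_left k ((Nat.coprime_primes hq ha).2 hqa)
    exact h (hcop.dvd_of_dvd_mul_right hd)

/-- **descent away from `p`, SQ with side conditions.** -/
theorem exists_min_away_side {p : ℕ} (hp : p.Prime) (R U : ℕ → Prop)
    (hmono : ∀ M M' : ℕ, R M → M ∣ M' → M' ≠ 0 → R M')
    (hUlev : ∀ M r : ℕ, M ≠ 0 → R M → r.Prime → r ≠ p → ¬ r ∣ M → U r)
    (hSQ : ∀ L' q : ℕ, L' ≠ 0 → q.Prime → q ≠ p → q ∣ L' → ¬ q ^ 2 ∣ L' →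
      (q = 2 → 3 ∣ L') → (q = 3 → 2 ∣ L') → R (L' * q) → R L')
    (hLLQ : ∀ M q : ℕ, Squarefree M → q.Prime → q ≠ p → q ∣ M → U q → R M → R (M / q))
    (M₀ : ℕ) (hM₀ : M₀ ≠ 0) (hp2 : ¬ p ^ 2 ∣ M₀)
    (hcube : ∀ q : ℕ, q.Prime → q ≠ p → ¬ q ^ 3 ∣ M₀) (hR : R M₀) :
    ∃ M : ℕ, M ∣ M₀ * p ∧ Squarefree M ∧ R M ∧ ∀ q : ℕ, q.Prime → q ≠ p → q ∣ M → ¬ U q := by
  -- the descent from a level `M₀ * a`, `a` a prime not dividing `M₀`
  have key : ∀ a : ℕ, a.Prime → ¬ a ∣ M₀ → (4 ∣ M₀ * a → 3 ∣ M₀ * a) → (9 ∣ M₀ * a → 2 ∣ M₀ * a) →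
      ∃ M : ℕ, M ∣ M₀ * p ∧ Squarefree M ∧ R M ∧
        ∀ q : ℕ, q.Prime → q ≠ p → q ∣ M → ¬ U q := by
    intro a ha haM h43 h92
    have h0 : M₀ * a ≠ 0 := mul_ne_zero hM₀ ha.ne_zero
    obtain ⟨M₁, hM₁d, hM₁sq, hRM₁⟩ := exists_sqfree_side (p := p) R hSQ (M₀ * a) h0
      (not_sq_dvd_mul_prime ha haM hp 2 le_rfl hp2)
      (fun q hq hqp => not_sq_dvd_mul_prime ha haM hq 3 (by norm_num) (hcube q hq hqp))
      (hmono M₀ (M₀ * a) hR (Dvd.intro _ rfl) h0) h43 h92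
    obtain ⟨M, hMd, hMsq, hRM, hmin⟩ := exists_min_of_squarefree (p := p) R U hLLQ M₁ hM₁sq hRM₁
    refine ⟨M, ?_, hMsq, hRM, hmin⟩
    have hMa : M ∣ M₀ * a := hMd.trans hM₁d
    by_cases hap : a = p
    · rw [← hap]; exact hMa
    · have hUa : U a := hUlev M₀ a hM₀ hR ha hap haM
      have haM' : ¬ a ∣ M := fun h => hmin a ha hap h hUa
      have hcop : Nat.Coprime M a := ((Nat.Prime.coprime_iff_not_dvd ha).2 haM').symm
      exact (hcop.dvd_of_dvd_mul_right hMa).trans (Dvd.intro _ rfl)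
  by_cases h1 : 4 ∣ M₀ ∧ ¬ 3 ∣ M₀
  · -- auxiliary factor `3`
    refine key 3 Nat.prime_three h1.2 (fun _ => Dvd.intro_left _ rfl) (fun _ => ?_)
    exact (by norm_num : 2 ∣ 4).trans (h1.1.trans (Dvd.intro _ rfl))
  · by_cases h2 : 9 ∣ M₀ ∧ ¬ 2 ∣ M₀
    · -- auxiliary factor `2`
      refine key 2 Nat.prime_two h2.2 (fun _ => ?_) (fun _ => Dvd.intro_left _ rfl)
      exact (by norm_num : 3 ∣ 9).trans (h2.1.trans (Dvd.intro _ rfl))
    · -- no auxiliary factor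
      have h43 : 4 ∣ M₀ → 3 ∣ M₀ := fun h4 => by
        by_contra h3
        exact h1 ⟨h4, h3⟩
      have h92 : 9 ∣ M₀ → 2 ∣ M₀ := fun h9 => by
        by_contra h3
        exact h2 ⟨h9, h3⟩
      obtain ⟨M₁, hM₁d, hM₁sq, hRM₁⟩ :=
        exists_sqfree_side (p := p) R hSQ M₀ hM₀ hp2 hcube hR h43 h92
      obtain ⟨M, hMd, hMsq, hRM, hmin⟩ :=
        exists_min_of_squarefree (p := p) R U hLLQ M₁ hM₁sq hRM₁
      exact ⟨M, (hMd.trans hM₁d).trans (Dvd.intro _ rfl), hMsq, hRM, hmin⟩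

/-- **descent to a minimal level prime to `p`, SQ with side conditions.** -/
theorem exists_min_not_dvd_side {p : ℕ} (hp : p.Prime) (R U : ℕ → Prop)
    (hmono : ∀ M M' : ℕ, R M → M ∣ M' → M' ≠ 0 → R M')
    (hUlev : ∀ M r : ℕ, M ≠ 0 → R M → r.Prime → r ≠ p → ¬ r ∣ M → U r)
    (hSQ : ∀ L' q : ℕ, L' ≠ 0 → q.Prime → q ≠ p → q ∣ L' → ¬ q ^ 2 ∣ L' →
      (q = 2 → 3 ∣ L') → (q = 3 → 2 ∣ L') → R (L' * q) → R L')
    (hLLQ : ∀ M q : ℕ, Squarefree M → q.Prime → q ≠ p → q ∣ M → U q → R M → R (M / q))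
    (hLLP : ∀ M : ℕ, Squarefree M → p ∣ M → R M → R (M / p))
    (M₀ : ℕ) (hM₀ : M₀ ≠ 0) (hp2 : ¬ p ^ 2 ∣ M₀)
    (hcube : ∀ q : ℕ, q.Prime → q ≠ p → ¬ q ^ 3 ∣ M₀) (hR : R M₀) :
    ∃ M : ℕ, M ∣ M₀ ∧ Squarefree M ∧ ¬ p ∣ M ∧ R M ∧
      ∀ q : ℕ, q.Prime → q ≠ p → q ∣ M → ¬ U q := by
  obtain ⟨M, hMd, hMsq, hRM, hmin⟩ :=
    exists_min_away_side hp R U hmono hUlev hSQ hLLQ M₀ hM₀ hp2 hcube hR
  obtain ⟨M', hM'd, hM'sq, hpM', hRM', hmin'⟩ :=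
    exists_not_dvd_of_min hp R U hLLP hMsq hRM hmin
  have hcop : Nat.Coprime M' p := ((Nat.Prime.coprime_iff_not_dvd hp).2 hpM').symm
  exact ⟨M', hcop.dvd_of_dvd_mul_right (hM'd.trans hMd), hM'sq, hpM', hRM', hmin'⟩

/-- **the dichotomy at `p`**: a squarefree level minimal away from `p` is either prime to `p`, or
`p` cannot be removed from it (after possibly removing it). -/
theorem exists_min_dich {p : ℕ} (hp : p.Prime) (R U : ℕ → Prop) {M : ℕ} (hsq : Squarefree M)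
    (hR : R M) (hmin : ∀ q : ℕ, q.Prime → q ≠ p → q ∣ M → ¬ U q) :
    ∃ M' : ℕ, M' ∣ M ∧ Squarefree M' ∧ R M' ∧ (∀ q : ℕ, q.Prime → q ≠ p → q ∣ M' → ¬ U q) ∧
      (¬ p ∣ M' ∨ (p ∣ M' ∧ ¬ R (M' / p))) := by
  by_cases hpM : p ∣ M
  · by_cases hRp : R (M / p)
    · have hd : M / p ∣ M := Nat.div_dvd_of_dvd hpM
      refine ⟨M / p, hd, hsq.squarefree_of_dvd hd, hRp,
        fun q hq hqp hqM => hmin q hq hqp (hqM.trans hd), Or.inl ?_⟩
      intro hpd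
      obtain ⟨k, hk⟩ := hpM
      have hkk : M / p = k := by rw [hk]; exact Nat.mul_div_cancel_left k hp.pos
      rw [hkk] at hpd
      obtain ⟨j, hj⟩ := hpd
      have : p * p ∣ M := ⟨j, by rw [hk, hj, mul_assoc]⟩
      exact hp.one_lt.ne' (Nat.isUnit_iff.mp (hsq p this))
    · exact ⟨M, dvd_rfl, hsq, hR, hmin, Or.inr ⟨hpM, hRp⟩⟩
  · exact ⟨M, dvd_rfl, hsq, hR, hmin, Or.inl hpM⟩

end Fermat.Agent.GE8.Top.DescentSide
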