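/-
GATE-E (S59) / E8 TOP (helper20): **the descent of `ρ̄_{W,p}` to a minimal level, in hypothesis form
over the E8 node statements.**  Light file: Prelude + the abstract descent
`GE8/Top/DescentAbs` + helper80's `GE8/RaiseP/Stmt` (Prelude only).

Node statements (each a `Prop`; plugs in `GE8/Top/MinLevelPlug`):

* `SQSemiStmt p`  : node SQ for semistable curves (`q ∥ L'`, `q ≠ p`: level `L' q ⟹ L'`)
                    = the type of helper21's `GE8/SQ/Unip.sq_semistable` (helper97's `SQStmt`);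
* `LLQStmt p`     : node LLQ = the frozen S38 at this `p`, binders VERBATIM (every `W`);
* `LLPGoodStmt p` : node LLP, good case     = the frozen S40 at this `p`;
* `LLPPeuStmt p`  : node LLP, peu ramifiée  = the frozen S39 at this `p`;
* `RaisePStmt p`  : node RAISE-P (helper80 `GE8/RaiseP/Stmt`).

Output, for `W` semistable with `W[p]` irreducible, residually modular of level `M₀` as in the
frozen S59 (`p² ∤ M₀`, `q³ ∤ M₀` for `q ≠ p`), `ρ̄ := residualGaloisRepOf p hcard₁ hker`: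

* `exists_minLevel_away`  : `M ∣ M₀` SQUAREFREE, residually modular, and every prime `q ≠ p` of `M`
                            is RAMIFIED in `ρ̄`  (= `P.Su = ∅` of helper26's `GE8/MinDatum`);
* `exists_minLevel_FL`    : `W` good at `p`: moreover `p ∤ M`   (input of `exists_minDatum_FL`);
* `exists_minLevel_peu`   : `ρ̄` peu ramifiée at `p`: moreover `p ∤ M`;
* `exists_minLevel_SO_peu`: `W` multiplicative at `p`, peu ramifiée: `N` as above, `p ∤ N`, and (under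
                            the side condition `p = 3 → 2 ∣ N` of RAISE-P) `W` is residually modular of
                            level `N p` through a `p`-NEW eigenform.
-/
import Mathlib
import Fermat.Prelude.Def_GaloisRep_Residual
import Fermat.Prelude.Def_FLTPrelim_ModularRep
import Fermat.Prelude.Def_WeierstrassCurve_PeuRamifiee
import Fermat.Agent.GE8.Top.DescentAbs
import Fermat.Agent.GE8.RaiseP.Stmt

set_option autoImplicit false

open WeierstrassCurve WeierstrassCurve.Affine WeierstrassCurve.Affine.Point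

namespace Fermat.Agent.GE8.Top.MinLevel

open Fermat.Agent.GE8.Top.DescentAbs Fermat.Agent.GE8.RaiseP.Stmt

/-- **node SQ for semistable curves**: `q ∥ L'`, `q ≠ p`, residually modular of level `L' q` ⟹ of
level `L'`. -/
def SQSemiStmt (p : ℕ) : Prop :=
  ∀ (W : WeierstrassCurve ℤ), W.IsSemistableModel → W.Δ ≠ 0 → W.ModRepIsIrreducible p →
    ∀ (L' q : ℕ), L' ≠ 0 → q.Prime → q ≠ p → q ∣ L' → ¬ q ^ 2 ∣ L' →
      W.IsResiduallyModularOfLevel p (L' * q) → W.IsResiduallyModularOfLevel p L'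

/-- **node LLQ** = the frozen S38 at the prime `p` (binders in the frozen order). -/
def LLQStmt (p : ℕ) [Fact p.Prime] : Prop :=
  ∀ (W : WeierstrassCurve ℤ), W.Δ ≠ 0 → W.IsSemistableModel →
    ∀ (hcard₁ : Nat.card (Submodule.torsionBy ℤ
      ((W.map (Int.castRingHom ℚ))⁄(AlgebraicClosure ℚ)).Point p) = p ^ 2)
    (hker : GaloisFactorsThroughFiniteLevel
      (WeierstrassCurve.Affine.Point.galoisRepModuleEnd (K := AlgebraicClosure ℚ) ℚ
        (W.map (Int.castRingHom ℚ)) p)),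
    W.ModRepIsIrreducible p → ∀ (M q : ℕ), q.Prime → q ≠ p → q ∣ M → ¬ q ^ 2 ∣ M → Squarefree M →
    ((W.map (Int.castRingHom ℚ)).residualGaloisRepOf p hcard₁ hker).IsUnramifiedAt q →
    W.IsResiduallyModularOfLevel p M → W.IsResiduallyModularOfLevel p (M / q)

/-- **node LLP, good case** = the frozen S40 at the prime `p`. -/
def LLPGoodStmt (p : ℕ) : Prop :=
  ∀ (W : WeierstrassCurve ℤ), W.Δ ≠ 0 → W.IsGoodPrimeFor p → W.ModRepIsIrreducible p →
    ∀ {M : ℕ}, 0 < M → p ∣ M → ¬ p ^ 2 ∣ M → W.IsResiduallyModularOfLevel p M →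
      W.IsResiduallyModularOfLevel p (M / p)

/-- **node LLP, peu ramifiée case** = the frozen S39 at the prime `p`. -/
def LLPPeuStmt (p : ℕ) : Prop :=
  ∀ (W : WeierstrassCurve ℤ), W.Δ ≠ 0 → ((p : ℤ) ∣ W.Δ → ¬ (p : ℤ) ∣ W.c₄) →
    W.ModRepIsIrreducible p → (W.map (Int.castRingHom ℚ)).IsPeuRamifieeAt p p →
    ∀ {M : ℕ}, 0 < M → p ∣ M → ¬ p ^ 2 ∣ M → W.IsResiduallyModularOfLevel p M →
      W.IsResiduallyModularOfLevel p (M / p)

/-- a good prime is peu ramifiée: S39-shape ⟹ S40-shape. -/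
theorem llpGood_of_llpPeu {p : ℕ} (hp : p.Prime) (h : LLPPeuStmt p) : LLPGoodStmt p := by
  intro W hΔ hgood hirr M hM hpM hp2M hres
  refine h W hΔ (fun hd => absurd hd hgood) hirr ?_ hM hpM hp2M hres
  -- `v_p(Δ) = 0`
  unfold WeierstrassCurve.IsPeuRamifieeAt
  have hΔmap : (W.map (Int.castRingHom ℚ)).Δ = ((W.Δ : ℤ) : ℚ) := by
    rw [WeierstrassCurve.map_Δ]
    rfl
  have : Fact p.Prime := ⟨hp⟩
  have hv : padicValRat p (W.map (Int.castRingHom ℚ)).Δ = 0 := by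
    rw [hΔmap, padicValRat.of_int]
    exact_mod_cast (padicValInt.eq_zero_of_not_dvd hgood)
  rw [hv]
  exact dvd_zero _

theorem not_sq_dvd_of_squarefree {M q : ℕ} (hsq : Squarefree M) (hq : q.Prime) : ¬ q ^ 2 ∣ M := by
  intro h
  rw [pow_two] at h
  exact hq.one_lt.ne' (Nat.isUnit_iff.mp (hsq q h))

section Descent

variable {p : ℕ} [hpF : Fact p.Prime] (W : WeierstrassCurve ℤ) (hΔ : W.Δ ≠ 0) (hW : W.IsSemistableModel)
  (hirr : W.ModRepIsIrreducible p)
  (hcard₁ : Nat.card (Submodule.torsionBy ℤ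
    ((W.map (Int.castRingHom ℚ))⁄(AlgebraicClosure ℚ)).Point p) = p ^ 2)
  (hker : GaloisFactorsThroughFiniteLevel
    (WeierstrassCurve.Affine.Point.galoisRepModuleEnd (K := AlgebraicClosure ℚ) ℚ
      (W.map (Int.castRingHom ℚ)) p))

include hΔ hW hirr in
/-- **the descent away from `p`**: a squarefree level, minimal away from `p`. -/
theorem exists_minLevel_away (hSQ : SQSemiStmt p) (hLLQ : LLQStmt p)
    (M₀ : ℕ) (hM₀ : M₀ ≠ 0) (hres₀ : W.IsResiduallyModularOfLevel p M₀) (hp2M : ¬ p ^ 2 ∣ M₀)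
    (hcube : ∀ q : ℕ, q.Prime → q ≠ p → ¬ q ^ 3 ∣ M₀) :
    ∃ M : ℕ, M ∣ M₀ ∧ Squarefree M ∧ W.IsResiduallyModularOfLevel p M ∧
      ∀ q : ℕ, q.Prime → q ≠ p → q ∣ M →
        ¬ ((W.map (Int.castRingHom ℚ)).residualGaloisRepOf p hcard₁ hker).IsUnramifiedAt q :=
  exists_min_away (fun M => W.IsResiduallyModularOfLevel p M)
    (fun q => ((W.map (Int.castRingHom ℚ)).residualGaloisRepOf p hcard₁ hker).IsUnramifiedAt q)
    (fun L' q hL' hq hqp hqL' hq2 h => hSQ W hW hΔ hirr L' q hL' hq hqp hqL' hq2 h)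
    (fun M q hM hq hqp hqM hU h =>
      hLLQ W hΔ hW hcard₁ hker hirr M q hq hqp hqM (not_sq_dvd_of_squarefree hM hq) hM hU h)
    M₀ hM₀ hp2M hcube hres₀

include hΔ hW hirr in
/-- **the descent, peu ramifiée at `p`**: a squarefree level PRIME TO `p`, minimal away from `p`. -/
theorem exists_minLevel_peu (hSQ : SQSemiStmt p) (hLLQ : LLQStmt p)
    (hLLP : LLPPeuStmt p) (hfin : (W.map (Int.castRingHom ℚ)).IsPeuRamifieeAt p p)
    (M₀ : ℕ) (hM₀ : M₀ ≠ 0) (hres₀ : W.IsResiduallyModularOfLevel p M₀) (hp2M : ¬ p ^ 2 ∣ M₀)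
    (hcube : ∀ q : ℕ, q.Prime → q ≠ p → ¬ q ^ 3 ∣ M₀) :
    ∃ M : ℕ, M ∣ M₀ ∧ Squarefree M ∧ ¬ p ∣ M ∧ W.IsResiduallyModularOfLevel p M ∧
      ∀ q : ℕ, q.Prime → q ≠ p → q ∣ M →
        ¬ ((W.map (Int.castRingHom ℚ)).residualGaloisRepOf p hcard₁ hker).IsUnramifiedAt q :=
  exists_min_not_dvd hpF.out (fun M => W.IsResiduallyModularOfLevel p M)
    (fun q => ((W.map (Int.castRingHom ℚ)).residualGaloisRepOf p hcard₁ hker).IsUnramifiedAt q)
    (fun L' q hL' hq hqp hqL' hq2 h => hSQ W hW hΔ hirr L' q hL' hq hqp hqL' hq2 h)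
    (fun M q hM hq hqp hqM hU h =>
      hLLQ W hΔ hW hcard₁ hker hirr M q hq hqp hqM (not_sq_dvd_of_squarefree hM hq) hM hU h)
    (fun M hM hpM h => hLLP W hΔ (hW p hpF.out) hirr hfin (Nat.pos_of_ne_zero hM.ne_zero) hpM
      (not_sq_dvd_of_squarefree hM hpF.out) h)
    M₀ hM₀ hp2M hcube hres₀

include hΔ hW hirr in
/-- **the descent, flat case** (`W` good at `p`): a squarefree level PRIME TO `p`, minimal away from
`p` — the hypotheses of helper26's `GE8/MinDatum.exists_minDatum_FL`. -/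
theorem exists_minLevel_FL (hSQ : SQSemiStmt p) (hLLQ : LLQStmt p)
    (hLLP : LLPGoodStmt p) (hgood : W.IsGoodPrimeFor p)
    (M₀ : ℕ) (hM₀ : M₀ ≠ 0) (hres₀ : W.IsResiduallyModularOfLevel p M₀) (hp2M : ¬ p ^ 2 ∣ M₀)
    (hcube : ∀ q : ℕ, q.Prime → q ≠ p → ¬ q ^ 3 ∣ M₀) :
    ∃ M : ℕ, M ∣ M₀ ∧ Squarefree M ∧ ¬ p ∣ M ∧ W.IsResiduallyModularOfLevel p M ∧
      ∀ q : ℕ, q.Prime → q ≠ p → q ∣ M →
        ¬ ((W.map (Int.castRingHom ℚ)).residualGaloisRepOf p hcard₁ hker).IsUnramifiedAt q :=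
  exists_min_not_dvd hpF.out (fun M => W.IsResiduallyModularOfLevel p M)
    (fun q => ((W.map (Int.castRingHom ℚ)).residualGaloisRepOf p hcard₁ hker).IsUnramifiedAt q)
    (fun L' q hL' hq hqp hqL' hq2 h => hSQ W hW hΔ hirr L' q hL' hq hqp hqL' hq2 h)
    (fun M q hM hq hqp hqM hU h =>
      hLLQ W hΔ hW hcard₁ hker hirr M q hq hqp hqM (not_sq_dvd_of_squarefree hM hq) hM hU h)
    (fun M hM hpM h => hLLP W hΔ hgood hirr (Nat.pos_of_ne_zero hM.ne_zero) hpM
      (not_sq_dvd_of_squarefree hM hpF.out) h)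
    M₀ hM₀ hp2M hcube hres₀

include hΔ hW hirr in
/-- **the descent, multiplicative peu ramifiée case**: the minimal level `N` prime to `p`, and (under
the side condition of RAISE-P) the `p`-NEW eigenform of level `N p`. -/
theorem exists_minLevel_SO_peu (hSQ : SQSemiStmt p) (hLLQ : LLQStmt p)
    (hLLP : LLPPeuStmt p) (hraise : RaisePStmt p) (hmult : (p : ℤ) ∣ W.Δ)
    (hfin : (W.map (Int.castRingHom ℚ)).IsPeuRamifieeAt p p)
    (M₀ : ℕ) (hM₀ : M₀ ≠ 0) (hres₀ : W.IsResiduallyModularOfLevel p M₀) (hp2M : ¬ p ^ 2 ∣ M₀)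
    (hcube : ∀ q : ℕ, q.Prime → q ≠ p → ¬ q ^ 3 ∣ M₀) :
    ∃ N : ℕ, N ∣ M₀ ∧ Squarefree N ∧ ¬ p ∣ N ∧ W.IsResiduallyModularOfLevel p N ∧
      (∀ q : ℕ, q.Prime → q ≠ p → q ∣ N →
        ¬ ((W.map (Int.castRingHom ℚ)).residualGaloisRepOf p hcard₁ hker).IsUnramifiedAt q) ∧
      ((p = 3 → 2 ∣ N) → IsResiduallyModularNewAt W p (N * p) p) := by
  obtain ⟨N, hNd, hNsq, hpN, hres, hmin⟩ := exists_minLevel_peu W hΔ hW hirr hcard₁ hker hSQ hLLQ
    hLLP hfin M₀ hM₀ hres₀ hp2M hcube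
  exact ⟨N, hNd, hNsq, hpN, hres, hmin, fun hside =>
    hraise W hΔ hmult (hW p hpF.out hmult) hirr (Nat.pos_of_ne_zero hNsq.ne_zero) hpN hside hres⟩

end Descent

end Fermat.Agent.GE8.Top.MinLevel
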