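/-
GATE-E (S59) / E8 TOP, SIDE-CONDITION form (helper20): **the descent of `ρ̄_{W,p}` to a minimal
level over the node SQ AS IT IS PROVABLE** — `GE8/SQ/AuxPlug.SQSideStmt` (= `AuxSS.SQStmtSS`), i.e.
SQ for semistable `W` with the frame side conditions `(q = 2 → 3 ∣ L')`, `(q = 3 → 2 ∣ L')`.
(`GE8/Top/MinLevel.SQSemiStmt` has no side condition and is NOT what node E8.2 delivers.)

The auxiliary factor `3` (resp. `2`) is put into the level by old forms
(`SplitT.isResiduallyModularOfLevel_of_dvd`) and taken out again at the end: it is unramified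
(`GE8/LLQ/MinLevel.isUnramifiedAt_of_resMod`), so LLQ removes it; when it is `p` itself
(`p = 3`, `4 ∣ M₀`, `3 ∤ M₀`) node LLP removes it.

For `W` semistable, `W[p]` irreducible, `p` odd, residually modular of level `M₀`, `p² ∤ M₀`,
`q³ ∤ M₀` (`q ≠ p`), `ρ̄ := residualGaloisRepOf p hcard₁ hker`:

* `exists_minLevel_away_side`  : `M ∣ M₀ p` SQUAREFREE, residually modular, every prime `q ≠ p` of `M`
                                 RAMIFIED in `ρ̄`;
* `exists_minLevel_dich_side`  : moreover `p ∤ M`, or `p ∣ M` and `W` is NOT residually modular of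
                                 level `M / p` (the binder `hX` of `GE8/MinDatum/Hbar.hbar_SO`);
* `exists_minLevel_FL_side`    : `W` good at `p` (node `LLPGoodStmt p`): `M ∣ M₀`, `p ∤ M`;
* `exists_minLevel_peu_side`   : `ρ̄` peu ramifiée at `p` (node `LLPPeuStmt p`): `M ∣ M₀`, `p ∤ M`;
* `exists_minLevel_SO_peu_side`: `W` multiplicative at `p`, peu ramifiée: moreover (side condition
                                 `p = 3 → 2 ∣ N` of RAISE-P) the `p`-NEW eigenform of level `N p`.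
-/
import Mathlib
import Fermat.Agent.GE8.Top.MinLevel
import Fermat.Agent.GE8.Top.DescentSide
import Fermat.Agent.GE8.SQ.AuxPlug
import Fermat.Agent.GE8.LLQ.MinLevel

set_option autoImplicit false

open WeierstrassCurve WeierstrassCurve.Affine WeierstrassCurve.Affine.Point

namespace Fermat.Agent.GE8.Top.MinLevelSide

open Fermat.Agent.GE8.Top.DescentAbs Fermat.Agent.GE8.Top.DescentSide
  Fermat.Agent.GE8.Top.MinLevel Fermat.Agent.GE8.RaiseP.Stmt Fermat.Agent.GE8.SQ.AuxPlug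

section Descent

variable {p : ℕ} [hpF : Fact p.Prime] (hp2 : p ≠ 2) (W : WeierstrassCurve ℤ) (hΔ : W.Δ ≠ 0)
  (hW : W.IsSemistableModel) (hirr : W.ModRepIsIrreducible p)
  (hcard₁ : Nat.card (Submodule.torsionBy ℤ
    ((W.map (Int.castRingHom ℚ))⁄(AlgebraicClosure ℚ)).Point p) = p ^ 2)
  (hker : GaloisFactorsThroughFiniteLevel
    (WeierstrassCurve.Affine.Point.galoisRepModuleEnd (K := AlgebraicClosure ℚ) ℚ
      (W.map (Int.castRingHom ℚ)) p))

include hp2 hΔ hW hirr in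
/-- node SQ (side conditions) in the binder shape of `DescentSide`. -/
theorem sq_side (hSQ : SQSideStmt) (L' q : ℕ) (hL' : L' ≠ 0) (hq : q.Prime) (hqp : q ≠ p)
    (hqL' : q ∣ L') (hq2 : ¬ q ^ 2 ∣ L') (h2 : q = 2 → 3 ∣ L') (h3 : q = 3 → 2 ∣ L')
    (hres : W.IsResiduallyModularOfLevel p (L' * q)) : W.IsResiduallyModularOfLevel p L' := by
  haveI : NeZero L' := ⟨hL'⟩
  haveI : Fact q.Prime := ⟨hq⟩
  exact hSQ p hp2 W hW hΔ hirr L' q hqp hqL' hq2 h2 h3 hres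

include hp2 hΔ hirr in
/-- `ρ̄` is unramified at the primes `r ≠ p` outside a level. -/
theorem unr_of_level (M r : ℕ) (hM : M ≠ 0) (hres : W.IsResiduallyModularOfLevel p M)
    (hr : r.Prime) (hrp : r ≠ p) (hrM : ¬ r ∣ M) :
    ((W.map (Int.castRingHom ℚ)).residualGaloisRepOf p hcard₁ hker).IsUnramifiedAt r := by
  refine Fermat.Agent.GE8.LLQ.MinLevel.isUnramifiedAt_of_resMod p hp2 W hΔ hcard₁ hker hirr hM hres
    hr ?_
  intro h
  rcases (Nat.Prime.dvd_mul hr).mp h with h1 | h1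
  · exact hrM h1
  · exact hrp ((Nat.prime_dvd_prime_iff_eq hr hpF.out).mp h1)

include hp2 hΔ hW hirr in
/-- **the descent away from `p`** over SQ with side conditions. -/
theorem exists_minLevel_away_side (hSQ : SQSideStmt) (hLLQ : LLQStmt p)
    (M₀ : ℕ) (hM₀ : M₀ ≠ 0) (hres₀ : W.IsResiduallyModularOfLevel p M₀) (hp2M : ¬ p ^ 2 ∣ M₀)
    (hcube : ∀ q : ℕ, q.Prime → q ≠ p → ¬ q ^ 3 ∣ M₀) :
    ∃ M : ℕ, M ∣ M₀ * p ∧ Squarefree M ∧ W.IsResiduallyModularOfLevel p M ∧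
      ∀ q : ℕ, q.Prime → q ≠ p → q ∣ M →
        ¬ ((W.map (Int.castRingHom ℚ)).residualGaloisRepOf p hcard₁ hker).IsUnramifiedAt q :=
  exists_min_away_side hpF.out (fun M => W.IsResiduallyModularOfLevel p M)
    (fun q => ((W.map (Int.castRingHom ℚ)).residualGaloisRepOf p hcard₁ hker).IsUnramifiedAt q)
    (fun _ _ h hd h0 => Fermat.Agent.GB.Top.SplitT.isResiduallyModularOfLevel_of_dvd h hd h0)
    (fun M r hM h hr hrp hrM => unr_of_level hp2 W hΔ hirr hcard₁ hker M r hM h hr hrp hrM)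
    (sq_side hp2 W hΔ hW hirr hSQ)
    (fun M q hM hq hqp hqM hU h =>
      hLLQ W hΔ hW hcard₁ hker hirr M q hq hqp hqM (not_sq_dvd_of_squarefree hM hq) hM hU h)
    M₀ hM₀ hp2M hcube hres₀

include hp2 hΔ hW hirr in
/-- **the descent with the dichotomy at `p`**: `p ∤ M`, or `p` cannot be removed from `M`. -/
theorem exists_minLevel_dich_side (hSQ : SQSideStmt) (hLLQ : LLQStmt p)
    (M₀ : ℕ) (hM₀ : M₀ ≠ 0) (hres₀ : W.IsResiduallyModularOfLevel p M₀) (hp2M : ¬ p ^ 2 ∣ M₀)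
    (hcube : ∀ q : ℕ, q.Prime → q ≠ p → ¬ q ^ 3 ∣ M₀) :
    ∃ M : ℕ, M ∣ M₀ * p ∧ Squarefree M ∧ W.IsResiduallyModularOfLevel p M ∧
      (∀ q : ℕ, q.Prime → q ≠ p → q ∣ M →
        ¬ ((W.map (Int.castRingHom ℚ)).residualGaloisRepOf p hcard₁ hker).IsUnramifiedAt q) ∧
      (¬ p ∣ M ∨ (p ∣ M ∧ ¬ W.IsResiduallyModularOfLevel p (M / p))) := by
  obtain ⟨M, hMd, hMsq, hRM, hmin⟩ := exists_minLevel_away_side hp2 W hΔ hW hirr hcard₁ hker hSQ
    hLLQ M₀ hM₀ hres₀ hp2M hcube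
  obtain ⟨M', hM'd, hM'sq, hRM', hmin', hdich⟩ := exists_min_dich hpF.out
    (fun M => W.IsResiduallyModularOfLevel p M)
    (fun q => ((W.map (Int.castRingHom ℚ)).residualGaloisRepOf p hcard₁ hker).IsUnramifiedAt q)
    hMsq hRM hmin
  exact ⟨M', hM'd.trans hMd, hM'sq, hRM', hmin', hdich⟩

include hp2 hΔ hW hirr in
/-- **the descent, flat case** (`W` good at `p`): a squarefree level `M ∣ M₀` PRIME TO `p`, minimal
away from `p` — the hypotheses of `GE8/MinDatum.exists_minDatum_FL`. -/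
theorem exists_minLevel_FL_side (hSQ : SQSideStmt) (hLLQ : LLQStmt p)
    (hLLP : LLPGoodStmt p) (hgood : W.IsGoodPrimeFor p)
    (M₀ : ℕ) (hM₀ : M₀ ≠ 0) (hres₀ : W.IsResiduallyModularOfLevel p M₀) (hp2M : ¬ p ^ 2 ∣ M₀)
    (hcube : ∀ q : ℕ, q.Prime → q ≠ p → ¬ q ^ 3 ∣ M₀) :
    ∃ M : ℕ, M ∣ M₀ ∧ Squarefree M ∧ ¬ p ∣ M ∧ W.IsResiduallyModularOfLevel p M ∧
      ∀ q : ℕ, q.Prime → q ≠ p → q ∣ M →
        ¬ ((W.map (Int.castRingHom ℚ)).residualGaloisRepOf p hcard₁ hker).IsUnramifiedAt q :=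
  exists_min_not_dvd_side hpF.out (fun M => W.IsResiduallyModularOfLevel p M)
    (fun q => ((W.map (Int.castRingHom ℚ)).residualGaloisRepOf p hcard₁ hker).IsUnramifiedAt q)
    (fun _ _ h hd h0 => Fermat.Agent.GB.Top.SplitT.isResiduallyModularOfLevel_of_dvd h hd h0)
    (fun M r hM h hr hrp hrM => unr_of_level hp2 W hΔ hirr hcard₁ hker M r hM h hr hrp hrM)
    (sq_side hp2 W hΔ hW hirr hSQ)
    (fun M q hM hq hqp hqM hU h =>
      hLLQ W hΔ hW hcard₁ hker hirr M q hq hqp hqM (not_sq_dvd_of_squarefree hM hq) hM hU h)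
    (fun M hM hpM h => hLLP W hΔ hgood hirr (Nat.pos_of_ne_zero hM.ne_zero) hpM
      (not_sq_dvd_of_squarefree hM hpF.out) h)
    M₀ hM₀ hp2M hcube hres₀

include hp2 hΔ hW hirr in
/-- **the descent, peu ramifiée at `p`**: a squarefree level `M ∣ M₀` PRIME TO `p`, minimal away
from `p`. -/
theorem exists_minLevel_peu_side (hSQ : SQSideStmt) (hLLQ : LLQStmt p)
    (hLLP : LLPPeuStmt p) (hfin : (W.map (Int.castRingHom ℚ)).IsPeuRamifieeAt p p)
    (M₀ : ℕ) (hM₀ : M₀ ≠ 0) (hres₀ : W.IsResiduallyModularOfLevel p M₀) (hp2M : ¬ p ^ 2 ∣ M₀)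
    (hcube : ∀ q : ℕ, q.Prime → q ≠ p → ¬ q ^ 3 ∣ M₀) :
    ∃ M : ℕ, M ∣ M₀ ∧ Squarefree M ∧ ¬ p ∣ M ∧ W.IsResiduallyModularOfLevel p M ∧
      ∀ q : ℕ, q.Prime → q ≠ p → q ∣ M →
        ¬ ((W.map (Int.castRingHom ℚ)).residualGaloisRepOf p hcard₁ hker).IsUnramifiedAt q :=
  exists_min_not_dvd_side hpF.out (fun M => W.IsResiduallyModularOfLevel p M)
    (fun q => ((W.map (Int.castRingHom ℚ)).residualGaloisRepOf p hcard₁ hker).IsUnramifiedAt q)
    (fun _ _ h hd h0 => Fermat.Agent.GB.Top.SplitT.isResiduallyModularOfLevel_of_dvd h hd h0)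
    (fun M r hM h hr hrp hrM => unr_of_level hp2 W hΔ hirr hcard₁ hker M r hM h hr hrp hrM)
    (sq_side hp2 W hΔ hW hirr hSQ)
    (fun M q hM hq hqp hqM hU h =>
      hLLQ W hΔ hW hcard₁ hker hirr M q hq hqp hqM (not_sq_dvd_of_squarefree hM hq) hM hU h)
    (fun M hM hpM h => hLLP W hΔ (hW p hpF.out) hirr hfin (Nat.pos_of_ne_zero hM.ne_zero) hpM
      (not_sq_dvd_of_squarefree hM hpF.out) h)
    M₀ hM₀ hp2M hcube hres₀

include hp2 hΔ hW hirr in
/-- **the descent, multiplicative peu ramifiée case**: the minimal level `N` prime to `p`, and (under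
the side condition of RAISE-P) the `p`-NEW eigenform of level `N p`. -/
theorem exists_minLevel_SO_peu_side (hSQ : SQSideStmt) (hLLQ : LLQStmt p)
    (hLLP : LLPPeuStmt p) (hraise : RaisePStmt p) (hmult : (p : ℤ) ∣ W.Δ)
    (hfin : (W.map (Int.castRingHom ℚ)).IsPeuRamifieeAt p p)
    (M₀ : ℕ) (hM₀ : M₀ ≠ 0) (hres₀ : W.IsResiduallyModularOfLevel p M₀) (hp2M : ¬ p ^ 2 ∣ M₀)
    (hcube : ∀ q : ℕ, q.Prime → q ≠ p → ¬ q ^ 3 ∣ M₀) :
    ∃ N : ℕ, N ∣ M₀ ∧ Squarefree N ∧ ¬ p ∣ N ∧ W.IsResiduallyModularOfLevel p N ∧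
      (∀ q : ℕ, q.Prime → q ≠ p → q ∣ N →
        ¬ ((W.map (Int.castRingHom ℚ)).residualGaloisRepOf p hcard₁ hker).IsUnramifiedAt q) ∧
      ((p = 3 → 2 ∣ N) → IsResiduallyModularNewAt W p (N * p) p) := by
  obtain ⟨N, hNd, hNsq, hpN, hres, hmin⟩ := exists_minLevel_peu_side hp2 W hΔ hW hirr hcard₁ hker
    hSQ hLLQ hLLP hfin M₀ hM₀ hres₀ hp2M hcube
  exact ⟨N, hNd, hNsq, hpN, hres, hmin, fun hside =>
    hraise W hΔ hmult (hW p hpF.out hmult) hirr (Nat.pos_of_ne_zero hNsq.ne_zero) hpN hside hres⟩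

end Descent

end Fermat.Agent.GE8.Top.MinLevelSide
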