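/-
GATE-E (S59) / E8 TOP, seam LLP ↔ TOP at `p = 3` (helper96, AUX3 sub-gate): **the descent of
`ρ̄_{W,p}` to a minimal level over node LLP AS IT IS PROVABLE AT `p = 3`** — E8.4 at `3` is delivered
at EVEN levels only (`p = 3 → 2 ∣ M / p`: the tame chart `t₂` of the GF/GJ frames; board 7255,
7270 §1(e)), while `GE8/Top/MinLevelSide` consumes the frozen S40 / S39 shapes
(`MinLevel.LLPGoodStmt p`, `MinLevel.LLPPeuStmt p`) with NO side condition.

The bridge: at a squarefree level `M`, `3 ∥ M`, `2 ∤ M`: put `2` into the level by old forms, remove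
`3` at the even level `M·2`, and take `2` out again by node LLQ (`ρ̄` is unramified at `2 ∤ M·p`;
at `(p, q) = (3, 2)` on a level prime to `3` this is the AUX-3 descent `GE8/LLQ/Aux3`).

* `llp_of_side`             : the abstract bridge (Mathlib only);
* `LLPGoodSideStmt p`, `LLPPeuSideStmt p` : nodes LLP with the side condition `p = 3 → 2 ∣ M / p`,
                              at squarefree levels, `W` semistable (what the TOP really uses);
* `llpGoodSide_of_llpGood`, `llpPeuSide_of_llpPeu` : the frozen shapes imply them;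
* `exists_minLevel_FL_side3`, `exists_minLevel_peu_side3`, `exists_minLevel_SO_peu_side3` :
  `MinLevelSide.exists_minLevel_{FL,peu,SO_peu}_side` with `hLLP` replaced by the side-condition
  nodes (same conclusions, same binder order otherwise).
-/
import Mathlib
import Fermat.Agent.GE8.Top.MinLevelSide

set_option autoImplicit false

open WeierstrassCurve WeierstrassCurve.Affine WeierstrassCurve.Affine.Point

namespace Fermat.Agent.GE8.Top.MinLevelSide3

open Fermat.Agent.GE8.Top.DescentAbs Fermat.Agent.GE8.Top.DescentSide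
  Fermat.Agent.GE8.Top.MinLevel Fermat.Agent.GE8.Top.MinLevelSide
  Fermat.Agent.GE8.RaiseP.Stmt Fermat.Agent.GE8.SQ.AuxPlug

/-! ### the abstract bridge -/

/-- **LLP with the side condition `p = 3 → 2 ∣ M / p`, plus LLQ, gives LLP at every squarefree
level.**  `R M` = "`ρ̄` is modular of level `M`", `U q` = "`ρ̄` is unramified at `q`". -/
theorem llp_of_side {p : ℕ} (hp : p.Prime) (hp2 : p ≠ 2) (R U : ℕ → Prop)
    (hmono : ∀ M M' : ℕ, R M → M ∣ M' → M' ≠ 0 → R M')
    (hUlev : ∀ M r : ℕ, M ≠ 0 → R M → r.Prime → r ≠ p → ¬ r ∣ M → U r)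
    (hLLQ : ∀ M q : ℕ, Squarefree M → q.Prime → q ≠ p → q ∣ M → U q → R M → R (M / q))
    (hLLPs : ∀ M : ℕ, Squarefree M → p ∣ M → (p = 3 → 2 ∣ M / p) → R M → R (M / p)) :
    ∀ M : ℕ, Squarefree M → p ∣ M → R M → R (M / p) := by
  intro M hsq hpM hR
  by_cases hside : p = 3 → 2 ∣ M / p
  · exact hLLPs M hsq hpM hside hR
  · have h2k : ¬ 2 ∣ M / p := fun h => hside (fun _ => h)
    obtain ⟨k, rfl⟩ := hpM
    rw [Nat.mul_div_cancel_left k hp.pos] at h2k ⊢
    have hM0 : p * k ≠ 0 := hsq.ne_zero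
    have h2p : (2 : ℕ) ≠ p := fun h => hp2 h.symm
    -- `2 ∤ p k`
    have h2M : ¬ 2 ∣ p * k := by
      intro h
      rcases (Nat.Prime.dvd_mul Nat.prime_two).mp h with h1 | h1
      · exact h2p ((Nat.prime_dvd_prime_iff_eq Nat.prime_two hp).mp h1)
      · exact h2k h1
    -- the even level
    have hcop : Nat.Coprime (p * k) 2 :=
      ((Nat.Prime.coprime_iff_not_dvd Nat.prime_two).mpr h2M).symm
    have hsq2 : Squarefree (p * k * 2) :=
      (Nat.squarefree_mul hcop).mpr ⟨hsq, Nat.prime_two.squarefree⟩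
    have hR2 : R (p * k * 2) :=
      hmono (p * k) (p * k * 2) hR (Dvd.intro _ rfl) (mul_ne_zero hM0 two_ne_zero)
    have hdiv : p * k * 2 / p = k * 2 := by
      rw [mul_assoc]
      exact Nat.mul_div_cancel_left (k * 2) hp.pos
    have hRk2 : R (k * 2) := by
      have := hLLPs (p * k * 2) hsq2 (Dvd.intro _ (mul_assoc p k 2).symm)
        (fun _ => by rw [hdiv]; exact Dvd.intro_left k rfl) hR2
      rwa [hdiv] at this
    -- `ρ̄` is unramified at `2`
    have hU2 : U 2 := hUlev (p * k) 2 hM0 hR Nat.prime_two h2p h2M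
    have hsqk2 : Squarefree (k * 2) :=
      hsq2.squarefree_of_dvd ⟨p, by ring⟩
    have := hLLQ (k * 2) 2 hsqk2 Nat.prime_two h2p (Dvd.intro_left k rfl) hU2 hRk2
    rwa [Nat.mul_div_cancel k (by norm_num : 0 < 2)] at this

/-! ### the nodes LLP with side condition -/

/-- **node LLP, good case, AS DELIVERED AT `p = 3`**: the frozen S40 at the prime `p`, at squarefree
levels, `W` semistable, with the frame side condition `p = 3 → 2 ∣ M / p`. -/
def LLPGoodSideStmt (p : ℕ) : Prop :=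
  ∀ (W : WeierstrassCurve ℤ), W.Δ ≠ 0 → W.IsSemistableModel → W.IsGoodPrimeFor p →
    W.ModRepIsIrreducible p →
    ∀ {M : ℕ}, Squarefree M → p ∣ M → (p = 3 → 2 ∣ M / p) → W.IsResiduallyModularOfLevel p M →
      W.IsResiduallyModularOfLevel p (M / p)

/-- **node LLP, peu ramifiée case, AS DELIVERED AT `p = 3`**: the frozen S39 at the prime `p`, at
squarefree levels, `W` semistable, with the frame side condition `p = 3 → 2 ∣ M / p`. -/
def LLPPeuSideStmt (p : ℕ) : Prop :=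
  ∀ (W : WeierstrassCurve ℤ), W.Δ ≠ 0 → W.IsSemistableModel →
    ((p : ℤ) ∣ W.Δ → ¬ (p : ℤ) ∣ W.c₄) →
    W.ModRepIsIrreducible p → (W.map (Int.castRingHom ℚ)).IsPeuRamifieeAt p p →
    ∀ {M : ℕ}, Squarefree M → p ∣ M → (p = 3 → 2 ∣ M / p) → W.IsResiduallyModularOfLevel p M →
      W.IsResiduallyModularOfLevel p (M / p)

/-- the frozen S40 shape implies the side-condition node. -/
theorem llpGoodSide_of_llpGood {p : ℕ} (hp : p.Prime) (h : LLPGoodStmt p) : LLPGoodSideStmt p :=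
  fun W hΔ _ hgood hirr _ hM hpM _ hres =>
    h W hΔ hgood hirr (Nat.pos_of_ne_zero hM.ne_zero) hpM (not_sq_dvd_of_squarefree hM hp) hres

/-- the frozen S39 shape implies the side-condition node. -/
theorem llpPeuSide_of_llpPeu {p : ℕ} (hp : p.Prime) (h : LLPPeuStmt p) : LLPPeuSideStmt p :=
  fun W hΔ _ hc4 hirr hfin _ hM hpM _ hres =>
    h W hΔ hc4 hirr hfin (Nat.pos_of_ne_zero hM.ne_zero) hpM (not_sq_dvd_of_squarefree hM hp) hres

/-- a good prime is peu ramifiée: S39-side shape ⟹ S40-side shape. -/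
theorem llpGoodSide_of_llpPeuSide {p : ℕ} (hp : p.Prime) (h : LLPPeuSideStmt p) :
    LLPGoodSideStmt p := by
  intro W hΔ hW hgood hirr M hM hpM hside hres
  refine h W hΔ hW (fun hd => absurd hd hgood) hirr ?_ hM hpM hside hres
  unfold WeierstrassCurve.IsPeuRamifieeAt
  have hΔmap : (W.map (Int.castRingHom ℚ)).Δ = ((W.Δ : ℤ) : ℚ) := by
    rw [WeierstrassCurve.map_Δ]
    rfl
  have : Fact p.Prime := ⟨hp⟩
  have hv : padicValRat p (W.map (Int.castRingHom ℚ)).Δ = 0 := by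
    rw [hΔmap, padicValRat.of_int]
    exact_mod_cast (padicValInt.eq_zero_of_not_dvd hgood)
  rw [hv]
  exact dvd_zero _

section Descent

variable {p : ℕ} [hpF : Fact p.Prime] (hp2 : p ≠ 2) (W : WeierstrassCurve ℤ) (hΔ : W.Δ ≠ 0)
  (hW : W.IsSemistableModel) (hirr : W.ModRepIsIrreducible p)
  (hcard₁ : Nat.card (Submodule.torsionBy ℤ
    ((W.map (Int.castRingHom ℚ))⁄(AlgebraicClosure ℚ)).Point p) = p ^ 2)
  (hker : GaloisFactorsThroughFiniteLevel
    (WeierstrassCurve.Affine.Point.galoisRepModuleEnd (K := AlgebraicClosure ℚ) ℚ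
      (W.map (Int.castRingHom ℚ)) p))

include hp2 hΔ hW hirr hcard₁ hker in
/-- **the LLP binder of the descent from a side-condition node**: for THIS `W`, LLP with the side
condition `p = 3 → 2 ∣ M / p` at squarefree levels + node LLQ ⟹ LLP at every squarefree level. -/
theorem llp_sqf_of_side (hLLQ : LLQStmt p)
    (hLLPs : ∀ M : ℕ, Squarefree M → p ∣ M → (p = 3 → 2 ∣ M / p) →
      W.IsResiduallyModularOfLevel p M → W.IsResiduallyModularOfLevel p (M / p)) :
    ∀ M : ℕ, Squarefree M → p ∣ M → W.IsResiduallyModularOfLevel p M →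
      W.IsResiduallyModularOfLevel p (M / p) :=
  llp_of_side hpF.out hp2 (fun M => W.IsResiduallyModularOfLevel p M)
    (fun q => ((W.map (Int.castRingHom ℚ)).residualGaloisRepOf p hcard₁ hker).IsUnramifiedAt q)
    (fun _ _ h hd h0 => Fermat.Agent.GB.Top.SplitT.isResiduallyModularOfLevel_of_dvd h hd h0)
    (fun M r hM h hr hrp hrM => unr_of_level hp2 W hΔ hirr hcard₁ hker M r hM h hr hrp hrM)
    (fun M q hM hq hqp hqM hU h =>
      hLLQ W hΔ hW hcard₁ hker hirr M q hq hqp hqM (not_sq_dvd_of_squarefree hM hq) hM hU h)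
    hLLPs

include hp2 hΔ hW hirr in
/-- **the descent, flat case** (`W` good at `p`), node LLP with side condition. -/
theorem exists_minLevel_FL_side3 (hSQ : SQSideStmt) (hLLQ : LLQStmt p)
    (hLLP : LLPGoodSideStmt p) (hgood : W.IsGoodPrimeFor p)
    (M₀ : ℕ) (hM₀ : M₀ ≠ 0) (hres₀ : W.IsResiduallyModularOfLevel p M₀) (hp2M : ¬ p ^ 2 ∣ M₀)
    (hcube : ∀ q : ℕ, q.Prime → q ≠ p → ¬ q ^ 3 ∣ M₀) :
    ∃ M : ℕ, M ∣ M₀ ∧ Squarefree M ∧ ¬ p ∣ M ∧ W.IsResiduallyModularOfLevel p M ∧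
      ∀ q : ℕ, q.Prime → q ≠ p → q ∣ M →
        ¬ ((W.map (Int.castRingHom ℚ)).residualGaloisRepOf p hcard₁ hker).IsUnramifiedAt q :=
  exists_min_not_dvd_side hpF.out (fun M => W.IsResiduallyModularOfLevel p M)
    (fun q => ((W.map (Int.castRingHom ℚ)).residualGaloisRepOf p hcard₁ hker).IsUnramifiedAt q)
    (fun _ _ h hd h0 => Fermat.Agent.GB.Top.SplitT.isResiduallyModularOfLevel_of_dvd h hd h0)
    (fun M r hM h hr hrp hrM => unr_of_level hp2 W hΔ hirr hcard₁ hker M r hM h hr hrp hrM)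
    (sq_side hp2 W hΔ hW hirr hSQ)
    (fun M q hM hq hqp hqM hU h =>
      hLLQ W hΔ hW hcard₁ hker hirr M q hq hqp hqM (not_sq_dvd_of_squarefree hM hq) hM hU h)
    (llp_sqf_of_side hp2 W hΔ hW hirr hcard₁ hker hLLQ
      (fun _ hM hpM hside h => hLLP W hΔ hW hgood hirr hM hpM hside h))
    M₀ hM₀ hp2M hcube hres₀

include hp2 hΔ hW hirr in
/-- **the descent, peu ramifiée at `p`**, node LLP with side condition. -/
theorem exists_minLevel_peu_side3 (hSQ : SQSideStmt) (hLLQ : LLQStmt p)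
    (hLLP : LLPPeuSideStmt p) (hfin : (W.map (Int.castRingHom ℚ)).IsPeuRamifieeAt p p)
    (M₀ : ℕ) (hM₀ : M₀ ≠ 0) (hres₀ : W.IsResiduallyModularOfLevel p M₀) (hp2M : ¬ p ^ 2 ∣ M₀)
    (hcube : ∀ q : ℕ, q.Prime → q ≠ p → ¬ q ^ 3 ∣ M₀) :
    ∃ M : ℕ, M ∣ M₀ ∧ Squarefree M ∧ ¬ p ∣ M ∧ W.IsResiduallyModularOfLevel p M ∧
      ∀ q : ℕ, q.Prime → q ≠ p → q ∣ M →
        ¬ ((W.map (Int.castRingHom ℚ)).residualGaloisRepOf p hcard₁ hker).IsUnramifiedAt q :=
  exists_min_not_dvd_side hpF.out (fun M => W.IsResiduallyModularOfLevel p M)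
    (fun q => ((W.map (Int.castRingHom ℚ)).residualGaloisRepOf p hcard₁ hker).IsUnramifiedAt q)
    (fun _ _ h hd h0 => Fermat.Agent.GB.Top.SplitT.isResiduallyModularOfLevel_of_dvd h hd h0)
    (fun M r hM h hr hrp hrM => unr_of_level hp2 W hΔ hirr hcard₁ hker M r hM h hr hrp hrM)
    (sq_side hp2 W hΔ hW hirr hSQ)
    (fun M q hM hq hqp hqM hU h =>
      hLLQ W hΔ hW hcard₁ hker hirr M q hq hqp hqM (not_sq_dvd_of_squarefree hM hq) hM hU h)
    (llp_sqf_of_side hp2 W hΔ hW hirr hcard₁ hker hLLQ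
      (fun _ hM hpM hside h => hLLP W hΔ hW (hW p hpF.out) hirr hfin hM hpM hside h))
    M₀ hM₀ hp2M hcube hres₀

include hp2 hΔ hW hirr in
/-- **the descent, multiplicative peu ramifiée case**, node LLP with side condition: the minimal
level `N` prime to `p`, and (under the side condition of RAISE-P) the `p`-NEW eigenform of level
`N p`. -/
theorem exists_minLevel_SO_peu_side3 (hSQ : SQSideStmt) (hLLQ : LLQStmt p)
    (hLLP : LLPPeuSideStmt p) (hraise : RaisePStmt p) (hmult : (p : ℤ) ∣ W.Δ)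
    (hfin : (W.map (Int.castRingHom ℚ)).IsPeuRamifieeAt p p)
    (M₀ : ℕ) (hM₀ : M₀ ≠ 0) (hres₀ : W.IsResiduallyModularOfLevel p M₀) (hp2M : ¬ p ^ 2 ∣ M₀)
    (hcube : ∀ q : ℕ, q.Prime → q ≠ p → ¬ q ^ 3 ∣ M₀) :
    ∃ N : ℕ, N ∣ M₀ ∧ Squarefree N ∧ ¬ p ∣ N ∧ W.IsResiduallyModularOfLevel p N ∧
      (∀ q : ℕ, q.Prime → q ≠ p → q ∣ N →
        ¬ ((W.map (Int.castRingHom ℚ)).residualGaloisRepOf p hcard₁ hker).IsUnramifiedAt q) ∧
      ((p = 3 → 2 ∣ N) → IsResiduallyModularNewAt W p (N * p) p) := by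
  obtain ⟨N, hNd, hNsq, hpN, hres, hmin⟩ := exists_minLevel_peu_side3 hp2 W hΔ hW hirr hcard₁ hker
    hSQ hLLQ hLLP hfin M₀ hM₀ hres₀ hp2M hcube
  exact ⟨N, hNd, hNsq, hpN, hres, hmin, fun hside =>
    hraise W hΔ hmult (hW p hpF.out hmult) hirr (Nat.pos_of_ne_zero hNsq.ne_zero) hpN hside hres⟩

end Descent

end Fermat.Agent.GE8.Top.MinLevelSide3
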