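/-
GATE-E (S59) / E8 TOP, plugs (helper20): the node statement `LLQStmt p` of `GE8/Top/MinLevel` from
helper86's `GE8/LLQ/S38Min` (the frozen S38 at a fixed prime `p`, general `W`).

* `llqStmt_of_s38At`  : `p ≠ 2 → S38At p → LLQStmt p`  (`S38At p` carries the binder `p ≠ 2`);
* `llqStmt_five_le`   : `5 ≤ p → CaseB38minE p → LLQStmt p`;
* `llqStmt_three`     : `LLPThreeStmt → CaseB38minE 3 → LLQStmt 3`.
-/
import Fermat.Agent.GE8.Top.MinLevel
import Fermat.Agent.GE8.LLQ.S38Min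

set_option autoImplicit false

open WeierstrassCurve

namespace Fermat.Agent.GE8.Top.MinLevelPlugLLQ

open Fermat.Agent.GE8.Top.MinLevel Fermat.Agent.GE8.LLQ.S38Min

/-- **node LLQ from helper86's `S38At p`.** -/
theorem llqStmt_of_s38At {p : ℕ} [Fact p.Prime] (hp2 : p ≠ 2) (h : S38At p) : LLQStmt p :=
  fun W hΔ hW hcard₁ hker hirr M q hq hqp hqM hq2 hM hunr hres =>
    h hp2 W hΔ hW hcard₁ hker hirr M q hq hqp hqM hq2 hM hunr hres

/-- **node LLQ at `p ≥ 5` from CASE B at a minimal level.** -/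
theorem llqStmt_five_le {p : ℕ} [Fact p.Prime] (hp5 : 5 ≤ p) (hB : CaseB38minE p) : LLQStmt p :=
  llqStmt_of_s38At (by omega) (s38At_five_le p hp5 hB)

/-- **node LLQ at `p = 3` from E8.4 at `3` and CASE B at a minimal level.** -/
theorem llqStmt_three [Fact (Nat.Prime 3)] (hLLP : LLPThreeStmt) (hB : CaseB38minE 3) :
    LLQStmt 3 :=
  llqStmt_of_s38At (by decide) (s38At_three hLLP hB)

end Fermat.Agent.GE8.Top.MinLevelPlugLLQ
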