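/-
GATE-E (S59) / E8 TOP, FINAL plugs (helper20): the minimal-level descent of `GE8/Top/MinLevelSide`
with every CLOSED node plugged:

* node SQ      ↦ `MP2Gate`                       (`GE8/SQ/AuxPlug.sqSide_of_gate`);
* node LLQ     ↦ `LLQNodes p := CaseB38minE p ∧ (p = 3 → LLPAddedStmt p)`
                                                  (helper86 `GE8/LLQ/S38Min`);
* node RAISE-P ↦ closed                          (`GE8/RaiseP/Deligne/ClaimPlug.raiseP`).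

Left as hypotheses: `MP2Gate`, `LLQNodes p`, and node LLP
(`LLPGoodStmt p` / `LLPPeuStmt p` = the frozen S40 / S39 at `p`).
-/
import Mathlib
import Fermat.Agent.GE8.Top.MinLevelSide
import Fermat.Agent.GE8.Top.MinLevelPlugLLQ
import Fermat.Agent.GE8.RaiseP.Deligne.ClaimPlug

set_option autoImplicit false

open WeierstrassCurve WeierstrassCurve.Affine WeierstrassCurve.Affine.Point

namespace Fermat.Agent.GE8.Top.MinLevelFinal

open Fermat.Agent.GE8.Top.MinLevel Fermat.Agent.GE8.Top.MinLevelSide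
  Fermat.Agent.GE8.Top.MinLevelPlugLLQ Fermat.Agent.GE8.RaiseP.Stmt Fermat.Agent.GE8.SQ.AuxPlug
  Fermat.Agent.GE8.SQ.Top Fermat.Agent.GE8.LLQ.S38Min

/-- **E8.4 in the form needed by E8.3 at `p = 3`** (helper86's `LLPThreeStmt`, at a general `p`):
`ρ̄` comes from a level `N₀` prime to `p`; then a `p` in a level `L p`, `p ∤ L`, can be removed. -/
def LLPAddedStmt (p : ℕ) : Prop :=
  ∀ (W : WeierstrassCurve ℤ) (_ : W.Δ ≠ 0) (_ : W.IsSemistableModel)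
    (_ : W.ModRepIsIrreducible p) (L N₀ : ℕ) (_ : ¬ p ∣ L) (_ : ¬ p ∣ N₀)
    (_ : W.IsResiduallyModularOfLevel p N₀) (_ : W.IsResiduallyModularOfLevel p (L * p)),
    W.IsResiduallyModularOfLevel p L

/-- **the node hypotheses of LLQ at `p`**: CASE B at a minimal level, and (at `p = 3` only) E8.4 at
`3` in helper86's form. -/
def LLQNodes (p : ℕ) [Fact p.Prime] : Prop :=
  CaseB38minE p ∧ (p = 3 → LLPAddedStmt p)

/-- node LLQ at `p` from `LLQNodes p`. -/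
theorem llqStmt_of_nodes {p : ℕ} [hpF : Fact p.Prime] (hp2 : p ≠ 2) (h : LLQNodes p) :
    LLQStmt p := by
  by_cases h3 : p = 3
  · subst h3
    exact llqStmt_three (h.2 rfl) h.1
  · exact llqStmt_five_le (five_le_of_prime hpF.out hp2 h3) h.1

section Descent

variable {p : ℕ} [hpF : Fact p.Prime] (hp2 : p ≠ 2) (W : WeierstrassCurve ℤ) (hΔ : W.Δ ≠ 0)
  (hW : W.IsSemistableModel) (hirr : W.ModRepIsIrreducible p)
  (hcard₁ : Nat.card (Submodule.torsionBy ℤ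
    ((W.map (Int.castRingHom ℚ))⁄(AlgebraicClosure ℚ)).Point p) = p ^ 2)
  (hker : GaloisFactorsThroughFiniteLevel
    (WeierstrassCurve.Affine.Point.galoisRepModuleEnd (K := AlgebraicClosure ℚ) ℚ
      (W.map (Int.castRingHom ℚ)) p))

include hp2 hΔ hW hirr in
/-- **the descent away from `p`, with the dichotomy at `p`**, from `MP2Gate` and `LLQNodes p`. -/
theorem exists_minLevel_dich (hgate : MP2Gate) (hB : LLQNodes p)
    (M₀ : ℕ) (hM₀ : M₀ ≠ 0) (hres₀ : W.IsResiduallyModularOfLevel p M₀) (hp2M : ¬ p ^ 2 ∣ M₀)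
    (hcube : ∀ q : ℕ, q.Prime → q ≠ p → ¬ q ^ 3 ∣ M₀) :
    ∃ M : ℕ, M ∣ M₀ * p ∧ Squarefree M ∧ W.IsResiduallyModularOfLevel p M ∧
      (∀ q : ℕ, q.Prime → q ≠ p → q ∣ M →
        ¬ ((W.map (Int.castRingHom ℚ)).residualGaloisRepOf p hcard₁ hker).IsUnramifiedAt q) ∧
      (¬ p ∣ M ∨ (p ∣ M ∧ ¬ W.IsResiduallyModularOfLevel p (M / p))) :=
  exists_minLevel_dich_side hp2 W hΔ hW hirr hcard₁ hker (sqSide_of_gate hgate)
    (llqStmt_of_nodes hp2 hB) M₀ hM₀ hres₀ hp2M hcube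

include hp2 hΔ hW hirr in
/-- **the descent, flat case**, from `MP2Gate`, `LLQNodes p` and node LLP (good case). -/
theorem exists_minLevel_FL (hgate : MP2Gate) (hB : LLQNodes p)
    (hLLP : LLPGoodStmt p) (hgood : W.IsGoodPrimeFor p)
    (M₀ : ℕ) (hM₀ : M₀ ≠ 0) (hres₀ : W.IsResiduallyModularOfLevel p M₀) (hp2M : ¬ p ^ 2 ∣ M₀)
    (hcube : ∀ q : ℕ, q.Prime → q ≠ p → ¬ q ^ 3 ∣ M₀) :
    ∃ M : ℕ, M ∣ M₀ ∧ Squarefree M ∧ ¬ p ∣ M ∧ W.IsResiduallyModularOfLevel p M ∧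
      ∀ q : ℕ, q.Prime → q ≠ p → q ∣ M →
        ¬ ((W.map (Int.castRingHom ℚ)).residualGaloisRepOf p hcard₁ hker).IsUnramifiedAt q :=
  exists_minLevel_FL_side hp2 W hΔ hW hirr hcard₁ hker (sqSide_of_gate hgate)
    (llqStmt_of_nodes hp2 hB) hLLP hgood M₀ hM₀ hres₀ hp2M hcube

include hp2 hΔ hW hirr in
/-- **the descent, multiplicative peu ramifiée case**, from `MP2Gate`, `LLQNodes p` and node LLP
(peu ramifiée case); RAISE-P is closed. -/
theorem exists_minLevel_SO_peu (hgate : MP2Gate) (hB : LLQNodes p)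
    (hLLP : LLPPeuStmt p) (hmult : (p : ℤ) ∣ W.Δ)
    (hfin : (W.map (Int.castRingHom ℚ)).IsPeuRamifieeAt p p)
    (M₀ : ℕ) (hM₀ : M₀ ≠ 0) (hres₀ : W.IsResiduallyModularOfLevel p M₀) (hp2M : ¬ p ^ 2 ∣ M₀)
    (hcube : ∀ q : ℕ, q.Prime → q ≠ p → ¬ q ^ 3 ∣ M₀) :
    ∃ N : ℕ, N ∣ M₀ ∧ Squarefree N ∧ ¬ p ∣ N ∧ W.IsResiduallyModularOfLevel p N ∧
      (∀ q : ℕ, q.Prime → q ≠ p → q ∣ N →
        ¬ ((W.map (Int.castRingHom ℚ)).residualGaloisRepOf p hcard₁ hker).IsUnramifiedAt q) ∧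
      ((p = 3 → 2 ∣ N) → IsResiduallyModularNewAt W p (N * p) p) :=
  exists_minLevel_SO_peu_side hp2 W hΔ hW hirr hcard₁ hker (sqSide_of_gate hgate)
    (llqStmt_of_nodes hp2 hB) hLLP (Fermat.Agent.GE8.RaiseP.Deligne.ClaimPlug.raiseP hp2) hmult hfin
    M₀ hM₀ hres₀ hp2M hcube

end Descent

end Fermat.Agent.GE8.Top.MinLevelFinal
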