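/-
GATE-E (S59) / E8 TOP, PER-`W` form of node LLP (helper61, ORD RULING O1 (f) of helper17): helper20's
`GE8/Top/MinLevelSide.exists_minLevel_{FL,peu,SO_peu}_side` take the `∀ W` Props `LLPGoodStmt p` /
`LLPPeuStmt p` (= the frozen S40 / S39 at `p`) but USE them only at the given `W` and at SQUAREFREE
levels.  Node E8.4 delivers exactly that (per `W`, squarefree level):

  `hLLPW : ∀ M, Squarefree M → p ∣ M → ResMod p M → ResMod p (M / p)`.

* `exists_minLevel_W_side`      : the descent to a squarefree level `M ∣ M₀` PRIME TO `p`, minimal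
                                  away from `p`, from `hLLPW` (covers the flat AND the peu ramifiée
                                  case: the case distinction lives in the supplier of `hLLPW`);
* `exists_minLevel_SO_W_side`   : multiplicative case: moreover (side condition `p = 3 → 2 ∣ N` of
                                  RAISE-P) the `p`-NEW eigenform of level `N p`;
* `llpW_of_good`, `llpW_of_peu` : the old `∀ W` nodes give `hLLPW` (so nothing is lost).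
-/
import Mathlib
import Fermat.Agent.GE8.Top.MinLevelSide

set_option autoImplicit false

open WeierstrassCurve WeierstrassCurve.Affine WeierstrassCurve.Affine.Point

namespace Fermat.Agent.GE8.Top.MinLevelSideW

open Fermat.Agent.GE8.Top.DescentAbs Fermat.Agent.GE8.Top.DescentSide
  Fermat.Agent.GE8.Top.MinLevel Fermat.Agent.GE8.RaiseP.Stmt Fermat.Agent.GE8.SQ.AuxPlug
  Fermat.Agent.GE8.Top.MinLevelSide

/-- **node LLP for ONE curve `W`, at squarefree levels** (what E8.4 delivers). -/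
def LLPAtW (p : ℕ) (W : WeierstrassCurve ℤ) : Prop :=
  ∀ M : ℕ, Squarefree M → p ∣ M → W.IsResiduallyModularOfLevel p M →
    W.IsResiduallyModularOfLevel p (M / p)

/-- the `∀ W` node `LLPGoodStmt p` (frozen S40 at `p`) gives `LLPAtW p W` for `W` good at `p`. -/
theorem llpW_of_good {p : ℕ} (hp : p.Prime) (W : WeierstrassCurve ℤ) (hΔ : W.Δ ≠ 0)
    (hirr : W.ModRepIsIrreducible p) (hLLP : LLPGoodStmt p) (hgood : W.IsGoodPrimeFor p) :
    LLPAtW p W :=
  fun _ hM hpM h => hLLP W hΔ hgood hirr (Nat.pos_of_ne_zero hM.ne_zero) hpM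
    (not_sq_dvd_of_squarefree hM hp) h

/-- the `∀ W` node `LLPPeuStmt p` (frozen S39 at `p`) gives `LLPAtW p W` for `W` semistable at `p`
and peu ramifiée at `p`. -/
theorem llpW_of_peu {p : ℕ} (hp : p.Prime) (W : WeierstrassCurve ℤ) (hΔ : W.Δ ≠ 0)
    (hss : (p : ℤ) ∣ W.Δ → ¬ (p : ℤ) ∣ W.c₄)
    (hirr : W.ModRepIsIrreducible p) (hLLP : LLPPeuStmt p)
    (hfin : (W.map (Int.castRingHom ℚ)).IsPeuRamifieeAt p p) : LLPAtW p W :=
  fun _ hM hpM h => hLLP W hΔ hss hirr hfin (Nat.pos_of_ne_zero hM.ne_zero) hpM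
    (not_sq_dvd_of_squarefree hM hp) h

section Descent

variable {p : ℕ} [hpF : Fact p.Prime] (hp2 : p ≠ 2) (W : WeierstrassCurve ℤ) (hΔ : W.Δ ≠ 0)
  (hW : W.IsSemistableModel) (hirr : W.ModRepIsIrreducible p)
  (hcard₁ : Nat.card (Submodule.torsionBy ℤ
    ((W.map (Int.castRingHom ℚ))⁄(AlgebraicClosure ℚ)).Point p) = p ^ 2)
  (hker : GaloisFactorsThroughFiniteLevel
    (WeierstrassCurve.Affine.Point.galoisRepModuleEnd (K := AlgebraicClosure ℚ) ℚ
      (W.map (Int.castRingHom ℚ)) p))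

include hp2 hΔ hW hirr in
/-- **the descent with the PER-`W` node LLP**: a squarefree level `M ∣ M₀` PRIME TO `p`, minimal
away from `p`  (= `exists_minLevel_FL_side` / `exists_minLevel_peu_side` with `hLLPW`). -/
theorem exists_minLevel_W_side (hSQ : SQSideStmt) (hLLQ : LLQStmt p) (hLLPW : LLPAtW p W)
    (M₀ : ℕ) (hM₀ : M₀ ≠ 0) (hres₀ : W.IsResiduallyModularOfLevel p M₀) (hp2M : ¬ p ^ 2 ∣ M₀)
    (hcube : ∀ q : ℕ, q.Prime → q ≠ p → ¬ q ^ 3 ∣ M₀) :
    ∃ M : ℕ, M ∣ M₀ ∧ Squarefree M ∧ ¬ p ∣ M ∧ W.IsResiduallyModularOfLevel p M ∧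
      ∀ q : ℕ, q.Prime → q ≠ p → q ∣ M →
        ¬ ((W.map (Int.castRingHom ℚ)).residualGaloisRepOf p hcard₁ hker).IsUnramifiedAt q :=
  exists_min_not_dvd_side hpF.out (fun M => W.IsResiduallyModularOfLevel p M)
    (fun q => ((W.map (Int.castRingHom ℚ)).residualGaloisRepOf p hcard₁ hker).IsUnramifiedAt q)
    (fun _ _ h hd h0 => Fermat.Agent.GB.Top.SplitT.isResiduallyModularOfLevel_of_dvd h hd h0)
    (fun M r hM h hr hrp hrM => unr_of_level hp2 W hΔ hirr hcard₁ hker M r hM h hr hrp hrM)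
    (sq_side hp2 W hΔ hW hirr hSQ)
    (fun M q hM hq hqp hqM hU h =>
      hLLQ W hΔ hW hcard₁ hker hirr M q hq hqp hqM (not_sq_dvd_of_squarefree hM hq) hM hU h)
    (fun M hM hpM h => hLLPW M hM hpM h)
    M₀ hM₀ hp2M hcube hres₀

include hp2 hΔ hW hirr in
/-- **the descent, flat case**, PER-`W` form (same conclusion as `exists_minLevel_FL_side`). -/
theorem exists_minLevel_FL_W_side (hSQ : SQSideStmt) (hLLQ : LLQStmt p) (hLLPW : LLPAtW p W)
    (_hgood : W.IsGoodPrimeFor p)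
    (M₀ : ℕ) (hM₀ : M₀ ≠ 0) (hres₀ : W.IsResiduallyModularOfLevel p M₀) (hp2M : ¬ p ^ 2 ∣ M₀)
    (hcube : ∀ q : ℕ, q.Prime → q ≠ p → ¬ q ^ 3 ∣ M₀) :
    ∃ M : ℕ, M ∣ M₀ ∧ Squarefree M ∧ ¬ p ∣ M ∧ W.IsResiduallyModularOfLevel p M ∧
      ∀ q : ℕ, q.Prime → q ≠ p → q ∣ M →
        ¬ ((W.map (Int.castRingHom ℚ)).residualGaloisRepOf p hcard₁ hker).IsUnramifiedAt q :=
  exists_minLevel_W_side hp2 W hΔ hW hirr hcard₁ hker hSQ hLLQ hLLPW M₀ hM₀ hres₀ hp2M hcube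

include hp2 hΔ hW hirr in
/-- **the descent, peu ramifiée at `p`**, PER-`W` form (same conclusion as
`exists_minLevel_peu_side`). -/
theorem exists_minLevel_peu_W_side (hSQ : SQSideStmt) (hLLQ : LLQStmt p) (hLLPW : LLPAtW p W)
    (_hfin : (W.map (Int.castRingHom ℚ)).IsPeuRamifieeAt p p)
    (M₀ : ℕ) (hM₀ : M₀ ≠ 0) (hres₀ : W.IsResiduallyModularOfLevel p M₀) (hp2M : ¬ p ^ 2 ∣ M₀)
    (hcube : ∀ q : ℕ, q.Prime → q ≠ p → ¬ q ^ 3 ∣ M₀) :
    ∃ M : ℕ, M ∣ M₀ ∧ Squarefree M ∧ ¬ p ∣ M ∧ W.IsResiduallyModularOfLevel p M ∧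
      ∀ q : ℕ, q.Prime → q ≠ p → q ∣ M →
        ¬ ((W.map (Int.castRingHom ℚ)).residualGaloisRepOf p hcard₁ hker).IsUnramifiedAt q :=
  exists_minLevel_W_side hp2 W hΔ hW hirr hcard₁ hker hSQ hLLQ hLLPW M₀ hM₀ hres₀ hp2M hcube

include hp2 hΔ hW hirr in
/-- **the descent, multiplicative peu ramifiée case**, PER-`W` form (same conclusion as
`exists_minLevel_SO_peu_side`): the minimal level `N` prime to `p`, and (under the side condition of
RAISE-P) the `p`-NEW eigenform of level `N p`. -/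
theorem exists_minLevel_SO_W_side (hSQ : SQSideStmt) (hLLQ : LLQStmt p) (hLLPW : LLPAtW p W)
    (hraise : RaisePStmt p) (hmult : (p : ℤ) ∣ W.Δ)
    (M₀ : ℕ) (hM₀ : M₀ ≠ 0) (hres₀ : W.IsResiduallyModularOfLevel p M₀) (hp2M : ¬ p ^ 2 ∣ M₀)
    (hcube : ∀ q : ℕ, q.Prime → q ≠ p → ¬ q ^ 3 ∣ M₀) :
    ∃ N : ℕ, N ∣ M₀ ∧ Squarefree N ∧ ¬ p ∣ N ∧ W.IsResiduallyModularOfLevel p N ∧
      (∀ q : ℕ, q.Prime → q ≠ p → q ∣ N →
        ¬ ((W.map (Int.castRingHom ℚ)).residualGaloisRepOf p hcard₁ hker).IsUnramifiedAt q) ∧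
      ((p = 3 → 2 ∣ N) → IsResiduallyModularNewAt W p (N * p) p) := by
  obtain ⟨N, hNd, hNsq, hpN, hres, hmin⟩ := exists_minLevel_W_side hp2 W hΔ hW hirr hcard₁ hker
    hSQ hLLQ hLLPW M₀ hM₀ hres₀ hp2M hcube
  exact ⟨N, hNd, hNsq, hpN, hres, hmin, fun hside =>
    hraise W hΔ hmult (hW p hpF.out hmult) hirr (Nat.pos_of_ne_zero hNsq.ne_zero) hpN hside hres⟩

end Descent

end Fermat.Agent.GE8.Top.MinLevelSideW
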