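/-
GATE-E (S59) / E8 TOP, FINAL plugs in the PER-`W` form of node LLP (helper61, ORD RULING O1 (f)):
helper20's `GE8/Top/MinLevelFinal.exists_minLevel_{FL,SO_peu}` with

  `hLLPW : MinLevelSideW.LLPAtW p W`  (= `∀ M, Squarefree M → p ∣ M → ResMod p M → ResMod p (M / p)`)

instead of the `∀ W` nodes `LLPGoodStmt p` / `LLPPeuStmt p`.  Closed nodes plugged exactly as in
`MinLevelFinal`: SQ ↦ `MP2Gate`, LLQ ↦ `LLQNodes p`, RAISE-P ↦ closed.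
-/
import Mathlib
import Fermat.Agent.GE8.Top.MinLevelFinal
import Fermat.Agent.GE8.Top.MinLevelSideW

set_option autoImplicit false

open WeierstrassCurve WeierstrassCurve.Affine WeierstrassCurve.Affine.Point

namespace Fermat.Agent.GE8.Top.MinLevelFinalW

open Fermat.Agent.GE8.Top.MinLevel Fermat.Agent.GE8.Top.MinLevelSide
  Fermat.Agent.GE8.Top.MinLevelSideW Fermat.Agent.GE8.Top.MinLevelFinal
  Fermat.Agent.GE8.Top.MinLevelPlugLLQ Fermat.Agent.GE8.RaiseP.Stmt Fermat.Agent.GE8.SQ.AuxPlug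
  Fermat.Agent.GE8.SQ.Top Fermat.Agent.GE8.LLQ.S38Min

section Descent

variable {p : ℕ} [hpF : Fact p.Prime] (hp2 : p ≠ 2) (W : WeierstrassCurve ℤ) (hΔ : W.Δ ≠ 0)
  (hW : W.IsSemistableModel) (hirr : W.ModRepIsIrreducible p)
  (hcard₁ : Nat.card (Submodule.torsionBy ℤ
    ((W.map (Int.castRingHom ℚ))⁄(AlgebraicClosure ℚ)).Point p) = p ^ 2)
  (hker : GaloisFactorsThroughFiniteLevel
    (WeierstrassCurve.Affine.Point.galoisRepModuleEnd (K := AlgebraicClosure ℚ) ℚ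
      (W.map (Int.castRingHom ℚ)) p))

include hp2 hΔ hW hirr in
/-- **the descent to a squarefree level prime to `p`, minimal away from `p`**, from `MP2Gate`,
`LLQNodes p` and the PER-`W` node LLP (flat or peu ramifiée: the supplier of `hLLPW` decides). -/
theorem exists_minLevel_W (hgate : MP2Gate) (hB : LLQNodes p) (hLLPW : LLPAtW p W)
    (M₀ : ℕ) (hM₀ : M₀ ≠ 0) (hres₀ : W.IsResiduallyModularOfLevel p M₀) (hp2M : ¬ p ^ 2 ∣ M₀)
    (hcube : ∀ q : ℕ, q.Prime → q ≠ p → ¬ q ^ 3 ∣ M₀) :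
    ∃ M : ℕ, M ∣ M₀ ∧ Squarefree M ∧ ¬ p ∣ M ∧ W.IsResiduallyModularOfLevel p M ∧
      ∀ q : ℕ, q.Prime → q ≠ p → q ∣ M →
        ¬ ((W.map (Int.castRingHom ℚ)).residualGaloisRepOf p hcard₁ hker).IsUnramifiedAt q :=
  exists_minLevel_W_side hp2 W hΔ hW hirr hcard₁ hker (sqSide_of_gate hgate)
    (llqStmt_of_nodes hp2 hB) hLLPW M₀ hM₀ hres₀ hp2M hcube

include hp2 hΔ hW hirr in
/-- **the descent, flat case** (`W` good at `p`), PER-`W` node LLP. -/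
theorem exists_minLevel_FL_W (hgate : MP2Gate) (hB : LLQNodes p) (hLLPW : LLPAtW p W)
    (_hgood : W.IsGoodPrimeFor p)
    (M₀ : ℕ) (hM₀ : M₀ ≠ 0) (hres₀ : W.IsResiduallyModularOfLevel p M₀) (hp2M : ¬ p ^ 2 ∣ M₀)
    (hcube : ∀ q : ℕ, q.Prime → q ≠ p → ¬ q ^ 3 ∣ M₀) :
    ∃ M : ℕ, M ∣ M₀ ∧ Squarefree M ∧ ¬ p ∣ M ∧ W.IsResiduallyModularOfLevel p M ∧
      ∀ q : ℕ, q.Prime → q ≠ p → q ∣ M →
        ¬ ((W.map (Int.castRingHom ℚ)).residualGaloisRepOf p hcard₁ hker).IsUnramifiedAt q :=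
  exists_minLevel_W hp2 W hΔ hW hirr hcard₁ hker hgate hB hLLPW M₀ hM₀ hres₀ hp2M hcube

include hp2 hΔ hW hirr in
/-- **the descent, multiplicative peu ramifiée case**, PER-`W` node LLP; RAISE-P is closed. -/
theorem exists_minLevel_SO_W (hgate : MP2Gate) (hB : LLQNodes p) (hLLPW : LLPAtW p W)
    (hmult : (p : ℤ) ∣ W.Δ)
    (M₀ : ℕ) (hM₀ : M₀ ≠ 0) (hres₀ : W.IsResiduallyModularOfLevel p M₀) (hp2M : ¬ p ^ 2 ∣ M₀)
    (hcube : ∀ q : ℕ, q.Prime → q ≠ p → ¬ q ^ 3 ∣ M₀) :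
    ∃ N : ℕ, N ∣ M₀ ∧ Squarefree N ∧ ¬ p ∣ N ∧ W.IsResiduallyModularOfLevel p N ∧
      (∀ q : ℕ, q.Prime → q ≠ p → q ∣ N →
        ¬ ((W.map (Int.castRingHom ℚ)).residualGaloisRepOf p hcard₁ hker).IsUnramifiedAt q) ∧
      ((p = 3 → 2 ∣ N) → IsResiduallyModularNewAt W p (N * p) p) :=
  exists_minLevel_SO_W_side hp2 W hΔ hW hirr hcard₁ hker (sqSide_of_gate hgate)
    (llqStmt_of_nodes hp2 hB) hLLPW (Fermat.Agent.GE8.RaiseP.Deligne.ClaimPlug.raiseP hp2) hmult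
    M₀ hM₀ hres₀ hp2M hcube

end Descent

end Fermat.Agent.GE8.Top.MinLevelFinalW
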