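/-
GATE-E (S59) / SO(a) step supply, arithmetic half, ABSTRACT (helper10; RISK-6 post): **a level
`L * ∏ x ∈ Sg, x ^ 2` prime to `p` is NOT a level of `ρ̄` when `L` is not** (`L = M / p` squarefree
with all primes ramified, `Sg` = unramified primes), over node SQ WITH its frame side conditions
and node LLQ.  Mathlib + `GE8/Top/DescentSide` only.

`R M` = "`ρ̄` is residually modular of level `M`", `U q` = "`ρ̄` is unramified at `q`".

The auxiliary factor `3` (if `4 ∣ N₀`, `3 ∤ N₀`) resp. `2` (if `9 ∣ N₀`, `2 ∤ N₀`) is put into the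
level and removed at the end (it is unramified).  This needs the auxiliary factor to be `≠ p`:
for `p = 3` the hypothesis `h3 : p = 3 → 2 ∉ Sg` excludes `4 ∣ N₀`.

* `factorization_stage` : the exponents of `L * ∏ x ∈ Sg, x ^ 2`;
* `not_R_stage` : the statement.
-/
import Mathlib
import Fermat.Agent.GE8.Top.DescentSide

set_option autoImplicit false

namespace Fermat.Agent.GE8.Top.NotResModStageAbs

open Fermat.Agent.GE8.Top.DescentAbs Fermat.Agent.GE8.Top.DescentSide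

/-- the product of the squares of a finite set of primes is nonzero. -/
theorem prod_sq_ne_zero (Sg : Finset ℕ) (hSg : ∀ x ∈ Sg, x.Prime) : ∏ x ∈ Sg, x ^ 2 ≠ 0 :=
  Finset.prod_ne_zero_iff.mpr fun x hx => pow_ne_zero 2 (hSg x hx).ne_zero

/-- the exponent of a prime `q` in `∏ x ∈ Sg, x ^ 2` (`Sg` a set of primes). -/
theorem factorization_prod_sq (Sg : Finset ℕ) (hSg : ∀ x ∈ Sg, x.Prime) (q : ℕ) (hq : q.Prime) :
    (∏ x ∈ Sg, x ^ 2).factorization q = if q ∈ Sg then 2 else 0 := by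
  classical
  induction Sg using Finset.induction_on with
  | empty => simp
  | insert a s ha ih =>
    have hs : ∀ x ∈ s, x.Prime := fun x hx => hSg x (Finset.mem_insert_of_mem hx)
    have hap : a.Prime := hSg a (Finset.mem_insert_self a s)
    rw [Finset.prod_insert ha,
      Nat.factorization_mul (pow_ne_zero 2 hap.ne_zero) (prod_sq_ne_zero s hs),
      Finsupp.add_apply, ih hs, Nat.factorization_pow, Finsupp.smul_apply, smul_eq_mul,
      hap.factorization, Finsupp.single_apply]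
    by_cases hqa : a = q
    · subst hqa
      rw [if_pos rfl, if_neg ha, if_pos (Finset.mem_insert_self _ _)]
    · rw [if_neg hqa]
      have hne : q ≠ a := fun h => hqa h.symm
      by_cases hqs : q ∈ s
      · rw [if_pos hqs, if_pos (Finset.mem_insert_of_mem hqs)]
        norm_num
      · have hnm : q ∉ insert a s := by
          intro h
          rcases Finset.mem_insert.mp h with h | h
          · exact hne h
          · exact hqs h
        rw [if_neg hqs, if_neg hnm]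
        norm_num

/-- the exponent of a prime `q` in the stage level `L * ∏ x ∈ Sg, x ^ 2`. -/
theorem factorization_stage {L : ℕ} (hL : L ≠ 0) (Sg : Finset ℕ) (hSg : ∀ x ∈ Sg, x.Prime)
    (q : ℕ) (hq : q.Prime) :
    (L * ∏ x ∈ Sg, x ^ 2).factorization q = L.factorization q + if q ∈ Sg then 2 else 0 := by
  rw [Nat.factorization_mul hL (prod_sq_ne_zero Sg hSg), Finsupp.add_apply,
    factorization_prod_sq Sg hSg q hq]

/-- a squarefree number has exponents `≤ 1`. -/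
theorem factorization_le_one_of_squarefree {L : ℕ} (hL : Squarefree L) (q : ℕ) :
    L.factorization q ≤ 1 :=
  (Nat.squarefree_iff_factorization_le_one hL.ne_zero).mp hL q

/-- `q ^ k ∣ n ⟹ k ≤ v_q(n)` (`n ≠ 0`). -/
theorem le_factorization_of_pow_dvd {n q k : ℕ} (hn : n ≠ 0) (hq : q.Prime) (h : q ^ k ∣ n) :
    k ≤ n.factorization q :=
  (hq.pow_dvd_iff_le_factorization hn).mp h

/-- a squarefree number all of whose prime divisors divide `L` divides `L`. -/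
theorem dvd_of_squarefree_of_forall_prime {M L : ℕ} (hM : Squarefree M)
    (h : ∀ ℓ : ℕ, ℓ.Prime → ℓ ∣ M → ℓ ∣ L) : M ∣ L := by
  rw [← Nat.prod_primeFactors_of_squarefree hM]
  refine Finset.prod_primes_dvd L (fun a ha => (Nat.prime_of_mem_primeFactors ha).prime)
    (fun a ha => h a (Nat.prime_of_mem_primeFactors ha) (Nat.dvd_of_mem_primeFactors ha))

/-- **the stage levels prime to `p` are not levels of `ρ̄`.** -/
theorem not_R_stage {p : ℕ} (hp : p.Prime) (hp2 : p ≠ 2) (R U : ℕ → Prop)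
    (hmono : ∀ M M' : ℕ, R M → M ∣ M' → M' ≠ 0 → R M')
    (hUlev : ∀ M r : ℕ, M ≠ 0 → R M → r.Prime → r ≠ p → ¬ r ∣ M → U r)
    (hSQ : ∀ L' q : ℕ, L' ≠ 0 → q.Prime → q ≠ p → q ∣ L' → ¬ q ^ 2 ∣ L' →
      (q = 2 → 3 ∣ L') → (q = 3 → 2 ∣ L') → R (L' * q) → R L')
    (hLLQ : ∀ M q : ℕ, Squarefree M → q.Prime → q ≠ p → q ∣ M → U q → R M → R (M / q))
    (L : ℕ) (hL : Squarefree L) (hpL : ¬ p ∣ L)
    (hminL : ∀ q : ℕ, q.Prime → q ∣ L → ¬ U q) (hno : ¬ R L)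
    (Sg : Finset ℕ) (hSg : ∀ q ∈ Sg, q.Prime ∧ q ≠ p ∧ U q) (h3 : p = 3 → 2 ∉ Sg) :
    ¬ R (L * ∏ x ∈ Sg, x ^ 2) := by
  intro hR
  have hL0 : L ≠ 0 := hL.ne_zero
  have hSgp : ∀ x ∈ Sg, x.Prime := fun x hx => (hSg x hx).1
  set N₀ := L * ∏ x ∈ Sg, x ^ 2 with hN₀
  have hN₀0 : N₀ ≠ 0 := mul_ne_zero hL0 (prod_sq_ne_zero Sg hSgp)
  have hfac : ∀ q : ℕ, q.Prime →
      N₀.factorization q = L.factorization q + if q ∈ Sg then 2 else 0 :=
    fun q hq => factorization_stage hL0 Sg hSgp q hq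
  -- a prime of `Sg` does not divide `L`
  have hSgL : ∀ q ∈ Sg, ¬ q ∣ L := fun q hq hqL => hminL q (hSg q hq).1 hqL (hSg q hq).2.2
  -- the primes of `N₀`
  have hprime_dvd : ∀ ℓ : ℕ, ℓ.Prime → ℓ ∣ N₀ → ℓ ∣ L ∨ ℓ ∈ Sg := by
    intro ℓ hℓ hd
    by_cases hmem : ℓ ∈ Sg
    · exact Or.inr hmem
    · left
      have h1 : 1 ≤ N₀.factorization ℓ := by
        have := le_factorization_of_pow_dvd hN₀0 hℓ (k := 1) (by rwa [pow_one])
        exact this
      rw [hfac ℓ hℓ, if_neg hmem, add_zero] at h1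
      exact Nat.dvd_of_factorization_pos (by omega)
  -- `p ∤ N₀`
  have hpN₀ : ¬ p ∣ N₀ := by
    intro h
    rcases hprime_dvd p hp h with h1 | h1
    · exact hpL h1
    · exact (hSg p h1).2.1 rfl
  -- exponents `≤ 2`
  have hexp : ∀ q : ℕ, q.Prime → N₀.factorization q ≤ 2 := by
    intro q hq
    rw [hfac q hq]
    by_cases hmem : q ∈ Sg
    · rw [if_pos hmem]
      have : L.factorization q = 0 := Nat.factorization_eq_zero_of_not_dvd (hSgL q hmem)
      omega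
    · rw [if_neg hmem]
      have := factorization_le_one_of_squarefree hL q
      omega
  have hcube : ∀ q : ℕ, q.Prime → q ≠ p → ¬ q ^ 3 ∣ N₀ := by
    intro q hq _ hd
    have := le_factorization_of_pow_dvd hN₀0 hq hd
    have := hexp q hq
    omega
  have hp2N : ¬ p ^ 2 ∣ N₀ := fun h => hpN₀ ((dvd_pow_self p two_ne_zero).trans h)
  -- `q² ∣ N₀ ⟹ q ∈ Sg`
  have hsqmem : ∀ q : ℕ, q.Prime → q ^ 2 ∣ N₀ → q ∈ Sg := by
    intro q hq hd
    by_contra hmem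
    have h2 := le_factorization_of_pow_dvd hN₀0 hq hd
    rw [hfac q hq, if_neg hmem, add_zero] at h2
    have := factorization_le_one_of_squarefree hL q
    omega
  -- the descent from `N₀ * a`, or from `N₀`
  have key : ∀ M₁ : ℕ, M₁ ≠ 0 → Squarefree M₁ → R M₁ →
      (∀ ℓ : ℕ, ℓ.Prime → ℓ ∣ M₁ → ℓ ≠ p ∧ (ℓ ∣ L ∨ U ℓ)) → False := by
    intro M₁ hM₁0 hM₁sq hRM₁ hprimes
    obtain ⟨M₂, hM₂d, hM₂sq, hRM₂, hmin⟩ :=
      exists_min_of_squarefree (p := p) R U hLLQ M₁ hM₁sq hRM₁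
    have hM₂L : M₂ ∣ L := by
      refine dvd_of_squarefree_of_forall_prime hM₂sq fun ℓ hℓ hℓM₂ => ?_
      obtain ⟨hℓp, h⟩ := hprimes ℓ hℓ (hℓM₂.trans hM₂d)
      rcases h with h | h
      · exact h
      · exact absurd h (hmin ℓ hℓ hℓp hℓM₂)
    exact hno (hmono M₂ L hRM₂ hM₂L hL0)
  -- the primes of a divisor of `N₀ * a` (`a = 1` allowed)
  have hprimes_of : ∀ (a : ℕ), (a = 1 ∨ (a.Prime ∧ a ≠ p ∧ ¬ a ∣ N₀)) → ∀ M₁ : ℕ, M₁ ∣ N₀ * a →
      ∀ ℓ : ℕ, ℓ.Prime → ℓ ∣ M₁ → ℓ ≠ p ∧ (ℓ ∣ L ∨ U ℓ) := by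
    intro a ha M₁ hM₁d ℓ hℓ hℓM₁
    have hd : ℓ ∣ N₀ * a := hℓM₁.trans hM₁d
    rcases (Nat.Prime.dvd_mul hℓ).mp hd with h | h
    · refine ⟨fun h' => hpN₀ (h' ▸ h), ?_⟩
      rcases hprime_dvd ℓ hℓ h with h1 | h1
      · exact Or.inl h1
      · exact Or.inr (hSg ℓ h1).2.2
    · rcases ha with ha | ⟨hap, hapne, haN₀⟩
      · rw [ha] at h
        exact absurd (Nat.dvd_one.mp h) hℓ.one_lt.ne'
      · have hℓa : ℓ = a := (Nat.prime_dvd_prime_iff_eq hℓ hap).mp h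
        rw [hℓa]
        exact ⟨hapne, Or.inr (hUlev N₀ a hN₀0 hR hap hapne haN₀)⟩
  by_cases h1 : 4 ∣ N₀ ∧ ¬ 3 ∣ N₀
  · -- auxiliary factor `3`
    have h2mem : 2 ∈ Sg := hsqmem 2 Nat.prime_two (by norm_num; exact h1.1)
    have h3p : (3 : ℕ) ≠ p := fun h => h3 h.symm h2mem
    have h0 : N₀ * 3 ≠ 0 := mul_ne_zero hN₀0 (by norm_num)
    obtain ⟨M₁, hM₁d, hM₁sq, hRM₁⟩ := exists_sqfree_side (p := p) R hSQ (N₀ * 3) h0
      (not_sq_dvd_mul_prime Nat.prime_three h1.2 hp 2 le_rfl hp2N)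
      (fun q hq hqp => not_sq_dvd_mul_prime Nat.prime_three h1.2 hq 3 (by norm_num)
        (hcube q hq hqp))
      (hmono N₀ (N₀ * 3) hR (Dvd.intro _ rfl) h0) (fun _ => Dvd.intro_left _ rfl)
      (fun _ => (by norm_num : 2 ∣ 4).trans (h1.1.trans (Dvd.intro _ rfl)))
    exact key M₁ hM₁sq.ne_zero hM₁sq hRM₁
      (hprimes_of 3 (Or.inr ⟨Nat.prime_three, h3p, h1.2⟩) M₁ hM₁d)
  · by_cases h2 : 9 ∣ N₀ ∧ ¬ 2 ∣ N₀
    · -- auxiliary factor `2`
      have h0 : N₀ * 2 ≠ 0 := mul_ne_zero hN₀0 (by norm_num)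
      obtain ⟨M₁, hM₁d, hM₁sq, hRM₁⟩ := exists_sqfree_side (p := p) R hSQ (N₀ * 2) h0
        (not_sq_dvd_mul_prime Nat.prime_two h2.2 hp 2 le_rfl hp2N)
        (fun q hq hqp => not_sq_dvd_mul_prime Nat.prime_two h2.2 hq 3 (by norm_num)
          (hcube q hq hqp))
        (hmono N₀ (N₀ * 2) hR (Dvd.intro _ rfl) h0)
        (fun _ => (by norm_num : 3 ∣ 9).trans (h2.1.trans (Dvd.intro _ rfl)))
        (fun _ => Dvd.intro_left _ rfl)
      exact key M₁ hM₁sq.ne_zero hM₁sq hRM₁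
        (hprimes_of 2 (Or.inr ⟨Nat.prime_two, fun h => hp2 h.symm, h2.2⟩) M₁ hM₁d)
    · -- no auxiliary factor
      have h43 : 4 ∣ N₀ → 3 ∣ N₀ := fun h4 => by
        by_contra h3'
        exact h1 ⟨h4, h3'⟩
      have h92 : 9 ∣ N₀ → 2 ∣ N₀ := fun h9 => by
        by_contra h2'
        exact h2 ⟨h9, h2'⟩
      obtain ⟨M₁, hM₁d, hM₁sq, hRM₁⟩ := exists_sqfree_side (p := p) R hSQ N₀ hN₀0 hp2N hcube hR
        h43 h92
      exact key M₁ hM₁sq.ne_zero hM₁sq hRM₁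
        (hprimes_of 1 (Or.inl rfl) M₁ (by rwa [mul_one]))

end Fermat.Agent.GE8.Top.NotResModStageAbs
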