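/-
GATE-E (S59) / SO(a) step supply, arithmetic half (helper10; RISK-6 post): **in the très ramifiée
branch (`p ∥ M` minimal, `W` NOT residually modular of level `M / p`) the stage levels
`N₀ = M / p * ∏ x ∈ Sg, x ^ 2` prime to `p` are NOT levels of `ρ̄_{W,p}`** — hence the `𝔪`-local part
of the lattice of level `N₀ * p` is `p`-new (old-killer at level `N₀`,
`GB/B10/KillerPlug.exists_killer_of_not_resMod`).

Instance of `NotResModStageAbs.not_R_stage` over node SQ (`GE8/SQ/AuxPlug.SQSideStmt`, with its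
frame side conditions) and node LLQ.  For `p = 3` the hypothesis `h3 : p = 3 → 2 ∉ Sg` is needed
(the auxiliary factor `3` of the side condition at `q = 2` would be `p`): see RISK-6.
-/
import Mathlib
import Fermat.Agent.GE8.Top.MinLevelSide
import Fermat.Agent.GE8.Top.NotResModStageAbs

set_option autoImplicit false

open WeierstrassCurve WeierstrassCurve.Affine WeierstrassCurve.Affine.Point

namespace Fermat.Agent.GE8.Top.NotResModStage

open Fermat.Agent.GE8.Top.DescentAbs Fermat.Agent.GE8.Top.DescentSide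
  Fermat.Agent.GE8.Top.MinLevel Fermat.Agent.GE8.RaiseP.Stmt Fermat.Agent.GE8.SQ.AuxPlug
  Fermat.Agent.GE8.Top.MinLevelSide Fermat.Agent.GE8.Top.NotResModStageAbs

variable {p : ℕ} [hpF : Fact p.Prime] (hp2 : p ≠ 2) (W : WeierstrassCurve ℤ) (hΔ : W.Δ ≠ 0)
  (hW : W.IsSemistableModel) (hirr : W.ModRepIsIrreducible p)
  (hcard₁ : Nat.card (Submodule.torsionBy ℤ
    ((W.map (Int.castRingHom ℚ))⁄(AlgebraicClosure ℚ)).Point p) = p ^ 2)
  (hker : GaloisFactorsThroughFiniteLevel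
    (WeierstrassCurve.Affine.Point.galoisRepModuleEnd (K := AlgebraicClosure ℚ) ℚ
      (W.map (Int.castRingHom ℚ)) p))

include hp2 hΔ hW hirr in
/-- **the stage levels prime to `p` of the très ramifiée branch are not levels of `ρ̄`.** -/
theorem not_resMod_stage (hSQ : SQSideStmt) (hLLQ : LLQStmt p)
    (M : ℕ) (hsq : Squarefree M) (hpM : p ∣ M)
    (hres : W.IsResiduallyModularOfLevel p M)
    (hmin : ∀ q : ℕ, q.Prime → q ≠ p → q ∣ M →
      ¬ ((W.map (Int.castRingHom ℚ)).residualGaloisRepOf p hcard₁ hker).IsUnramifiedAt q)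
    (hno : ¬ W.IsResiduallyModularOfLevel p (M / p))
    (Sg : Finset ℕ) (hSg : ∀ q ∈ Sg, q.Prime ∧ ¬ q ∣ M ∧ q ≠ p) (h3 : p = 3 → 2 ∉ Sg) :
    ¬ W.IsResiduallyModularOfLevel p (M / p * ∏ x ∈ Sg, x ^ 2) := by
  have hp : p.Prime := hpF.out
  have hM0 : M ≠ 0 := hsq.ne_zero
  have hdM : M / p ∣ M := Nat.div_dvd_of_dvd hpM
  have hpL : ¬ p ∣ M / p := by
    intro h
    obtain ⟨c, hc⟩ := h
    have h2 : p * p ∣ M := ⟨c, by rw [← Nat.mul_div_cancel' hpM, hc, mul_assoc]⟩
    exact hp.one_lt.ne' (Nat.isUnit_iff.mp (hsq p h2))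
  refine not_R_stage hp hp2 (fun M => W.IsResiduallyModularOfLevel p M)
    (fun q => ((W.map (Int.castRingHom ℚ)).residualGaloisRepOf p hcard₁ hker).IsUnramifiedAt q)
    (fun _ _ h hd h0 => Fermat.Agent.GB.Top.SplitT.isResiduallyModularOfLevel_of_dvd h hd h0)
    (fun M r hM h hr hrp hrM => unr_of_level hp2 W hΔ hirr hcard₁ hker M r hM h hr hrp hrM)
    (sq_side hp2 W hΔ hW hirr hSQ)
    (fun M q hM hq hqp hqM hU h =>
      hLLQ W hΔ hW hcard₁ hker hirr M q hq hqp hqM (not_sq_dvd_of_squarefree hM hq) hM hU h)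
    (M / p) (hsq.squarefree_of_dvd hdM) hpL
    (fun q hq hqL => hmin q hq (fun h => hpL (h ▸ hqL)) (hqL.trans hdM))
    hno Sg
    (fun q hq => ⟨(hSg q hq).1, (hSg q hq).2.2,
      unr_of_level hp2 W hΔ hirr hcard₁ hker M q hM0 hres (hSg q hq).1 (hSg q hq).2.2
        (hSg q hq).2.1⟩)
    h3

end Fermat.Agent.GE8.Top.NotResModStage
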