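/-
GATE-E (S59) / RISK-6, consumer side, ABSTRACT (helper10): **`NotResModStageAbs.not_R_stage` with
the binder `h3 : p = 3 → 2 ∉ Sg` replaced by the node SQ3** ("`p = 3`: level `4 L` ⟹ level `2 L`,
`L` odd prime to `3`").  Mathlib + `GE8/Top/NotResModStageAbs` only.

* `not_R_stage_gen` : `not_R_stage` with `hminL` weakened to `hSgL : ∀ q ∈ Sg, ¬ q ∣ L` (the only
  use of `hminL`);
* `not_R_stage3`    : no `h3`; if `p = 3 ∧ 2 ∈ Sg`, ONE step of `hSQ3` brings `L ∏_{Sg} x²` to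
  `(2 L) ∏_{Sg ∖ 2} x²`, and `not_R_stage_gen` applies to `(2 L, Sg.erase 2)` (`¬ R (2 L)` by LLQ).
-/
import Mathlib
import Fermat.Agent.GE8.Top.NotResModStageAbs

set_option autoImplicit false

namespace Fermat.Agent.GE8.Top.NotResModStage3Abs

open Fermat.Agent.GE8.Top.DescentAbs Fermat.Agent.GE8.Top.DescentSide
  Fermat.Agent.GE8.Top.NotResModStageAbs

/-- **`not_R_stage` with `hminL` weakened to `hSgL`.** -/
theorem not_R_stage_gen {p : ℕ} (hp : p.Prime) (hp2 : p ≠ 2) (R U : ℕ → Prop)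
    (hmono : ∀ M M' : ℕ, R M → M ∣ M' → M' ≠ 0 → R M')
    (hUlev : ∀ M r : ℕ, M ≠ 0 → R M → r.Prime → r ≠ p → ¬ r ∣ M → U r)
    (hSQ : ∀ L' q : ℕ, L' ≠ 0 → q.Prime → q ≠ p → q ∣ L' → ¬ q ^ 2 ∣ L' →
      (q = 2 → 3 ∣ L') → (q = 3 → 2 ∣ L') → R (L' * q) → R L')
    (hLLQ : ∀ M q : ℕ, Squarefree M → q.Prime → q ≠ p → q ∣ M → U q → R M → R (M / q))
    (L : ℕ) (hL : Squarefree L) (hpL : ¬ p ∣ L) (hno : ¬ R L)
    (Sg : Finset ℕ) (hSg : ∀ q ∈ Sg, q.Prime ∧ q ≠ p ∧ U q) (hSgL : ∀ q ∈ Sg, ¬ q ∣ L)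
    (h3 : p = 3 → 2 ∉ Sg) :
    ¬ R (L * ∏ x ∈ Sg, x ^ 2) := by
  intro hR
  have hL0 : L ≠ 0 := hL.ne_zero
  have hSgp : ∀ x ∈ Sg, x.Prime := fun x hx => (hSg x hx).1
  set N₀ := L * ∏ x ∈ Sg, x ^ 2 with hN₀
  have hN₀0 : N₀ ≠ 0 := mul_ne_zero hL0 (prod_sq_ne_zero Sg hSgp)
  have hfac : ∀ q : ℕ, q.Prime →
      N₀.factorization q = L.factorization q + if q ∈ Sg then 2 else 0 :=
    fun q hq => factorization_stage hL0 Sg hSgp q hq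
  -- the primes of `N₀`
  have hprime_dvd : ∀ ℓ : ℕ, ℓ.Prime → ℓ ∣ N₀ → ℓ ∣ L ∨ ℓ ∈ Sg := by
    intro ℓ hℓ hd
    by_cases hmem : ℓ ∈ Sg
    · exact Or.inr hmem
    · left
      have h1 : 1 ≤ N₀.factorization ℓ := by
        have := le_factorization_of_pow_dvd hN₀0 hℓ (k := 1) (by rwa [pow_one])
        exact this
      rw [hfac ℓ hℓ, if_neg hmem, add_zero] at h1
      exact Nat.dvd_of_factorization_pos (by omega)
  -- `p ∤ N₀`
  have hpN₀ : ¬ p ∣ N₀ := by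
    intro h
    rcases hprime_dvd p hp h with h1 | h1
    · exact hpL h1
    · exact (hSg p h1).2.1 rfl
  -- exponents `≤ 2`
  have hexp : ∀ q : ℕ, q.Prime → N₀.factorization q ≤ 2 := by
    intro q hq
    rw [hfac q hq]
    by_cases hmem : q ∈ Sg
    · rw [if_pos hmem]
      have : L.factorization q = 0 := Nat.factorization_eq_zero_of_not_dvd (hSgL q hmem)
      omega
    · rw [if_neg hmem]
      have := factorization_le_one_of_squarefree hL q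
      omega
  have hcube : ∀ q : ℕ, q.Prime → q ≠ p → ¬ q ^ 3 ∣ N₀ := by
    intro q hq _ hd
    have := le_factorization_of_pow_dvd hN₀0 hq hd
    have := hexp q hq
    omega
  have hp2N : ¬ p ^ 2 ∣ N₀ := fun h => hpN₀ ((dvd_pow_self p two_ne_zero).trans h)
  -- `q² ∣ N₀ ⟹ q ∈ Sg`
  have hsqmem : ∀ q : ℕ, q.Prime → q ^ 2 ∣ N₀ → q ∈ Sg := by
    intro q hq hd
    by_contra hmem
    have h2 := le_factorization_of_pow_dvd hN₀0 hq hd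
    rw [hfac q hq, if_neg hmem, add_zero] at h2
    have := factorization_le_one_of_squarefree hL q
    omega
  -- the descent from `N₀ * a`, or from `N₀`
  have key : ∀ M₁ : ℕ, M₁ ≠ 0 → Squarefree M₁ → R M₁ →
      (∀ ℓ : ℕ, ℓ.Prime → ℓ ∣ M₁ → ℓ ≠ p ∧ (ℓ ∣ L ∨ U ℓ)) → False := by
    intro M₁ hM₁0 hM₁sq hRM₁ hprimes
    obtain ⟨M₂, hM₂d, hM₂sq, hRM₂, hmin⟩ :=
      exists_min_of_squarefree (p := p) R U hLLQ M₁ hM₁sq hRM₁
    have hM₂L : M₂ ∣ L := by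
      refine dvd_of_squarefree_of_forall_prime hM₂sq fun ℓ hℓ hℓM₂ => ?_
      obtain ⟨hℓp, h⟩ := hprimes ℓ hℓ (hℓM₂.trans hM₂d)
      rcases h with h | h
      · exact h
      · exact absurd h (hmin ℓ hℓ hℓp hℓM₂)
    exact hno (hmono M₂ L hRM₂ hM₂L hL0)
  -- the primes of a divisor of `N₀ * a` (`a = 1` allowed)
  have hprimes_of : ∀ (a : ℕ), (a = 1 ∨ (a.Prime ∧ a ≠ p ∧ ¬ a ∣ N₀)) → ∀ M₁ : ℕ, M₁ ∣ N₀ * a →
      ∀ ℓ : ℕ, ℓ.Prime → ℓ ∣ M₁ → ℓ ≠ p ∧ (ℓ ∣ L ∨ U ℓ) := by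
    intro a ha M₁ hM₁d ℓ hℓ hℓM₁
    have hd : ℓ ∣ N₀ * a := hℓM₁.trans hM₁d
    rcases (Nat.Prime.dvd_mul hℓ).mp hd with h | h
    · refine ⟨fun h' => hpN₀ (h' ▸ h), ?_⟩
      rcases hprime_dvd ℓ hℓ h with h1 | h1
      · exact Or.inl h1
      · exact Or.inr (hSg ℓ h1).2.2
    · rcases ha with ha | ⟨hap, hapne, haN₀⟩
      · rw [ha] at h
        exact absurd (Nat.dvd_one.mp h) hℓ.one_lt.ne'
      · have hℓa : ℓ = a := (Nat.prime_dvd_prime_iff_eq hℓ hap).mp h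
        rw [hℓa]
        exact ⟨hapne, Or.inr (hUlev N₀ a hN₀0 hR hap hapne haN₀)⟩
  by_cases h1 : 4 ∣ N₀ ∧ ¬ 3 ∣ N₀
  · -- auxiliary factor `3`
    have h2mem : 2 ∈ Sg := hsqmem 2 Nat.prime_two (by norm_num; exact h1.1)
    have h3p : (3 : ℕ) ≠ p := fun h => h3 h.symm h2mem
    have h0 : N₀ * 3 ≠ 0 := mul_ne_zero hN₀0 (by norm_num)
    obtain ⟨M₁, hM₁d, hM₁sq, hRM₁⟩ := exists_sqfree_side (p := p) R hSQ (N₀ * 3) h0
      (not_sq_dvd_mul_prime Nat.prime_three h1.2 hp 2 le_rfl hp2N)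
      (fun q hq hqp => not_sq_dvd_mul_prime Nat.prime_three h1.2 hq 3 (by norm_num)
        (hcube q hq hqp))
      (hmono N₀ (N₀ * 3) hR (Dvd.intro _ rfl) h0) (fun _ => Dvd.intro_left _ rfl)
      (fun _ => (by norm_num : 2 ∣ 4).trans (h1.1.trans (Dvd.intro _ rfl)))
    exact key M₁ hM₁sq.ne_zero hM₁sq hRM₁
      (hprimes_of 3 (Or.inr ⟨Nat.prime_three, h3p, h1.2⟩) M₁ hM₁d)
  · by_cases h2 : 9 ∣ N₀ ∧ ¬ 2 ∣ N₀
    · -- auxiliary factor `2`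
      have h0 : N₀ * 2 ≠ 0 := mul_ne_zero hN₀0 (by norm_num)
      obtain ⟨M₁, hM₁d, hM₁sq, hRM₁⟩ := exists_sqfree_side (p := p) R hSQ (N₀ * 2) h0
        (not_sq_dvd_mul_prime Nat.prime_two h2.2 hp 2 le_rfl hp2N)
        (fun q hq hqp => not_sq_dvd_mul_prime Nat.prime_two h2.2 hq 3 (by norm_num)
          (hcube q hq hqp))
        (hmono N₀ (N₀ * 2) hR (Dvd.intro _ rfl) h0)
        (fun _ => (by norm_num : 3 ∣ 9).trans (h2.1.trans (Dvd.intro _ rfl)))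
        (fun _ => Dvd.intro_left _ rfl)
      exact key M₁ hM₁sq.ne_zero hM₁sq hRM₁
        (hprimes_of 2 (Or.inr ⟨Nat.prime_two, fun h => hp2 h.symm, h2.2⟩) M₁ hM₁d)
    · -- no auxiliary factor
      have h43 : 4 ∣ N₀ → 3 ∣ N₀ := fun h4 => by
        by_contra h3'
        exact h1 ⟨h4, h3'⟩
      have h92 : 9 ∣ N₀ → 2 ∣ N₀ := fun h9 => by
        by_contra h2'
        exact h2 ⟨h9, h2'⟩
      obtain ⟨M₁, hM₁d, hM₁sq, hRM₁⟩ := exists_sqfree_side (p := p) R hSQ N₀ hN₀0 hp2N hcube hR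
        h43 h92
      exact key M₁ hM₁sq.ne_zero hM₁sq hRM₁
        (hprimes_of 1 (Or.inl rfl) M₁ (by rwa [mul_one]))

/-- `∏ x ∈ Sg, x ^ 2 = 2 ^ 2 * ∏ x ∈ Sg.erase 2, x ^ 2` when `2 ∈ Sg`. -/
theorem prod_sq_erase_two (Sg : Finset ℕ) (h2 : 2 ∈ Sg) :
    ∏ x ∈ Sg, x ^ 2 = 2 ^ 2 * ∏ x ∈ Sg.erase 2, x ^ 2 :=
  (Finset.mul_prod_erase Sg (fun x => x ^ 2) h2).symm

/-- **the stage levels prime to `p` are not levels of `ρ̄`, with node SQ3 instead of `h3`.** -/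
theorem not_R_stage3 {p : ℕ} (hp : p.Prime) (hp2 : p ≠ 2) (R U : ℕ → Prop)
    (hmono : ∀ M M' : ℕ, R M → M ∣ M' → M' ≠ 0 → R M')
    (hUlev : ∀ M r : ℕ, M ≠ 0 → R M → r.Prime → r ≠ p → ¬ r ∣ M → U r)
    (hSQ : ∀ L' q : ℕ, L' ≠ 0 → q.Prime → q ≠ p → q ∣ L' → ¬ q ^ 2 ∣ L' →
      (q = 2 → 3 ∣ L') → (q = 3 → 2 ∣ L') → R (L' * q) → R L')
    (hSQ3 : p = 3 → ∀ L' : ℕ, L' ≠ 0 → 2 ∣ L' → ¬ 2 ^ 2 ∣ L' → ¬ 3 ∣ L' → R (L' * 2) → R L')
    (hLLQ : ∀ M q : ℕ, Squarefree M → q.Prime → q ≠ p → q ∣ M → U q → R M → R (M / q))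
    (L : ℕ) (hL : Squarefree L) (hpL : ¬ p ∣ L)
    (hminL : ∀ q : ℕ, q.Prime → q ∣ L → ¬ U q) (hno : ¬ R L)
    (Sg : Finset ℕ) (hSg : ∀ q ∈ Sg, q.Prime ∧ q ≠ p ∧ U q) :
    ¬ R (L * ∏ x ∈ Sg, x ^ 2) := by
  have hSgL : ∀ q ∈ Sg, ¬ q ∣ L := fun q hq hqL => hminL q (hSg q hq).1 hqL (hSg q hq).2.2
  by_cases h : p = 3 ∧ 2 ∈ Sg
  · obtain ⟨hp3, h2mem⟩ := h
    intro hR
    have hL0 : L ≠ 0 := hL.ne_zero
    have h2L : ¬ 2 ∣ L := hSgL 2 h2mem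
    have hU2 : U 2 := (hSg 2 h2mem).2.2
    have h2p : (2 : ℕ) ≠ p := fun h => hp2 h.symm
    -- the level `2 L` and the set `Sg.erase 2`
    have hL2sq : Squarefree (2 * L) :=
      (Nat.squarefree_mul_iff).mpr ⟨(Nat.Prime.coprime_iff_not_dvd Nat.prime_two).mpr h2L,
        Nat.prime_two.prime.squarefree, hL⟩
    have hpL2 : ¬ p ∣ 2 * L := by
      intro hd
      rcases (Nat.Prime.dvd_mul hp).mp hd with h | h
      · exact h2p ((Nat.prime_dvd_prime_iff_eq hp Nat.prime_two).mp h).symm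
      · exact hpL h
    have hno2 : ¬ R (2 * L) := by
      intro hR2
      have := hLLQ (2 * L) 2 hL2sq Nat.prime_two h2p (Dvd.intro _ rfl) hU2 hR2
      rw [Nat.mul_div_cancel_left L (by norm_num : 0 < 2)] at this
      exact hno this
    have hSg' : ∀ q ∈ Sg.erase 2, q.Prime ∧ q ≠ p ∧ U q :=
      fun q hq => hSg q (Finset.mem_of_mem_erase hq)
    have hSg'p : ∀ x ∈ Sg.erase 2, x.Prime := fun x hx => (hSg' x hx).1
    have hSgL' : ∀ q ∈ Sg.erase 2, ¬ q ∣ 2 * L := by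
      intro q hq hd
      have hqp := (hSg' q hq).1
      rcases (Nat.Prime.dvd_mul hqp).mp hd with h | h
      · exact (Finset.ne_of_mem_erase hq) ((Nat.prime_dvd_prime_iff_eq hqp Nat.prime_two).mp h)
      · exact hSgL q (Finset.mem_of_mem_erase hq) h
    have h2notin : 2 ∉ Sg.erase 2 := Finset.notMem_erase 2 Sg
    -- the level after one SQ3 step
    set L₁ := 2 * L * ∏ x ∈ Sg.erase 2, x ^ 2 with hL₁
    have hL₁0 : L₁ ≠ 0 := mul_ne_zero hL2sq.ne_zero (prod_sq_ne_zero _ hSg'p)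
    have hlev : L * ∏ x ∈ Sg, x ^ 2 = L₁ * 2 := by
      rw [prod_sq_erase_two Sg h2mem, hL₁]
      ring
    have hfac2 : L₁.factorization 2 = 1 := by
      rw [hL₁, factorization_stage hL2sq.ne_zero _ hSg'p 2 Nat.prime_two, if_neg h2notin,
        add_zero, Nat.factorization_mul (by norm_num) hL0, Finsupp.add_apply,
        Nat.prime_two.factorization, Finsupp.single_eq_same,
        Nat.factorization_eq_zero_of_not_dvd h2L]
    have h2L₁ : 2 ∣ L₁ := by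
      rw [hL₁, mul_assoc]
      exact Dvd.intro _ rfl
    have h4L₁ : ¬ 2 ^ 2 ∣ L₁ := by
      intro hd
      have := le_factorization_of_pow_dvd hL₁0 Nat.prime_two hd
      omega
    have h3L₁ : ¬ 3 ∣ L₁ := by
      intro hd
      rw [← hp3] at hd
      have hd' : p ∣ L * ∏ x ∈ Sg, x ^ 2 := by
        rw [hlev]
        exact hd.mul_right 2
      rcases (Nat.Prime.dvd_mul hp).mp hd' with h | h
      · exact hpL h
      · obtain ⟨x, hx, hpx⟩ := (Prime.dvd_finsetProd_iff hp.prime _).mp h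
        have hxp := (hSg x hx).1
        have : p = x := (Nat.prime_dvd_prime_iff_eq hp hxp).mp (hp.dvd_of_dvd_pow hpx)
        exact (hSg x hx).2.1 this.symm
    have hR₁ : R L₁ := hSQ3 hp3 L₁ hL₁0 h2L₁ h4L₁ h3L₁ (hlev ▸ hR)
    exact not_R_stage_gen hp hp2 R U hmono hUlev hSQ hLLQ (2 * L) hL2sq hpL2 hno2 (Sg.erase 2)
      hSg' hSgL' (fun _ => h2notin) hR₁
  · exact not_R_stage_gen hp hp2 R U hmono hUlev hSQ hLLQ L hL hpL hno Sg hSg hSgL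
      (fun hp3 h2 => h ⟨hp3, h2⟩)

end Fermat.Agent.GE8.Top.NotResModStage3Abs
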