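/-
GATE-E (S59) / RISK-6, consumer side (helper10): **`NotResModStage.not_resMod_stage` WITHOUT the
binder `h3 : p = 3 → 2 ∉ Sg`**, over the new node `SQ3Stmt` ("`p = 3`: `ρ̄_{W,3}` of level `4 L`
⟹ of level `2 L`, for `L` odd and prime to `3`" — the case of node SQ at `q = 2` whose frame side
condition `3 ∣ L'` cannot be met when `p = 3`).

* `SQ3Stmt` : the node (same shape as `GE8/SQ/AuxPlug.SQSideStmt` at `p = 3`, `q = 2`, with
  `3 ∣ L'` replaced by `¬ 3 ∣ L'`);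
* `sq3_side` : `SQ3Stmt` in the vocabulary of `NotResModStage3Abs.not_R_stage3`;
* **`not_resMod_stage3`** : in the très ramifiée branch (`p ∥ M` minimal, `W` NOT residually
  modular of level `M / p`) NO stage level `M / p * ∏ x ∈ Sg, x ^ 2` is a level of `ρ̄_{W,p}`
  (every odd `p`, every `Sg`).
-/
import Mathlib
import Fermat.Agent.GE8.Top.NotResModStage
import Fermat.Agent.GE8.Top.NotResModStage3Abs

set_option autoImplicit false

open WeierstrassCurve WeierstrassCurve.Affine WeierstrassCurve.Affine.Point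

namespace Fermat.Agent.GE8.Top.NotResModStage3

open Fermat.Agent.GE8.Top.DescentAbs Fermat.Agent.GE8.Top.DescentSide
  Fermat.Agent.GE8.Top.MinLevel Fermat.Agent.GE8.RaiseP.Stmt Fermat.Agent.GE8.SQ.AuxPlug
  Fermat.Agent.GE8.Top.MinLevelSide Fermat.Agent.GE8.Top.NotResModStageAbs
  Fermat.Agent.GE8.Top.NotResModStage3Abs

/-- **node SQ3**: for a semistable `W` with `ρ̄_{W,3}` irreducible, level `L' * 2` ⟹ level `L'`
when `2 ∥ L'` and `3 ∤ L'` (i.e. `4 L ⟹ 2 L`, `L` odd prime to `3`). -/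
def SQ3Stmt : Prop :=
  ∀ (W : WeierstrassCurve ℤ) (_ : W.IsSemistableModel) (_ : W.Δ ≠ 0)
    (_ : W.ModRepIsIrreducible 3)
    (L' : ℕ) [NeZero L'] (_ : 2 ∣ L') (_ : ¬ 2 ^ 2 ∣ L') (_ : ¬ 3 ∣ L')
    (_ : W.IsResiduallyModularOfLevel 3 (L' * 2)), W.IsResiduallyModularOfLevel 3 L'

variable {p : ℕ} [hpF : Fact p.Prime] (hp2 : p ≠ 2) (W : WeierstrassCurve ℤ) (hΔ : W.Δ ≠ 0)
  (hW : W.IsSemistableModel) (hirr : W.ModRepIsIrreducible p)
  (hcard₁ : Nat.card (Submodule.torsionBy ℤ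
    ((W.map (Int.castRingHom ℚ))⁄(AlgebraicClosure ℚ)).Point p) = p ^ 2)
  (hker : GaloisFactorsThroughFiniteLevel
    (WeierstrassCurve.Affine.Point.galoisRepModuleEnd (K := AlgebraicClosure ℚ) ℚ
      (W.map (Int.castRingHom ℚ)) p))

include hΔ hW hirr in
/-- `SQ3Stmt` in the vocabulary of `not_R_stage3`. -/
theorem sq3_side (hSQ3 : SQ3Stmt) (hp3 : p = 3) (L' : ℕ) (hL' : L' ≠ 0) (h2 : 2 ∣ L')
    (h4 : ¬ 2 ^ 2 ∣ L') (h3 : ¬ 3 ∣ L') (h : W.IsResiduallyModularOfLevel p (L' * 2)) :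
    W.IsResiduallyModularOfLevel p L' := by
  subst hp3
  have : NeZero L' := ⟨hL'⟩
  exact hSQ3 W hW hΔ hirr L' h2 h4 h3 h

include hp2 hΔ hW hirr in
/-- **the stage levels prime to `p` of the très ramifiée branch are not levels of `ρ̄`** (every
odd `p`, every stage `Sg`). -/
theorem not_resMod_stage3 (hSQ : SQSideStmt) (hSQ3 : SQ3Stmt) (hLLQ : LLQStmt p)
    (M : ℕ) (hsq : Squarefree M) (hpM : p ∣ M)
    (hres : W.IsResiduallyModularOfLevel p M)
    (hmin : ∀ q : ℕ, q.Prime → q ≠ p → q ∣ M →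
      ¬ ((W.map (Int.castRingHom ℚ)).residualGaloisRepOf p hcard₁ hker).IsUnramifiedAt q)
    (hno : ¬ W.IsResiduallyModularOfLevel p (M / p))
    (Sg : Finset ℕ) (hSg : ∀ q ∈ Sg, q.Prime ∧ ¬ q ∣ M ∧ q ≠ p) :
    ¬ W.IsResiduallyModularOfLevel p (M / p * ∏ x ∈ Sg, x ^ 2) := by
  have hp : p.Prime := hpF.out
  have hM0 : M ≠ 0 := hsq.ne_zero
  have hdM : M / p ∣ M := Nat.div_dvd_of_dvd hpM
  have hpL : ¬ p ∣ M / p := by
    intro h
    obtain ⟨c, hc⟩ := h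
    have h2 : p * p ∣ M := ⟨c, by rw [← Nat.mul_div_cancel' hpM, hc, mul_assoc]⟩
    exact hp.one_lt.ne' (Nat.isUnit_iff.mp (hsq p h2))
  refine not_R_stage3 hp hp2 (fun M => W.IsResiduallyModularOfLevel p M)
    (fun q => ((W.map (Int.castRingHom ℚ)).residualGaloisRepOf p hcard₁ hker).IsUnramifiedAt q)
    (fun _ _ h hd h0 => Fermat.Agent.GB.Top.SplitT.isResiduallyModularOfLevel_of_dvd h hd h0)
    (fun M r hM h hr hrp hrM => unr_of_level hp2 W hΔ hirr hcard₁ hker M r hM h hr hrp hrM)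
    (sq_side hp2 W hΔ hW hirr hSQ)
    (fun hp3 L' hL' h2 h4 h3 h => sq3_side W hΔ hW hirr hSQ3 hp3 L' hL' h2 h4 h3 h)
    (fun M q hM hq hqp hqM hU h =>
      hLLQ W hΔ hW hcard₁ hker hirr M q hq hqp hqM (not_sq_dvd_of_squarefree hM hq) hM hU h)
    (M / p) (hsq.squarefree_of_dvd hdM) hpL
    (fun q hq hqL => hmin q hq (fun h => hpL (h ▸ hqL)) (hqL.trans hdM))
    hno Sg
    (fun q hq => ⟨(hSg q hq).1, (hSg q hq).2.2,
      unr_of_level hp2 W hΔ hirr hcard₁ hker M q hM0 hres (hSg q hq).1 (hSg q hq).2.2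
        (hSg q hq).2.1⟩)

end Fermat.Agent.GE8.Top.NotResModStage3
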