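/-
GATE-E (S59) / RISK-6, consumer side, ABSTRACT, SQUAREFREE form (helper97): **`NotResModStage3Abs.
not_R_stage3` with the node SQ3 consumed LAST, i.e. only at SQUAREFREE levels `L'`.**

Why: the dictionary end "`Hom(Γ₀(M), O)_𝔪 ≠ 0 ⟹ ρ̄` is of level `M`" on main
(`GB/B7/HBnd.hbase_of_squarefree`) needs the boundary lemma (BND) (`cohT_apply_of_parabolic`), which
holds for SQUAREFREE `M` only (for `x² ∣ M`, `x ≥ 5`, the Hecke operators permute the cusps over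
`x`).  `not_R_stage3` does the SQ3 step FIRST, at the level `2 L ∏_{Sg ∖ 2} x²`; here the squares
`x²`, `x ∈ Sg ∖ 2` (`x ≥ 5`: no frame side condition), are removed first — at the levels `4 M`, `M` odd
— and SQ3 is used ONCE, at `L' = 2 M` with `M` odd squarefree prime to `3`.

* `not_R_stage3_sq` : `not_R_stage3` with
  `hSQ3 : p = 3 → ∀ L', L' ≠ 0 → Squarefree L' → 2 ∣ L' → ¬ 3 ∣ L' → R (L' * 2) → R L'`.

Mathlib + `GE8/Top/NotResModStage3Abs` only.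
-/
import Mathlib
import Fermat.Agent.GE8.Top.NotResModStage3Abs

set_option autoImplicit false

namespace Fermat.Agent.GE8.Top.NotResModStage3SqAbs

open Fermat.Agent.GE8.Top.DescentAbs Fermat.Agent.GE8.Top.DescentSide
  Fermat.Agent.GE8.Top.NotResModStageAbs Fermat.Agent.GE8.Top.NotResModStage3Abs

/-- **the stage levels prime to `p` are not levels of `ρ̄`; node SQ3 at SQUAREFREE levels only.** -/
theorem not_R_stage3_sq {p : ℕ} (hp : p.Prime) (hp2 : p ≠ 2) (R U : ℕ → Prop)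
    (hmono : ∀ M M' : ℕ, R M → M ∣ M' → M' ≠ 0 → R M')
    (hUlev : ∀ M r : ℕ, M ≠ 0 → R M → r.Prime → r ≠ p → ¬ r ∣ M → U r)
    (hSQ : ∀ L' q : ℕ, L' ≠ 0 → q.Prime → q ≠ p → q ∣ L' → ¬ q ^ 2 ∣ L' →
      (q = 2 → 3 ∣ L') → (q = 3 → 2 ∣ L') → R (L' * q) → R L')
    (hSQ3 : p = 3 → ∀ L' : ℕ, L' ≠ 0 → Squarefree L' → 2 ∣ L' → ¬ 3 ∣ L' → R (L' * 2) → R L')
    (hLLQ : ∀ M q : ℕ, Squarefree M → q.Prime → q ≠ p → q ∣ M → U q → R M → R (M / q))
    (L : ℕ) (hL : Squarefree L) (hpL : ¬ p ∣ L)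
    (hminL : ∀ q : ℕ, q.Prime → q ∣ L → ¬ U q) (hno : ¬ R L)
    (Sg : Finset ℕ) (hSg : ∀ q ∈ Sg, q.Prime ∧ q ≠ p ∧ U q) :
    ¬ R (L * ∏ x ∈ Sg, x ^ 2) := by
  have hSgL : ∀ q ∈ Sg, ¬ q ∣ L := fun q hq hqL => hminL q (hSg q hq).1 hqL (hSg q hq).2.2
  by_cases h : p = 3 ∧ 2 ∈ Sg
  · obtain ⟨hp3, h2mem⟩ := h
    intro hR
    have hL0 : L ≠ 0 := hL.ne_zero
    have h2L : ¬ 2 ∣ L := hSgL 2 h2mem
    have hU2 : U 2 := (hSg 2 h2mem).2.2
    have h2p : (2 : ℕ) ≠ p := fun h => hp2 h.symm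
    have hSg' : ∀ q ∈ Sg.erase 2, q.Prime ∧ q ≠ p ∧ U q :=
      fun q hq => hSg q (Finset.mem_of_mem_erase hq)
    have hSg'p : ∀ x ∈ Sg.erase 2, x.Prime := fun x hx => (hSg' x hx).1
    have hSgL' : ∀ q ∈ Sg.erase 2, ¬ q ∣ L := fun q hq => hSgL q (Finset.mem_of_mem_erase hq)
    have h2notin : 2 ∉ Sg.erase 2 := Finset.notMem_erase 2 Sg
    -- the odd part `M₀` of the stage level
    set M₀ := L * ∏ x ∈ Sg.erase 2, x ^ 2 with hM₀
    have hM₀0 : M₀ ≠ 0 := mul_ne_zero hL0 (prod_sq_ne_zero _ hSg'p)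
    have hlev : L * ∏ x ∈ Sg, x ^ 2 = 4 * M₀ := by
      rw [prod_sq_erase_two Sg h2mem, hM₀]
      ring
    have hfac : ∀ q : ℕ, q.Prime →
        M₀.factorization q = L.factorization q + if q ∈ Sg.erase 2 then 2 else 0 :=
      fun q hq => factorization_stage hL0 _ hSg'p q hq
    -- the primes of `M₀`
    have hprime_dvd : ∀ ℓ : ℕ, ℓ.Prime → ℓ ∣ M₀ → ℓ ∣ L ∨ ℓ ∈ Sg.erase 2 := by
      intro ℓ hℓ hd
      rcases (Nat.Prime.dvd_mul hℓ).mp hd with h | h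
      · exact Or.inl h
      · obtain ⟨x, hx, hℓx⟩ := (Prime.dvd_finsetProd_iff hℓ.prime _).mp h
        have hxp := (hSg' x hx).1
        have hℓeq : ℓ = x := (Nat.prime_dvd_prime_iff_eq hℓ hxp).mp (hℓ.dvd_of_dvd_pow hℓx)
        exact Or.inr (hℓeq ▸ hx)
    have hpM₀ : ¬ p ∣ M₀ := by
      intro h
      rcases hprime_dvd p hp h with h1 | h1
      · exact hpL h1
      · exact (hSg' p h1).2.1 rfl
    have h2M₀ : ¬ 2 ∣ M₀ := by
      intro h
      rcases hprime_dvd 2 Nat.prime_two h with h1 | h1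
      · exact h2L h1
      · exact h2notin h1
    -- exponents `≤ 2`
    have hexp : ∀ q : ℕ, q.Prime → M₀.factorization q ≤ 2 := by
      intro q hq
      rw [hfac q hq]
      by_cases hmem : q ∈ Sg.erase 2
      · rw [if_pos hmem]
        have : L.factorization q = 0 := Nat.factorization_eq_zero_of_not_dvd (hSgL' q hmem)
        omega
      · rw [if_neg hmem]
        have := factorization_le_one_of_squarefree hL q
        omega
    have hcube : ∀ q : ℕ, q.Prime → q ≠ p → ¬ q ^ 3 ∣ M₀ := by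
      intro q hq _ hd
      have := le_factorization_of_pow_dvd hM₀0 hq hd
      have := hexp q hq
      omega
    have hp2M : ¬ p ^ 2 ∣ M₀ := fun h => hpM₀ ((dvd_pow_self p two_ne_zero).trans h)
    -- the levels `4 M`, `M` odd
    set R' : ℕ → Prop := fun M => ¬ 2 ∣ M ∧ R (4 * M) with hR'
    have hSQ' : ∀ L' q : ℕ, L' ≠ 0 → q.Prime → q ≠ p → q ∣ L' → ¬ q ^ 2 ∣ L' →
        (q = 2 → 3 ∣ L') → (q = 3 → 2 ∣ L') → R' (L' * q) → R' L' := by
      intro L' q hL' hq hqp hqL' hq2 _ _ hRq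
      obtain ⟨hodd, hR4⟩ := hRq
      have hq2' : q ≠ 2 := fun h => hodd (h ▸ Dvd.intro_left L' rfl)
      have hq3 : q ≠ 3 := fun h => hqp (h.trans hp3.symm)
      have hoddL' : ¬ 2 ∣ L' := fun h => hodd (h.mul_right q)
      refine ⟨hoddL', ?_⟩
      refine hSQ (4 * L') q (mul_ne_zero (by norm_num) hL') hq hqp (hqL'.mul_left 4) ?_
        (fun h => absurd h hq2') (fun h => absurd h hq3) ?_
      · intro hd
        have hcop : Nat.Coprime (q ^ 2) 4 := by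
          have h1 : Nat.Coprime q 2 := (Nat.coprime_primes hq Nat.prime_two).2 hq2'
          have h2 : Nat.Coprime (q ^ 2) (2 ^ 2) := Nat.Coprime.pow 2 2 h1
          exact h2
        exact hq2 (hcop.dvd_of_dvd_mul_left hd)
      · have e : 4 * L' * q = 4 * (L' * q) := by ring
        rw [e]
        exact hR4
    have hR'M₀ : R' M₀ := ⟨h2M₀, hlev ▸ hR⟩
    obtain ⟨M, hMd, hMsq, hMR'⟩ := exists_sqfree_side (p := p) R' hSQ' M₀ hM₀0 hp2M hcube hR'M₀
      (fun h4 => absurd ((by norm_num : 2 ∣ 4).trans h4) h2M₀)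
      (fun h9 => absurd ((by norm_num : 3 ∣ 9).trans h9) (hp3 ▸ hpM₀))
    obtain ⟨hMo, hR4M⟩ := hMR'
    -- ONE step of SQ3, at the squarefree level `2 M`
    have hM0 : M ≠ 0 := hMsq.ne_zero
    have h2Msq : Squarefree (2 * M) :=
      (Nat.squarefree_mul_iff).mpr ⟨(Nat.Prime.coprime_iff_not_dvd Nat.prime_two).mpr hMo,
        Nat.prime_two.prime.squarefree, hMsq⟩
    have hpM : ¬ p ∣ M := fun h => hpM₀ (h.trans hMd)
    have hp2M' : ¬ p ∣ 2 * M := by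
      intro hd
      rcases (Nat.Prime.dvd_mul hp).mp hd with h | h
      · exact h2p ((Nat.prime_dvd_prime_iff_eq hp Nat.prime_two).mp h).symm
      · exact hpM h
    have hR2M : R (2 * M) := by
      refine hSQ3 hp3 (2 * M) (mul_ne_zero (by norm_num) hM0) h2Msq (Dvd.intro _ rfl)
        (hp3 ▸ hp2M') ?_
      have e : 2 * M * 2 = 4 * M := by ring
      rw [e]
      exact hR4M
    -- the LLQ descent from `2 M`
    obtain ⟨M₂, hM₂d, hM₂sq, hRM₂, hmin⟩ :=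
      exists_min_of_squarefree (p := p) R U hLLQ (2 * M) h2Msq hR2M
    have hM₂L : M₂ ∣ L := by
      refine dvd_of_squarefree_of_forall_prime hM₂sq fun ℓ hℓ hℓM₂ => ?_
      have hℓ2M : ℓ ∣ 2 * M := hℓM₂.trans hM₂d
      have hℓp : ℓ ≠ p := fun h => hp2M' (h ▸ hℓ2M)
      rcases (Nat.Prime.dvd_mul hℓ).mp hℓ2M with h | h
      · have hℓ2 : ℓ = 2 := (Nat.prime_dvd_prime_iff_eq hℓ Nat.prime_two).mp h
        exact absurd (hℓ2 ▸ hU2) (hmin ℓ hℓ hℓp hℓM₂)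
      · rcases hprime_dvd ℓ hℓ (h.trans hMd) with h1 | h1
        · exact h1
        · exact absurd (hSg' ℓ h1).2.2 (hmin ℓ hℓ hℓp hℓM₂)
    exact hno (hmono M₂ L hRM₂ hM₂L hL0)
  · exact not_R_stage_gen hp hp2 R U hmono hUlev hSQ hLLQ L hL hpL hno Sg hSg hSgL
      (fun hp3 h2 => h ⟨hp3, h2⟩)

end Fermat.Agent.GE8.Top.NotResModStage3SqAbs
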