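/-
GATE-E (S59) / RISK-6, consumer side, SQUAREFREE form (helper97): **`NotResModStage3.
not_resMod_stage3` over the node SQ3 at SQUAREFREE levels only** (`SQ3SqStmt`).

The node `NotResModStage3.SQ3Stmt` quantifies over every `L'` with `2 ∥ L'`, `3 ∤ L'`; its consumer
`not_resMod_stage3` uses it at `L' = 2 L ∏_{Sg ∖ 2} x²`, which is not squarefree.  The dictionary end
"`Hom(Γ₀(M), O)_𝔪 ≠ 0 ⟹ ρ̄` is of level `M`" on main (`GB/B7/HBnd.hbase_of_squarefree`) is available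
for SQUAREFREE `M` only (the boundary lemma (BND) fails at `x² ∣ M`, `x ≥ 5`).  Here the squares at
the odd primes are removed FIRST (node SQ at `q ≥ 5`, no frame side condition) and SQ3 is used ONCE,
at a squarefree `L'` (`NotResModStage3SqAbs.not_R_stage3_sq`).

* `SQ3SqStmt` : `SQ3Stmt` with the extra binder `Squarefree L'` — the target of `GE8/SQ3/Final`;
* `sq3Sq_of_sq3` : `SQ3Stmt → SQ3SqStmt` (nothing landed breaks);
* **`not_resMod_stage3_sq`** : `not_resMod_stage3` with `hSQ3 : SQ3SqStmt`, VERBATIM otherwise.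
-/
import Mathlib
import Fermat.Agent.GE8.Top.NotResModStage3
import Fermat.Agent.GE8.Top.NotResModStage3SqAbs

set_option autoImplicit false

open WeierstrassCurve WeierstrassCurve.Affine WeierstrassCurve.Affine.Point

namespace Fermat.Agent.GE8.Top.NotResModStage3Sq

open Fermat.Agent.GE8.Top.DescentAbs Fermat.Agent.GE8.Top.DescentSide
  Fermat.Agent.GE8.Top.MinLevel Fermat.Agent.GE8.RaiseP.Stmt Fermat.Agent.GE8.SQ.AuxPlug
  Fermat.Agent.GE8.Top.MinLevelSide Fermat.Agent.GE8.Top.NotResModStageAbs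
  Fermat.Agent.GE8.Top.NotResModStage3Abs Fermat.Agent.GE8.Top.NotResModStage3
  Fermat.Agent.GE8.Top.NotResModStage3SqAbs

/-- **node SQ3 at squarefree levels**: for a semistable `W` with `ρ̄_{W,3}` irreducible, level
`L' * 2` ⟹ level `L'` when `L'` is SQUAREFREE, even and prime to `3` (i.e. `4 L ⟹ 2 L`, `L` odd
squarefree prime to `3`). -/
def SQ3SqStmt : Prop :=
  ∀ (W : WeierstrassCurve ℤ) (_ : W.IsSemistableModel) (_ : W.Δ ≠ 0)
    (_ : W.ModRepIsIrreducible 3)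
    (L' : ℕ) [NeZero L'] (_ : Squarefree L') (_ : 2 ∣ L') (_ : ¬ 2 ^ 2 ∣ L') (_ : ¬ 3 ∣ L')
    (_ : W.IsResiduallyModularOfLevel 3 (L' * 2)), W.IsResiduallyModularOfLevel 3 L'

/-- the node at all levels gives the node at squarefree levels. -/
theorem sq3Sq_of_sq3 (h : SQ3Stmt) : SQ3SqStmt :=
  fun W hW hΔ hirr L' _ _ h2 h4 h3 hres => h W hW hΔ hirr L' h2 h4 h3 hres

variable {p : ℕ} [hpF : Fact p.Prime] (hp2 : p ≠ 2) (W : WeierstrassCurve ℤ) (hΔ : W.Δ ≠ 0)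
  (hW : W.IsSemistableModel) (hirr : W.ModRepIsIrreducible p)
  (hcard₁ : Nat.card (Submodule.torsionBy ℤ
    ((W.map (Int.castRingHom ℚ))⁄(AlgebraicClosure ℚ)).Point p) = p ^ 2)
  (hker : GaloisFactorsThroughFiniteLevel
    (WeierstrassCurve.Affine.Point.galoisRepModuleEnd (K := AlgebraicClosure ℚ) ℚ
      (W.map (Int.castRingHom ℚ)) p))

include hΔ hW hirr in
/-- `SQ3SqStmt` in the vocabulary of `not_R_stage3_sq`. -/
theorem sq3Sq_side (hSQ3 : SQ3SqStmt) (hp3 : p = 3) (L' : ℕ) (hL' : L' ≠ 0)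
    (hsq : Squarefree L') (h2 : 2 ∣ L') (h3 : ¬ 3 ∣ L')
    (h : W.IsResiduallyModularOfLevel p (L' * 2)) :
    W.IsResiduallyModularOfLevel p L' := by
  subst hp3
  have : NeZero L' := ⟨hL'⟩
  have h4 : ¬ 2 ^ 2 ∣ L' := fun hd =>
    Nat.prime_two.one_lt.ne' (Nat.isUnit_iff.mp (hsq 2 (by rwa [pow_two] at hd)))
  exact hSQ3 W hW hΔ hirr L' hsq h2 h4 h3 h

include hp2 hΔ hW hirr in
/-- **the stage levels prime to `p` of the très ramifiée branch are not levels of `ρ̄`** (every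
odd `p`, every stage `Sg`), over node SQ3 at SQUAREFREE levels only. -/
theorem not_resMod_stage3_sq (hSQ : SQSideStmt) (hSQ3 : SQ3SqStmt) (hLLQ : LLQStmt p)
    (M : ℕ) (hsq : Squarefree M) (hpM : p ∣ M)
    (hres : W.IsResiduallyModularOfLevel p M)
    (hmin : ∀ q : ℕ, q.Prime → q ≠ p → q ∣ M →
      ¬ ((W.map (Int.castRingHom ℚ)).residualGaloisRepOf p hcard₁ hker).IsUnramifiedAt q)
    (hno : ¬ W.IsResiduallyModularOfLevel p (M / p))
    (Sg : Finset ℕ) (hSg : ∀ q ∈ Sg, q.Prime ∧ ¬ q ∣ M ∧ q ≠ p) :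
    ¬ W.IsResiduallyModularOfLevel p (M / p * ∏ x ∈ Sg, x ^ 2) := by
  have hp : p.Prime := hpF.out
  have hM0 : M ≠ 0 := hsq.ne_zero
  have hdM : M / p ∣ M := Nat.div_dvd_of_dvd hpM
  have hpL : ¬ p ∣ M / p := by
    intro h
    obtain ⟨c, hc⟩ := h
    have h2 : p * p ∣ M := ⟨c, by rw [← Nat.mul_div_cancel' hpM, hc, mul_assoc]⟩
    exact hp.one_lt.ne' (Nat.isUnit_iff.mp (hsq p h2))
  refine not_R_stage3_sq hp hp2 (fun M => W.IsResiduallyModularOfLevel p M)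
    (fun q => ((W.map (Int.castRingHom ℚ)).residualGaloisRepOf p hcard₁ hker).IsUnramifiedAt q)
    (fun _ _ h hd h0 => Fermat.Agent.GB.Top.SplitT.isResiduallyModularOfLevel_of_dvd h hd h0)
    (fun M r hM h hr hrp hrM => unr_of_level hp2 W hΔ hirr hcard₁ hker M r hM h hr hrp hrM)
    (sq_side hp2 W hΔ hW hirr hSQ)
    (fun hp3 L' hL' hsq' h2 h3 h => sq3Sq_side W hΔ hW hirr hSQ3 hp3 L' hL' hsq' h2 h3 h)
    (fun M q hM hq hqp hqM hU h =>
      hLLQ W hΔ hW hcard₁ hker hirr M q hq hqp hqM (not_sq_dvd_of_squarefree hM hq) hM hU h)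
    (M / p) (hsq.squarefree_of_dvd hdM) hpL
    (fun q hq hqL => hmin q hq (fun h => hpL (h ▸ hqL)) (hqL.trans hdM))
    hno Sg
    (fun q hq => ⟨(hSg q hq).1, (hSg q hq).2.2,
      unr_of_level hp2 W hΔ hirr hcard₁ hker M q hM0 hres (hSg q hq).1 (hSg q hq).2.2
        (hSg q hq).2.1⟩)

end Fermat.Agent.GE8.Top.NotResModStage3Sq
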