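/-
GATE-E (S59) / E8 TOP (helper10, gate lead): **the side condition `p = 3 → 2 ∣ M` of node E8.4
(LLP: (DS-ω)/TORP + ORD, frames of `X₀(M)` at `3` need an even level) is absorbed at the top.**

E8.4 delivers level lowering at `p` only at levels `M` with `(p = 3 → 2 ∣ M)`
(`GS/Top/FrameNodeAll`, `GE8/LLP/NlAllRigid`, `GE8/LLP/DSOmegaStmt`: binder `hside`).  At `p = 3` and
an ODD squarefree level `M`, `3 ∣ M`:

  `M`  ⟶ (old forms)  `2 M`  ⟶ (E8.4 at the even level `2 M`)  `2 M / 3 = 2 (M / 3)`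
       ⟶ (`Aux3.Final.lower_two`: Mazur's principle at `q = 2`, binder-free, every odd `p`;
           `ρ̄` is unramified at `2` because it has the odd level `M`)  `M / 3`.

* `LLPGoodEvenStmt p`, `LLPPeuEvenStmt p` : the frozen S40 / S39 shapes for SEMISTABLE `W` at
  SQUAREFREE levels with the side condition `(p = 3 → 2 ∣ M)` — what node E8.4 has to deliver;
* `llp_of_even` : the three-step descent above, for an abstract E8.4 callback;
* `llpGood_sqfree_of_even`, `llpPeu_sqfree_of_even` : the callbacks `hLLP` of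
  `GE8/Top/DescentSide.exists_min_not_dvd_side` WITHOUT side condition;
* **`exists_minLevel_FL_even`**, **`exists_minLevel_peu_even`**, **`exists_minLevel_SO_peu_even`** :
  twins of helper20's `MinLevelSide.exists_minLevel_{FL,peu,SO_peu}_side` over the `Even` nodes
  (same conclusions VERBATIM, so `GE8/MinDatum` consumes them unchanged);
* `exists_minLevel_notDvd_sq`, `exists_minLevel_notDvd_even`, `exists_minLevel_SO_peu_cb` : the same
  for a BARE callback at `p` (this `W` only) — plug `Aux3/Strip2.lower_p_of_even` or helper5's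
  `GE8/LLP/S40Side` here;
* `llpGoodEven_of_llpPeuEven` : a good prime is peu ramifiée.
-/
import Mathlib
import Fermat.Agent.GE8.Top.MinLevelSide
import Fermat.Agent.GE8.LLQ.Aux3.Final

set_option autoImplicit false

open WeierstrassCurve WeierstrassCurve.Affine WeierstrassCurve.Affine.Point

namespace Fermat.Agent.GE8.Top.LLPEven

open Fermat.Agent.GE8.Top.DescentAbs Fermat.Agent.GE8.Top.DescentSide
  Fermat.Agent.GE8.Top.MinLevel Fermat.Agent.GE8.RaiseP.Stmt Fermat.Agent.GE8.SQ.AuxPlug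
  Fermat.Agent.GE8.Top.MinLevelSide

/-- **node E8.4, good case, as delivered**: the frozen S40 shape at `p` for semistable `W`, at
squarefree levels, with the frame side condition `p = 3 → 2 ∣ M`. -/
def LLPGoodEvenStmt (p : ℕ) : Prop :=
  ∀ (W : WeierstrassCurve ℤ), W.Δ ≠ 0 → W.IsSemistableModel → W.IsGoodPrimeFor p →
    W.ModRepIsIrreducible p →
    ∀ {M : ℕ}, Squarefree M → p ∣ M → (p = 3 → 2 ∣ M) → W.IsResiduallyModularOfLevel p M →
      W.IsResiduallyModularOfLevel p (M / p)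

/-- **node E8.4, peu ramifiée case, as delivered**: the frozen S39 shape at `p` for semistable `W`,
at squarefree levels, with the frame side condition `p = 3 → 2 ∣ M`. -/
def LLPPeuEvenStmt (p : ℕ) : Prop :=
  ∀ (W : WeierstrassCurve ℤ), W.Δ ≠ 0 → W.IsSemistableModel → W.ModRepIsIrreducible p →
    (W.map (Int.castRingHom ℚ)).IsPeuRamifieeAt p p →
    ∀ {M : ℕ}, Squarefree M → p ∣ M → (p = 3 → 2 ∣ M) → W.IsResiduallyModularOfLevel p M →
      W.IsResiduallyModularOfLevel p (M / p)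

/-- the S40 shape without side condition gives the `Even` node. -/
theorem llpGoodEven_of_llpGood {p : ℕ} (hp : p.Prime) (h : LLPGoodStmt p) : LLPGoodEvenStmt p := by
  intro W hΔ _ hgood hirr M hM hpM _ hres
  exact h W hΔ hgood hirr (Nat.pos_of_ne_zero hM.ne_zero) hpM (not_sq_dvd_of_squarefree hM hp) hres

/-- the S39 shape without side condition gives the `Even` node. -/
theorem llpPeuEven_of_llpPeu {p : ℕ} (hp : p.Prime) (h : LLPPeuStmt p) : LLPPeuEvenStmt p := by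
  intro W hΔ hW hirr hfin M hM hpM _ hres
  exact h W hΔ (hW p hp) hirr hfin (Nat.pos_of_ne_zero hM.ne_zero) hpM
    (not_sq_dvd_of_squarefree hM hp) hres

section Descent

variable {p : ℕ} [hpF : Fact p.Prime] (hp2 : p ≠ 2) (W : WeierstrassCurve ℤ) (hΔ : W.Δ ≠ 0)
  (hW : W.IsSemistableModel) (hirr : W.ModRepIsIrreducible p)
  (hcard₁ : Nat.card (Submodule.torsionBy ℤ
    ((W.map (Int.castRingHom ℚ))⁄(AlgebraicClosure ℚ)).Point p) = p ^ 2)
  (hker : GaloisFactorsThroughFiniteLevel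
    (WeierstrassCurve.Affine.Point.galoisRepModuleEnd (K := AlgebraicClosure ℚ) ℚ
      (W.map (Int.castRingHom ℚ)) p))

include hp2 hΔ hW hirr hcard₁ hker in
/-- **the side condition `p = 3 → 2 ∣ M` is absorbed**: raise the level by `2` (old forms), lower
`p` at the even level, strip `2` by Mazur's principle at `q = 2` (`Aux3.Final.lower_two`). -/
theorem llp_of_even
    (hE : ∀ M : ℕ, Squarefree M → p ∣ M → (p = 3 → 2 ∣ M) →
      W.IsResiduallyModularOfLevel p M → W.IsResiduallyModularOfLevel p (M / p))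
    (M : ℕ) (hM : Squarefree M) (hpM : p ∣ M) (hres : W.IsResiduallyModularOfLevel p M) :
    W.IsResiduallyModularOfLevel p (M / p) := by
  have hp : p.Prime := hpF.out
  by_cases hs : p = 3 → 2 ∣ M
  · exact hE M hM hpM hs hres
  · -- `p = 3`, `M` odd
    have h2M : ¬ 2 ∣ M := fun h => hs fun _ => h
    have hM0 : M ≠ 0 := hM.ne_zero
    have h2p : (2 : ℕ) ≠ p := fun h => hp2 h.symm
    -- `ρ̄` is unramified at `2`
    have hunr := unr_of_level hp2 W hΔ hirr hcard₁ hker M 2 hM0 hres Nat.prime_two h2p h2M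
    -- the even level `2 M`
    have h2M0 : 2 * M ≠ 0 := mul_ne_zero two_ne_zero hM0
    have hres2 : W.IsResiduallyModularOfLevel p (2 * M) :=
      Fermat.Agent.GB.Top.SplitT.isResiduallyModularOfLevel_of_dvd hres (Dvd.intro_left 2 rfl) h2M0
    have hcop : Nat.Coprime 2 M := (Nat.Prime.coprime_iff_not_dvd Nat.prime_two).2 h2M
    have hsq2 : Squarefree (2 * M) :=
      (Nat.squarefree_mul_iff).2 ⟨hcop, Nat.prime_two.squarefree, hM⟩
    have hp2M : p ∣ 2 * M := Dvd.dvd.mul_left hpM 2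
    -- E8.4 at the even level
    have h1 := hE (2 * M) hsq2 hp2M (fun _ => Dvd.intro _ rfl) hres2
    have hdiv : 2 * M / p = 2 * (M / p) := Nat.mul_div_assoc 2 hpM
    rw [hdiv] at h1
    -- strip `2`
    have hsq3 : Squarefree (2 * (M / p)) :=
      hsq2.squarefree_of_dvd (Nat.mul_dvd_mul_left 2 (Nat.div_dvd_of_dvd hpM))
    have h2 := Fermat.Agent.GE8.LLQ.Aux3.Final.lower_two p hp2 W hΔ hW hcard₁ hker hirr
      (2 * (M / p)) (Dvd.intro _ rfl) hsq3 hunr h1
    rwa [Nat.mul_div_cancel_left _ (by norm_num : 0 < 2)] at h2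

include hp2 hΔ hW hirr hcard₁ hker in
/-- the good-case callback of `DescentSide.exists_min_not_dvd_side`, no side condition. -/
theorem llpGood_sqfree_of_even (hLLP : LLPGoodEvenStmt p) (hgood : W.IsGoodPrimeFor p)
    (M : ℕ) (hM : Squarefree M) (hpM : p ∣ M) (hres : W.IsResiduallyModularOfLevel p M) :
    W.IsResiduallyModularOfLevel p (M / p) :=
  llp_of_even hp2 W hΔ hW hirr hcard₁ hker
    (fun _ hM' hpM' hs h => hLLP W hΔ hW hgood hirr hM' hpM' hs h) M hM hpM hres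

include hp2 hΔ hW hirr hcard₁ hker in
/-- the peu-ramifiée callback of `DescentSide.exists_min_not_dvd_side`, no side condition. -/
theorem llpPeu_sqfree_of_even (hLLP : LLPPeuEvenStmt p)
    (hfin : (W.map (Int.castRingHom ℚ)).IsPeuRamifieeAt p p)
    (M : ℕ) (hM : Squarefree M) (hpM : p ∣ M) (hres : W.IsResiduallyModularOfLevel p M) :
    W.IsResiduallyModularOfLevel p (M / p) :=
  llp_of_even hp2 W hΔ hW hirr hcard₁ hker
    (fun _ hM' hpM' hs h => hLLP W hΔ hW hirr hfin hM' hpM' hs h) M hM hpM hres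

include hp2 hΔ hW hirr in
/-- **the descent to a minimal level prime to `p`, for a BARE squarefree-level callback at `p`**
(this `W` only): the most flexible form of `MinLevelSide.exists_minLevel_{FL,peu}_side`. -/
theorem exists_minLevel_notDvd_sq (hSQ : SQSideStmt) (hLLQ : LLQStmt p)
    (hLLP : ∀ M : ℕ, Squarefree M → p ∣ M → W.IsResiduallyModularOfLevel p M →
      W.IsResiduallyModularOfLevel p (M / p))
    (M₀ : ℕ) (hM₀ : M₀ ≠ 0) (hres₀ : W.IsResiduallyModularOfLevel p M₀) (hp2M : ¬ p ^ 2 ∣ M₀)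
    (hcube : ∀ q : ℕ, q.Prime → q ≠ p → ¬ q ^ 3 ∣ M₀) :
    ∃ M : ℕ, M ∣ M₀ ∧ Squarefree M ∧ ¬ p ∣ M ∧ W.IsResiduallyModularOfLevel p M ∧
      ∀ q : ℕ, q.Prime → q ≠ p → q ∣ M →
        ¬ ((W.map (Int.castRingHom ℚ)).residualGaloisRepOf p hcard₁ hker).IsUnramifiedAt q :=
  exists_min_not_dvd_side hpF.out (fun M => W.IsResiduallyModularOfLevel p M)
    (fun q => ((W.map (Int.castRingHom ℚ)).residualGaloisRepOf p hcard₁ hker).IsUnramifiedAt q)
    (fun _ _ h hd h0 => Fermat.Agent.GB.Top.SplitT.isResiduallyModularOfLevel_of_dvd h hd h0)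
    (fun M r hM h hr hrp hrM => unr_of_level hp2 W hΔ hirr hcard₁ hker M r hM h hr hrp hrM)
    (sq_side hp2 W hΔ hW hirr hSQ)
    (fun M q hM hq hqp hqM hU h =>
      hLLQ W hΔ hW hcard₁ hker hirr M q hq hqp hqM (not_sq_dvd_of_squarefree hM hq) hM hU h)
    hLLP M₀ hM₀ hp2M hcube hres₀

include hp2 hΔ hW hirr in
/-- the same from a callback at EVEN-if-`p = 3` squarefree levels. -/
theorem exists_minLevel_notDvd_even (hSQ : SQSideStmt) (hLLQ : LLQStmt p)
    (hE : ∀ M : ℕ, Squarefree M → p ∣ M → (p = 3 → 2 ∣ M) →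
      W.IsResiduallyModularOfLevel p M → W.IsResiduallyModularOfLevel p (M / p))
    (M₀ : ℕ) (hM₀ : M₀ ≠ 0) (hres₀ : W.IsResiduallyModularOfLevel p M₀) (hp2M : ¬ p ^ 2 ∣ M₀)
    (hcube : ∀ q : ℕ, q.Prime → q ≠ p → ¬ q ^ 3 ∣ M₀) :
    ∃ M : ℕ, M ∣ M₀ ∧ Squarefree M ∧ ¬ p ∣ M ∧ W.IsResiduallyModularOfLevel p M ∧
      ∀ q : ℕ, q.Prime → q ≠ p → q ∣ M →
        ¬ ((W.map (Int.castRingHom ℚ)).residualGaloisRepOf p hcard₁ hker).IsUnramifiedAt q :=
  exists_minLevel_notDvd_sq hp2 W hΔ hW hirr hcard₁ hker hSQ hLLQ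
    (llp_of_even hp2 W hΔ hW hirr hcard₁ hker hE) M₀ hM₀ hres₀ hp2M hcube

include hp2 hΔ hW hirr in
/-- **the descent, flat case** over the `Even` node: twin of `MinLevelSide.exists_minLevel_FL_side`. -/
theorem exists_minLevel_FL_even (hSQ : SQSideStmt) (hLLQ : LLQStmt p)
    (hLLP : LLPGoodEvenStmt p) (hgood : W.IsGoodPrimeFor p)
    (M₀ : ℕ) (hM₀ : M₀ ≠ 0) (hres₀ : W.IsResiduallyModularOfLevel p M₀) (hp2M : ¬ p ^ 2 ∣ M₀)
    (hcube : ∀ q : ℕ, q.Prime → q ≠ p → ¬ q ^ 3 ∣ M₀) :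
    ∃ M : ℕ, M ∣ M₀ ∧ Squarefree M ∧ ¬ p ∣ M ∧ W.IsResiduallyModularOfLevel p M ∧
      ∀ q : ℕ, q.Prime → q ≠ p → q ∣ M →
        ¬ ((W.map (Int.castRingHom ℚ)).residualGaloisRepOf p hcard₁ hker).IsUnramifiedAt q :=
  exists_min_not_dvd_side hpF.out (fun M => W.IsResiduallyModularOfLevel p M)
    (fun q => ((W.map (Int.castRingHom ℚ)).residualGaloisRepOf p hcard₁ hker).IsUnramifiedAt q)
    (fun _ _ h hd h0 => Fermat.Agent.GB.Top.SplitT.isResiduallyModularOfLevel_of_dvd h hd h0)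
    (fun M r hM h hr hrp hrM => unr_of_level hp2 W hΔ hirr hcard₁ hker M r hM h hr hrp hrM)
    (sq_side hp2 W hΔ hW hirr hSQ)
    (fun M q hM hq hqp hqM hU h =>
      hLLQ W hΔ hW hcard₁ hker hirr M q hq hqp hqM (not_sq_dvd_of_squarefree hM hq) hM hU h)
    (fun M hM hpM h =>
      llpGood_sqfree_of_even hp2 W hΔ hW hirr hcard₁ hker hLLP hgood M hM hpM h)
    M₀ hM₀ hp2M hcube hres₀

include hp2 hΔ hW hirr in
/-- **the descent, peu ramifiée at `p`** over the `Even` node: twin of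
`MinLevelSide.exists_minLevel_peu_side`. -/
theorem exists_minLevel_peu_even (hSQ : SQSideStmt) (hLLQ : LLQStmt p)
    (hLLP : LLPPeuEvenStmt p) (hfin : (W.map (Int.castRingHom ℚ)).IsPeuRamifieeAt p p)
    (M₀ : ℕ) (hM₀ : M₀ ≠ 0) (hres₀ : W.IsResiduallyModularOfLevel p M₀) (hp2M : ¬ p ^ 2 ∣ M₀)
    (hcube : ∀ q : ℕ, q.Prime → q ≠ p → ¬ q ^ 3 ∣ M₀) :
    ∃ M : ℕ, M ∣ M₀ ∧ Squarefree M ∧ ¬ p ∣ M ∧ W.IsResiduallyModularOfLevel p M ∧
      ∀ q : ℕ, q.Prime → q ≠ p → q ∣ M →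
        ¬ ((W.map (Int.castRingHom ℚ)).residualGaloisRepOf p hcard₁ hker).IsUnramifiedAt q :=
  exists_min_not_dvd_side hpF.out (fun M => W.IsResiduallyModularOfLevel p M)
    (fun q => ((W.map (Int.castRingHom ℚ)).residualGaloisRepOf p hcard₁ hker).IsUnramifiedAt q)
    (fun _ _ h hd h0 => Fermat.Agent.GB.Top.SplitT.isResiduallyModularOfLevel_of_dvd h hd h0)
    (fun M r hM h hr hrp hrM => unr_of_level hp2 W hΔ hirr hcard₁ hker M r hM h hr hrp hrM)
    (sq_side hp2 W hΔ hW hirr hSQ)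
    (fun M q hM hq hqp hqM hU h =>
      hLLQ W hΔ hW hcard₁ hker hirr M q hq hqp hqM (not_sq_dvd_of_squarefree hM hq) hM hU h)
    (fun M hM hpM h =>
      llpPeu_sqfree_of_even hp2 W hΔ hW hirr hcard₁ hker hLLP hfin M hM hpM h)
    M₀ hM₀ hp2M hcube hres₀

include hp2 hΔ hW hirr in
/-- **the descent, multiplicative peu ramifiée case** over the `Even` node: twin of
`MinLevelSide.exists_minLevel_SO_peu_side`. -/
theorem exists_minLevel_SO_peu_even (hSQ : SQSideStmt) (hLLQ : LLQStmt p)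
    (hLLP : LLPPeuEvenStmt p) (hraise : RaisePStmt p) (hmult : (p : ℤ) ∣ W.Δ)
    (hfin : (W.map (Int.castRingHom ℚ)).IsPeuRamifieeAt p p)
    (M₀ : ℕ) (hM₀ : M₀ ≠ 0) (hres₀ : W.IsResiduallyModularOfLevel p M₀) (hp2M : ¬ p ^ 2 ∣ M₀)
    (hcube : ∀ q : ℕ, q.Prime → q ≠ p → ¬ q ^ 3 ∣ M₀) :
    ∃ N : ℕ, N ∣ M₀ ∧ Squarefree N ∧ ¬ p ∣ N ∧ W.IsResiduallyModularOfLevel p N ∧
      (∀ q : ℕ, q.Prime → q ≠ p → q ∣ N →
        ¬ ((W.map (Int.castRingHom ℚ)).residualGaloisRepOf p hcard₁ hker).IsUnramifiedAt q) ∧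
      ((p = 3 → 2 ∣ N) → IsResiduallyModularNewAt W p (N * p) p) := by
  obtain ⟨N, hNd, hNsq, hpN, hres, hmin⟩ := exists_minLevel_peu_even hp2 W hΔ hW hirr hcard₁ hker
    hSQ hLLQ hLLP hfin M₀ hM₀ hres₀ hp2M hcube
  exact ⟨N, hNd, hNsq, hpN, hres, hmin, fun hside =>
    hraise W hΔ hmult (hW p hpF.out hmult) hirr (Nat.pos_of_ne_zero hNsq.ne_zero) hpN hside hres⟩

include hp2 hΔ hW hirr in
/-- **the descent, multiplicative peu ramifiée case, for a BARE callback at `p`** at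
EVEN-if-`p = 3` squarefree levels (this `W` only). -/
theorem exists_minLevel_SO_peu_cb (hSQ : SQSideStmt) (hLLQ : LLQStmt p)
    (hE : ∀ M : ℕ, Squarefree M → p ∣ M → (p = 3 → 2 ∣ M) →
      W.IsResiduallyModularOfLevel p M → W.IsResiduallyModularOfLevel p (M / p))
    (hraise : RaisePStmt p) (hmult : (p : ℤ) ∣ W.Δ)
    (M₀ : ℕ) (hM₀ : M₀ ≠ 0) (hres₀ : W.IsResiduallyModularOfLevel p M₀) (hp2M : ¬ p ^ 2 ∣ M₀)
    (hcube : ∀ q : ℕ, q.Prime → q ≠ p → ¬ q ^ 3 ∣ M₀) :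
    ∃ N : ℕ, N ∣ M₀ ∧ Squarefree N ∧ ¬ p ∣ N ∧ W.IsResiduallyModularOfLevel p N ∧
      (∀ q : ℕ, q.Prime → q ≠ p → q ∣ N →
        ¬ ((W.map (Int.castRingHom ℚ)).residualGaloisRepOf p hcard₁ hker).IsUnramifiedAt q) ∧
      ((p = 3 → 2 ∣ N) → IsResiduallyModularNewAt W p (N * p) p) := by
  obtain ⟨N, hNd, hNsq, hpN, hres, hmin⟩ := exists_minLevel_notDvd_even hp2 W hΔ hW hirr hcard₁
    hker hSQ hLLQ hE M₀ hM₀ hres₀ hp2M hcube
  exact ⟨N, hNd, hNsq, hpN, hres, hmin, fun hside =>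
    hraise W hΔ hmult (hW p hpF.out hmult) hirr (Nat.pos_of_ne_zero hNsq.ne_zero) hpN hside hres⟩

end Descent

/-- a good prime is peu ramifiée. -/
theorem isPeuRamifieeAt_of_good {p : ℕ} (hp : p.Prime) (W : WeierstrassCurve ℤ)
    (hgood : W.IsGoodPrimeFor p) : (W.map (Int.castRingHom ℚ)).IsPeuRamifieeAt p p := by
  unfold WeierstrassCurve.IsPeuRamifieeAt
  have hΔmap : (W.map (Int.castRingHom ℚ)).Δ = ((W.Δ : ℤ) : ℚ) := by
    rw [WeierstrassCurve.map_Δ]
    rfl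
  have : Fact p.Prime := ⟨hp⟩
  have hv : padicValRat p (W.map (Int.castRingHom ℚ)).Δ = 0 := by
    rw [hΔmap, padicValRat.of_int]
    exact_mod_cast (padicValInt.eq_zero_of_not_dvd hgood)
  rw [hv]
  exact dvd_zero _

/-- a good prime is peu ramifiée: the S39-shaped `Even` node gives the S40-shaped one. -/
theorem llpGoodEven_of_llpPeuEven {p : ℕ} (hp : p.Prime) (h : LLPPeuEvenStmt p) :
    LLPGoodEvenStmt p := by
  intro W hΔ hW hgood hirr M hM hpM hs hres
  exact h W hΔ hW hirr (isPeuRamifieeAt_of_good hp W hgood) hM hpM hs hres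

end Fermat.Agent.GE8.Top.LLPEven
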