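/-
GATE-E (S59) / E8 TOP, plugs (helper20): the node statements of `GE8/Top/MinLevel` from the landed
nodes.

* `sqSemiStmt_of_sqStmt` : `SQSemiStmt p` from helper97's `GE8/SQ/Top.SQStmt` through helper21's
  `GE8/SQ/Unip.sq_semistable` (`hunip` discharged for semistable `W`);
* `sqSemiStmt_of_gate`   : … from `MP2Gate` and `AuxStmt` (`Top.sq_of_gate_aux`).
-/
import Fermat.Agent.GE8.Top.MinLevel
import Fermat.Agent.GE8.SQ.Unip
import Fermat.Agent.GE.Tors.Cor
import Fermat.Agent.GE.Top.ECAssembly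

set_option autoImplicit false

open WeierstrassCurve

namespace Fermat.Agent.GE8.Top.MinLevelPlug

open Fermat.Agent.GE8.Top.MinLevel Fermat.Agent.GE8.SQ.Top

/-- **node SQ for semistable curves from helper97's `SQStmt`.** -/
theorem sqSemiStmt_of_sqStmt {p : ℕ} [hpF : Fact p.Prime] (hp2 : p ≠ 2) (hsq : SQStmt) :
    SQSemiStmt p := by
  intro W hW hΔ hirr L' q hL' hq hqp hqL' hq2 hres
  haveI : NeZero L' := ⟨hL'⟩
  haveI : Fact q.Prime := ⟨hq⟩
  exact Fermat.Agent.GE8.SQ.Unip.sq_semistable hsq p hp2 W hW hΔ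
    (Fermat.Agent.GE.Tors.card_torsionBy (Fermat.Agent.GE.ECAssembly.eqb_Δ_ne_zero W hΔ) p
      hpF.out.one_le) hirr L' q hqp hqL' hq2 hres

/-- **node SQ for semistable curves from the geometric gate and the auxiliary-prime node.** -/
theorem sqSemiStmt_of_gate {p : ℕ} [Fact p.Prime] (hp2 : p ≠ 2) (hgate : MP2Gate)
    (haux : AuxStmt) : SQSemiStmt p :=
  sqSemiStmt_of_sqStmt hp2 (sq_of_gate_aux hgate haux)

end Fermat.Agent.GE8.Top.MinLevelPlug
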