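/-
GATE-E (S59) / E8 TOP (helper20): **RAISE-P and DELIGNE-MODP WITHOUT the side condition
`p = 3 → 2 ∣ N`.**

The side condition of `GE8/RaiseP/Stmt.DeligneModPStmt` / `RaisePStmt` (level package of GJ/S37 at
`ℓ = 3`: tame chart `t₂`, `2 ∣ N`) is removed by old forms: for `p = 3`, `2 ∤ N`, an eigenform `f`
of level `N` has a companion `g` of level `N · 2` with `a_ℓ(g) = a_ℓ(f)` for every prime `ℓ ≠ 2`
(`GE/Stab.exists_eigenform_of_dvd`), in particular `a_p(g) = a_p(f)`; DELIGNE-MODP at level `N · 2`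
gives `a_p(f)² ≡ 1 (mod 𝔪)`, and the core of RAISE-P (`Plug.raisePCoreStmt`, no side condition)
produces the `p`-NEW form at the ORIGINAL level `N p`.

* `DeligneModPFreeStmt p`, `deligneModP_free (hp2) : DeligneModPFreeStmt p`;
* `RaisePFreeStmt p`,      `raiseP_free (hp2) : RaisePFreeStmt p`;
* `raisePStmt_of_free`.
So the engine's SO-peu branch at `p = 3` needs NO `2 ∣ N` (an odd minimal level is fine).
-/
import Mathlib
import Fermat.Agent.GE8.RaiseP.Deligne.ClaimPlug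
import Fermat.Agent.GE.Stab

set_option autoImplicit false

open WeierstrassCurve CuspForm

namespace Fermat.Agent.GE8.Top.RaisePFree

open Fermat.Agent.GE8.RaiseP.Stmt

/-- `ℤ̄ ⊆ ℂ`. -/
local notation "Zbar" => integralClosure ℤ ℂ

/-- **DELIGNE-MODP without side condition.** -/
def DeligneModPFreeStmt (p : ℕ) : Prop :=
  ∀ (W : WeierstrassCurve ℤ), W.Δ ≠ 0 → (p : ℤ) ∣ W.Δ → ¬ (p : ℤ) ∣ W.c₄ →
    W.ModRepIsIrreducible p →
    ∀ {N : ℕ}, 0 < N → ¬ p ∣ N →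
    ∀ (f : CuspForm (CongruenceSubgroup.Gamma0 N) 2) (𝔪 : Ideal Zbar),
      f.IsNormalizedEigenform → 𝔪.IsMaximal → (p : Zbar) ∈ 𝔪 →
      (∀ ℓ : ℕ, ℓ.Prime → W.IsGoodPrimeFor ℓ → ¬ ℓ ∣ N → ℓ ≠ p →
        ∃ a : Zbar, (a : ℂ) = ModularFormClass.qCoeff f ℓ ∧
          a - ((W.apOfModel ℓ : ℤ) : Zbar) ∈ 𝔪) →
      ∃ a : Zbar, (a : ℂ) = ModularFormClass.qCoeff f p ∧ a ^ 2 - 1 ∈ 𝔪

/-- **RAISE-P without side condition.** -/
def RaisePFreeStmt (p : ℕ) : Prop :=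
  ∀ (W : WeierstrassCurve ℤ), W.Δ ≠ 0 → (p : ℤ) ∣ W.Δ → ¬ (p : ℤ) ∣ W.c₄ →
    W.ModRepIsIrreducible p →
    ∀ {N : ℕ}, 0 < N → ¬ p ∣ N →
    W.IsResiduallyModularOfLevel p N → IsResiduallyModularNewAt W p (N * p) p

/-- the side condition of DELIGNE-MODP is removed by old forms at `2`. -/
theorem deligneModPFree_of_deligneModP {p : ℕ} (hp : p.Prime) (hp2 : p ≠ 2)
    (hD : DeligneModPStmt p) : DeligneModPFreeStmt p := by
  intro W hΔ hpΔ hc₄ hirr N hN hpN f 𝔪 hf hmax hpm hcong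
  by_cases hside : p = 3 → 2 ∣ N
  · exact hD W hΔ hpΔ hc₄ hirr hN hpN hside f 𝔪 hf hmax hpm hcong
  · -- `p = 3`, `2 ∤ N`: pass to level `N * 2`
    have h2N : ¬ 2 ∣ N := fun h => hside (fun _ => h)
    have hN2 : N * 2 ≠ 0 := by omega
    have hdiv : N * 2 / N = 2 := Nat.mul_div_cancel_left 2 hN
    obtain ⟨g, hg, hgf⟩ := Fermat.Agent.GE.Stab.exists_eigenform_of_dvd
      (Dvd.intro 2 rfl : N ∣ N * 2) hN2 hf
    have hp2' : ¬ p ∣ 2 := by
      intro h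
      exact hp2 ((Nat.prime_dvd_prime_iff_eq hp Nat.prime_two).mp h)
    have hpN2 : ¬ p ∣ N * 2 := by
      intro h
      rcases (Nat.Prime.dvd_mul hp).mp h with h1 | h1
      · exact hpN h1
      · exact hp2' h1
    obtain ⟨a, ha, ha2⟩ := hD W hΔ hpΔ hc₄ hirr (by omega : 0 < N * 2) hpN2
      (fun _ => Dvd.intro_left N rfl) g 𝔪 hg hmax hpm (by
        intro ℓ hℓ hgood hℓN2 hℓp
        have hℓN : ¬ ℓ ∣ N := fun h => hℓN2 (h.trans (Dvd.intro 2 rfl))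
        have hℓ2 : ¬ ℓ ∣ N * 2 / N := by
          rw [hdiv]
          exact fun h => hℓN2 (h.trans (Dvd.intro_left N rfl))
        obtain ⟨a, ha, hmem⟩ := hcong ℓ hℓ hgood hℓN hℓp
        exact ⟨a, by rw [ha, hgf ℓ hℓ hℓ2], hmem⟩)
    refine ⟨a, ?_, ha2⟩
    rw [ha, hgf p hp (by rw [hdiv]; exact hp2')]

/-- **DELIGNE-MODP without side condition is a theorem** (`p` odd). -/
theorem deligneModP_free {p : ℕ} [hpF : Fact p.Prime] (hp2 : p ≠ 2) : DeligneModPFreeStmt p :=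
  deligneModPFree_of_deligneModP hpF.out hp2
    (Fermat.Agent.GE8.RaiseP.Deligne.ClaimPlug.deligneModP hp2)

/-- **RAISE-P without side condition is a theorem** (`p` odd). -/
theorem raiseP_free {p : ℕ} [hpF : Fact p.Prime] (hp2 : p ≠ 2) : RaisePFreeStmt p := by
  intro W hΔ hpΔ hc₄ hirr N hN hpN hres
  obtain ⟨f, 𝔪, hf, hmax, hpm, hcong⟩ := hres
  exact Fermat.Agent.GE8.RaiseP.Plug.raisePCoreStmt p W hΔ hpF.out hp2 hN hpN hirr f 𝔪 hf hmax hpm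
    hcong (deligneModP_free hp2 W hΔ hpΔ hc₄ hirr hN hpN f 𝔪 hf hmax hpm hcong)

/-- the side-condition form from the free form. -/
theorem raisePStmt_of_free {p : ℕ} (h : RaisePFreeStmt p) : RaisePStmt p :=
  fun W hΔ hpΔ hc₄ hirr _ hN hpN _ hres => h W hΔ hpΔ hc₄ hirr hN hpN hres

end Fermat.Agent.GE8.Top.RaisePFree
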