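/-
GATE-E (S59) / E8 TOP → E8.7 MINDATUM bridge (helper20): **the minimality clause of
`GE8/Top/MinLevelSide` is `P.Su = ∅`** for every SETUP bundle `P : SetupPkg.Pkg p W hcard₁ hker M A`
at the minimal level `M`.

* `isUnramifiedAt_of_baseChange` : unramifiedness descends from `ρ̄ ⊗ k` to `ρ̄` (the base change of
  endomorphisms is injective);
* `su_eq_empty` : `(∀ q prime, q ≠ p → q ∣ M → ¬ ρ̄.IsUnramifiedAt q) → P.Su = ∅`
  (= the binder `hSu` of `GE8/MinDatum.exists_minDatum_FL / _SO`, `mem_Smin_of_dvd`);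
* `smin_eq` : then `q ∈ P.Smin ↔ q = p ∨ q ∣ M` for primes `q`.
-/
import Mathlib
import Fermat.Agent.GB.Setup.SetupPkg

set_option autoImplicit false

open WeierstrassCurve WeierstrassCurve.Affine.Point IsLocalRing
open scoped WeierstrassCurve.Affine

namespace Fermat.Agent.GE8.Top.SuEmpty

open Fermat.Agent.GB.Setup.RhoBar Fermat.Agent.GB.Setup.SetupPkg

variable {p : ℕ} [Fact p.Prime] {W : WeierstrassCurve ℤ}
  {hcard₁ : Nat.card (Submodule.torsionBy ℤ
    ((W.map (Int.castRingHom ℚ))⁄(AlgebraicClosure ℚ)).Point p) = p ^ 2}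
  {hker : GaloisFactorsThroughFiniteLevel
    (galoisRepModuleEnd (K := AlgebraicClosure ℚ) ℚ (W.map (Int.castRingHom ℚ)) p)}

/-- unramifiedness descends along a base change of the coefficient field. -/
theorem isUnramifiedAt_of_baseChange (k : Type) [Field k] [Algebra (ZMod p) k] {r : ℕ}
    (h : ((rb p W hcard₁ hker).baseChange k).IsUnramifiedAt r) :
    (rb p W hcard₁ hker).IsUnramifiedAt r := by
  intro A hA σ hσ
  have h2 : ((rb p W hcard₁ hker).baseChange k).ρ σ = 1 := h A hA σ hσ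
  apply LinearMap.baseChangeHom_injective (ZMod p) (rb p W hcard₁ hker).V k
  change Module.End.baseChangeHom (ZMod p) k (rb p W hcard₁ hker).V ((rb p W hcard₁ hker).ρ σ) =
    Module.End.baseChangeHom (ZMod p) k (rb p W hcard₁ hker).V 1
  rw [map_one]
  exact h2

variable {M A : ℕ} (P : Pkg p W hcard₁ hker M A)

/-- **the minimality clause of the descent is `P.Su = ∅`.** -/
theorem su_eq_empty
    (hmin : ∀ q : ℕ, q.Prime → q ≠ p → q ∣ M →
      ¬ ((W.map (Int.castRingHom ℚ)).residualGaloisRepOf p hcard₁ hker).IsUnramifiedAt q) :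
    P.Su = ∅ := by
  rw [Finset.eq_empty_iff_forall_notMem]
  intro q hq
  obtain ⟨h1, h2, h3, h4⟩ := P.mem_Su_iff.mp hq
  exact hmin q h1 h3 h2 (isUnramifiedAt_of_baseChange P.k h4)

/-- at a minimal level `Smin` is the set of primes of `M p`. -/
theorem mem_smin_iff
    (hmin : ∀ q : ℕ, q.Prime → q ≠ p → q ∣ M →
      ¬ ((W.map (Int.castRingHom ℚ)).residualGaloisRepOf p hcard₁ hker).IsUnramifiedAt q)
    {q : ℕ} (hq : q.Prime) : q ∈ P.Smin ↔ q = p ∨ q ∣ M := by
  constructor
  · exact fun h => P.dvd_of_mem_Smin h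
  · rintro (rfl | h)
    · exact P.p_mem_Smin
    · by_cases hqp : q = p
      · rw [hqp]; exact P.p_mem_Smin
      · rcases P.mem_Smin_or_mem_Su hq h hqp with h' | h'
        · exact h'
        · rw [su_eq_empty P hmin] at h'
          exact absurd h' (Finset.notMem_empty q)

end Fermat.Agent.GE8.Top.SuEmpty
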